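/-
Program G / package Kum, row KUM-PEREXP (helper8), base file (imports S24 `CuspExp` + Mathlib only):
`gkm_hasCuspExp_of_bound` : a holomorphic `h`-periodic function `f` on `ℍ` such that
`f · exp(2πi K τ / h)` is bounded at `i∞` has an expansion in `q_h = exp(2πiτ/h)` valid on the whole
of `ℍ` (Mathlib `UpperHalfPlane.hasSum_qExpansion` applied to `f · q_h^K`, then shift by `K`).
-/
import Mathlib
import Fermat.Agent.S24.CuspExp

set_option autoImplicit false

noncomputable section

namespace Fermat.Agent.G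

open UpperHalfPlane ModularCurve Fermat.Agent.S24
open scoped MatrixGroups Manifold ModularForm Real

/-- the Laurent series with coefficients `c (m + K)` (`m ≥ -K`). -/
def gkmpShift (c : ℕ → ℂ) (K : ℕ) : LaurentSeries ℂ :=
  HahnSeries.ofSuppBddBelow (fun m : ℤ => if 0 ≤ m + K then c (m + K).toNat else 0)
    ⟨-(K : ℤ), fun m hm => by
      rw [Function.mem_support] at hm
      by_contra hlt
      push Not at hlt
      apply hm
      rw [if_neg (by omega)]⟩

theorem gkmpShift_coeff (c : ℕ → ℂ) (K : ℕ) (m : ℤ) :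
    (gkmpShift c K).coeff m = if 0 ≤ m + K then c (m + K).toNat else 0 := rfl

/-- an expansion of `f · q_h^K` in nonnegative powers of `q_h` gives an expansion of `f`. -/
theorem gkmp_hasCuspExp_shift {h : ℕ} {f : ℍ → ℂ} {c : ℕ → ℂ} (K : ℕ)
    (hs : ∀ τ : ℍ, HasSum (fun m : ℕ => c m • Function.Periodic.qParam (h : ℝ) (τ : ℂ) ^ m)
      (f τ * Complex.exp (2 * π * Complex.I * K * τ / h))) :
    HasCuspExp h f (gkmpShift c K) := by
  intro τ
  have hinj : Function.Injective (fun n : ℕ => (n : ℤ) - (K : ℤ)) := by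
    intro a b hab
    have : (a : ℤ) = b := by simpa using hab
    exact_mod_cast this
  rw [← hinj.hasSum_iff]
  · have h1 := (hs τ).mul_right (Complex.exp (-(2 * π * Complex.I * K * τ / h)))
    have h2 : f τ * Complex.exp (2 * π * Complex.I * K * τ / h) *
        Complex.exp (-(2 * π * Complex.I * K * τ / h)) = f τ := by
      rw [mul_assoc, ← Complex.exp_add, add_neg_cancel, Complex.exp_zero, mul_one]
    rw [h2] at h1
    have e : ((fun m : ℤ => (gkmpShift c K).coeff m *
        Complex.exp (2 * π * Complex.I * m * τ / h)) ∘ fun n : ℕ => (n : ℤ) - (K : ℤ)) =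
        fun i : ℕ => c i • Function.Periodic.qParam (h : ℝ) (τ : ℂ) ^ i *
          Complex.exp (-(2 * π * Complex.I * K * τ / h)) := by
      funext n
      simp only [Function.comp_apply, gkmpShift_coeff, smul_eq_mul]
      rw [if_pos (by omega), show ((n : ℤ) - (K : ℤ) + (K : ℤ)).toNat = n by omega,
        Function.Periodic.qParam, ← Complex.exp_nat_mul, mul_assoc (c n), ← Complex.exp_add]
      congr 2
      push_cast
      ring
    rw [e]
    exact h1
  · intro m hm
    have : ¬ (0 ≤ m + K) := by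
      intro h0
      apply hm
      exact ⟨(m + K).toNat, by
        show (((m + K).toNat : ℕ) : ℤ) - (K : ℤ) = m
        rw [Int.toNat_of_nonneg h0]; ring⟩
    rw [gkmpShift_coeff, if_neg this, zero_mul]

theorem gkmp_mdiff_exp (a : ℂ) : MDiff (fun τ : ℍ => Complex.exp (a * (τ : ℂ))) := by
  rw [UpperHalfPlane.mdifferentiable_iff]
  have h1 : DifferentiableOn ℂ (fun z : ℂ => Complex.exp (a * z)) {z | 0 < z.im} :=
    ((differentiable_const a).mul differentiable_id).cexp.differentiableOn
  refine h1.congr fun z hz => ?_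
  simp only [Function.comp_apply]
  rw [ofComplex_apply_of_im_pos hz]

theorem gkmp_periodic_comp {h : ℕ} {g : ℍ → ℂ}
    (hper : ∀ τ : ℍ, g ((h : ℝ) +ᵥ τ) = g τ) :
    Function.Periodic (g ∘ ofComplex) ((h : ℝ) : ℂ) := by
  intro w
  by_cases! hw : 0 < w.im
  · have hw' : 0 < (w + ((h : ℝ) : ℂ)).im := by simpa using hw
    simp only [Function.comp_apply, ofComplex_apply_of_im_pos hw', ofComplex_apply_of_im_pos hw]
    rw [← hper ⟨w, hw⟩]
    congr 1
    ext
    simp [UpperHalfPlane.coe_vadd, add_comm]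
  · have hw' : (w + ((h : ℝ) : ℂ)).im ≤ 0 := by simpa using hw
    simp only [Function.comp_apply]
    rw [ofComplex_apply_of_im_nonpos hw', ofComplex_apply_of_im_nonpos hw]

/-- a holomorphic `h`-periodic function on `ℍ` with `f · q_h^K` bounded at `i∞` has an expansion in
`q_h = exp(2πiτ/h)` valid on the whole of `ℍ`. -/
theorem gkm_hasCuspExp_of_bound (h : ℕ) [NeZero h] (f : HolRing)
    (hper : ∀ τ : ℍ, (f : ℍ → ℂ) ((h : ℝ) +ᵥ τ) = (f : ℍ → ℂ) τ) (K : ℕ)
    (hbd : IsBoundedAtImInfty (fun τ : ℍ => (f : ℍ → ℂ) τ *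
      Complex.exp (2 * π * Complex.I * K * τ / h))) :
    ∃ S : LaurentSeries ℂ, HasCuspExp h (f : ℍ → ℂ) S := by
  have hh : (0 : ℝ) < (h : ℝ) := cuspExp_pos h
  have hh' : (h : ℂ) ≠ 0 := Nat.cast_ne_zero.2 (NeZero.ne h)
  set g : ℍ → ℂ := fun τ : ℍ => (f : ℍ → ℂ) τ * Complex.exp (2 * π * Complex.I * K * τ / h)
    with hg
  have hghol : MDiff g := by
    have h1 := gkmp_mdiff_exp (2 * π * Complex.I * K / h)
    have h2 : (fun τ : ℍ => Complex.exp (2 * π * Complex.I * K / h * (τ : ℂ))) =
        fun τ : ℍ => Complex.exp (2 * π * Complex.I * K * τ / h) := by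
      funext τ
      congr 1
      ring
    rw [h2] at h1
    exact f.2.mul h1
  have hgper : Function.Periodic (g ∘ ofComplex) ((h : ℝ) : ℂ) := by
    apply gkmp_periodic_comp
    intro τ
    simp only [hg]
    rw [hper τ]
    congr 1
    rw [UpperHalfPlane.coe_vadd]
    have h3 : 2 * π * Complex.I * K * (((h : ℝ) : ℂ) + τ) / h =
        2 * π * Complex.I * K * τ / h + (K : ℕ) * (2 * π * Complex.I) := by
      push_cast
      field_simp
      ring
    rw [h3, Complex.exp_add, Complex.exp_nat_mul_two_pi_mul_I, mul_one]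
  exact ⟨gkmpShift (fun m => (qExpansion (h : ℝ) g).coeff m) K,
    gkmp_hasCuspExp_shift K (fun τ => hasSum_qExpansion hh hgper hghol hbd τ)⟩

end Fermat.Agent.G
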