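/-
Program G / package Kum (helper22): DEFINITIONS.

Everything lives over `ℂ`: `gfcField N = laurentBaseChange ℂ (modularFunctionFieldFull N) ⊂ ℂ((q))`
(G/FC = "S24 over ℂ"), `HolRing` = holomorphic functions on `ℍ` (S24), `HasCuspExp h f S` = `f` has
the expansion `S` in `exp(2πiτ/h)` on the whole of `ℍ` (S24).

* `x : gfcField N` "is the holomorphic function `G`"  :=  `HasCuspExp 1 G x`  (no fractions needed:
  for `x ∈ gfc_RBar N` this is `G = gfc_toHol N x`; for `x = a / s` it says `toHol s * G = toHol a`).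
* `GkmMult N χ H`   : `H (γ τ) = χ γ * H τ` for `γ ∈ Γ₀(N)`  (`H` has multiplier `χ`).
* `GkmRoot N n χ x` : `x` is holomorphic on `ℍ` and has a holomorphic `n`-th root with multiplier `χ`.
* `GkmRel N n χ x`  : the class of `x` modulo `n`-th powers contains such an element.
* `GkmPE N χ`       : `χ` kills the parabolic and elliptic elements (`trace² ≤ 4`).
* `GkmCusp G`       : every `SL(2,ℤ)`-translate of `G` has a (finite-tailed) expansion at `i∞`.
* `gkmTr N ℓ hℓN χ` : the transfer `χ ∘ T_ℓ` of a multiplicative character (helper1's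
  `S16lbHeckeData` of `T_ℓ`): `γ ↦ ∏ i, χ (coc γ i)`.
* `gkmHeckeHol ℓ G` : `τ ↦ ∏ i, G (α_i τ)`, `α_i = heckeRep ℓ i` (`[ℓ,0;0,1]`, `[1,j;0,ℓ]`).
-/
import Mathlib
import Fermat.Agent.G.FC.X0Places
import Fermat.Agent.G.Desc.Defs
import Fermat.Agent.G.Conj.Defs
import Fermat.Agent.S16.LB.HeckeDec

set_option autoImplicit false

noncomputable section

namespace Fermat.Agent.G

open UpperHalfPlane ModularCurve AlgebraicCurve CongruenceSubgroup Fermat.Agent.S24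
  Fermat.Agent.S16LB
open P2MW.S_ModularForm_heckeT_slash_eq_self_of_mem_Gamma0.ModularForm.HeckeSlashInvariance
open scoped MatrixGroups Manifold ModularForm Real

/-- `H (γ τ) = χ γ * H τ` for all `γ ∈ Γ₀(N)`. -/
def GkmMult (N : ℕ) (χ : Gamma0 N →* ℂˣ) (H : HolRing) : Prop :=
  ∀ γ : Gamma0 N, ((γ : SL(2, ℤ))⁻¹ • H : HolRing) = HolRing.C ((χ γ : ℂˣ) : ℂ) * H

/-- `x` is (the expansion of) a holomorphic function on `ℍ` which has a holomorphic `n`-th root with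
multiplier `χ`. -/
def GkmRoot (N n : ℕ) (χ : Gamma0 N →* ℂˣ) (x : gfcField N) : Prop :=
  ∃ H : HolRing, HasCuspExp 1 ((H ^ n : HolRing) : ℍ → ℂ) ((x : gfcField N) : LaurentSeries ℂ) ∧
    GkmMult N χ H

/-- the class of `x` modulo `n`-th powers contains an element with an `n`-th root of multiplier
`χ`. -/
def GkmRel (N n : ℕ) (χ : Gamma0 N →* ℂˣ) (x : gfcField N) : Prop :=
  ∃ b : gfcField N, b ≠ 0 ∧ GkmRoot N n χ (x * b ^ n)

/-- `χ` kills every parabolic and every elliptic element of `Γ₀(N)` (and `±1`). -/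
def GkmPE (N : ℕ) (χ : Gamma0 N →* ℂˣ) : Prop :=
  ∀ γ : Gamma0 N, (((γ : SL(2, ℤ)) : Matrix (Fin 2) (Fin 2) ℤ).trace) ^ 2 ≤ 4 → χ γ = 1

/-- every `SL(2, ℤ)`-translate of `G` has an expansion (finitely many negative terms) at `i∞`. -/
def GkmCusp (G : HolRing) : Prop :=
  ∀ g : SL(2, ℤ), ∃ (h : ℕ) (_ : NeZero h) (S : LaurentSeries ℂ),
    HasCuspExp h ((g • G : HolRing) : ℍ → ℂ) S

section Transfer

variable (N : ℕ) (ℓ : ℕ) [Fact ℓ.Prime]

/-- the transfer `χ ∘ T_ℓ` of a multiplicative character of `Γ₀(N)`, `ℓ ∤ N`. -/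
def gkmTr (hℓN : ¬ ℓ ∣ N) (χ : Gamma0 N →* ℂˣ) : Gamma0 N →* ℂˣ where
  toFun γ := ∏ i, χ ((s16lbDataT N ℓ hℓN).coc γ i)
  map_one' := by
    simp [((s16lbDataT N ℓ hℓN).idx_one _).2]
  map_mul' γ δ := by
    simp only [((s16lbDataT N ℓ hℓN).idx_mul _ _ _).2, map_mul, Finset.prod_mul_distrib]
    congr 1
    exact Equiv.prod_comp ((s16lbDataT N ℓ hℓN).perm γ)
      (fun i => χ ((s16lbDataT N ℓ hℓN).coc δ i))

theorem gkmTr_apply (hℓN : ¬ ℓ ∣ N) (χ : Gamma0 N →* ℂˣ) (γ : Gamma0 N) :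
    gkmTr N ℓ hℓN χ γ = ∏ i, χ ((s16lbDataT N ℓ hℓN).coc γ i) := rfl

theorem gkm_det_heckeRep_pos (i : OnePoint (ZMod ℓ)) :
    0 < (heckeRep ℓ i : GL (Fin 2) ℝ).det.val := by
  have hℓ : 0 < ℓ := (Fact.out : ℓ.Prime).pos
  rw [Matrix.GeneralLinearGroup.val_det_apply, s16lb_val_heckeRep, Matrix.det_fin_two_of]
  induction i using OnePoint.rec with
  | infty => simp [s16lbRepA, s16lbRepB, s16lbRepD, hℓ]
  | coe j => simp [s16lbRepA, s16lbRepB, s16lbRepD, hℓ]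

/-- `τ ↦ ∏ i, G (α_i τ)`: the Hecke "norm" of a holomorphic function. -/
def gkmHeckeHol (G : HolRing) : HolRing :=
  ∏ i : OnePoint (ZMod ℓ), HolRing.compGL (heckeRep ℓ i) (gkm_det_heckeRep_pos ℓ i) G

theorem gkmHeckeHol_apply (G : HolRing) (τ : ℍ) :
    ((gkmHeckeHol ℓ G : HolRing) : ℍ → ℂ) τ =
      ∏ i : OnePoint (ZMod ℓ), (G : ℍ → ℂ) ((heckeRep ℓ i : GL (Fin 2) ℝ) • τ) := by
  simp [gkmHeckeHol]

end Transfer

end Fermat.Agent.G
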