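/-
Program G / package Kum, row KUM-PEREXP (helper8): periodic holomorphic functions of moderate growth.

* `gkm_hasCuspExp_of_bound` (file `PerExpBase.lean`): a holomorphic `h`-periodic function on `ℍ` with
  `f · q_h^K` bounded at `i∞` has an expansion in `q_h` valid on all of `ℍ`.
* `gkm_cusp_of_root` : an `n`-th root with a multiplier of order dividing `n` is meromorphic at the
  cusps as soon as its `n`-th power is (`g • H` is `N n`-periodic: `gkmp_periodic`;
  `|g • H|^n = |g • H^n| ≤ C |q|^(-M)`).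
* `gkm_hol_cusp` : an element `x = a / s` of `F_ℂ` which is holomorphic on `ℍ` is meromorphic at all
  cusps (`(g • toHol s) (g • G) = g • toHol a`, lower bound for `|g • toHol s|` from the leading term of
  its expansion).
Statements VERBATIM from `Kum/Spec.lean` (origin/helper22 82b6025); helpers are prefixed `gkmp_`.
-/
import Mathlib
import Fermat.Agent.G.Kum.Defs
import Fermat.Agent.G.Kum.PerExpBase

set_option autoImplicit false

noncomputable section

namespace Fermat.Agent.G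

open UpperHalfPlane ModularCurve AlgebraicCurve CongruenceSubgroup Fermat.Agent.S24
open scoped MatrixGroups Manifold ModularForm Real

/-- `g⁻¹ T^N g ∈ Γ₀(N)`. -/
theorem gkmp_conj_T_mem (N : ℕ) (g : SL(2, ℤ)) :
    g⁻¹ * ModularGroup.T ^ (N : ℤ) * g ∈ Gamma0 N := by
  rw [CongruenceSubgroup.Gamma0_mem]
  have h1 : (g⁻¹ * ModularGroup.T ^ (N : ℤ) * g) 1 0 = -(g 1 0 * g 1 0) * (N : ℤ) := by
    simp only [Matrix.SpecialLinearGroup.coe_mul, Matrix.SpecialLinearGroup.coe_inv,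
      ModularGroup.coe_T_zpow, Matrix.adjugate_fin_two, Matrix.mul_apply, Fin.sum_univ_two,
      Matrix.of_apply, Matrix.cons_val', Matrix.cons_val_zero, Matrix.cons_val_one,
      Matrix.empty_val', Matrix.cons_val_fin_one]
    ring
  rw [h1]
  push_cast
  simp

theorem gkmp_hasCuspExp_qpow (h : ℕ) (k : ℤ) :
    HasCuspExp h (fun τ : ℍ => Function.Periodic.qParam (h : ℝ) (τ : ℂ) ^ k)
      (HahnSeries.single k (1 : ℂ)) := by
  rw [cuspExp_iff]
  intro τ
  have h0 : ∀ m : ℤ, m ≠ k →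
      (HahnSeries.single k (1 : ℂ)).coeff m *
        Function.Periodic.qParam (h : ℝ) (τ : ℂ) ^ m = 0 := by
    intro m hm
    rw [HahnSeries.coeff_single_of_ne hm, zero_mul]
  have := hasSum_single k (fun m hm => h0 m hm)
  simpa using this

variable {N : ℕ} [NeZero N] {n : ℕ}

omit [NeZero N] in
/-- a function with multiplier of order dividing `n` is `N n`-periodic after any translation. -/
theorem gkmp_periodic {χ : Gamma0 N →* ℂˣ} {H : HolRing} (hH : GkmMult N χ H) (g : SL(2, ℤ))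
    (hχ : ∀ γ : Gamma0 N, χ γ ^ n = 1) (τ : ℍ) :
    ((g • H : HolRing) : ℍ → ℂ) (((N * n : ℕ) : ℝ) +ᵥ τ) = ((g • H : HolRing) : ℍ → ℂ) τ := by
  let δ : Gamma0 N := ⟨g⁻¹ * ModularGroup.T ^ (N : ℤ) * g, gkmp_conj_T_mem N g⟩
  have h1 : (((N * n : ℕ) : ℝ) +ᵥ τ : ℍ) = ModularGroup.T ^ ((N * n : ℕ) : ℤ) • τ := by
    rw [UpperHalfPlane.modular_T_zpow_smul]
    push_cast
    rfl
  rw [h1, HolRing.smul_apply, HolRing.smul_apply]
  have h2 : g⁻¹ • (ModularGroup.T ^ ((N * n : ℕ) : ℤ) • τ) =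
      (((δ ^ n : Gamma0 N) : SL(2, ℤ))) • (g⁻¹ • τ) := by
    rw [← mul_smul, ← mul_smul]
    congr 1
    have h3 : ((δ ^ n : Gamma0 N) : SL(2, ℤ)) =
        g⁻¹ * ModularGroup.T ^ ((N * n : ℕ) : ℤ) * g := by
      rw [Subgroup.coe_pow]
      show (g⁻¹ * ModularGroup.T ^ (N : ℤ) * g) ^ n = _
      have h4 : g⁻¹ * ModularGroup.T ^ (N : ℤ) * g =
          g⁻¹ * ModularGroup.T ^ (N : ℤ) * (g⁻¹)⁻¹ := by rw [inv_inv]
      rw [h4, conj_pow, inv_inv, ← zpow_natCast, ← zpow_mul]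
      push_cast
      rfl
    rw [h3, mul_assoc, mul_inv_cancel, mul_one]
  rw [h2]
  have h3 := hH (δ ^ n)
  have h4 := congrArg (fun F : HolRing => (F : ℍ → ℂ) (g⁻¹ • τ)) h3
  simp only [HolRing.inv_smul_apply] at h4
  rw [h4]
  simp [map_pow, hχ δ]

omit [NeZero N] in
/-- boundedness of `F · q_h^K` at `i∞` in terms of norms. -/
theorem gkmp_bdd_iff (F : ℍ → ℂ) (h K : ℕ) :
    IsBoundedAtImInfty (fun τ : ℍ => F τ * Complex.exp (2 * π * Complex.I * K * τ / h)) ↔
      ∃ C A : ℝ, ∀ z : ℍ, A ≤ im z → ‖F z‖ * Real.exp (-2 * π * K * im z / h) ≤ C := by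
  rw [isBoundedAtImInfty_iff]
  have key : ∀ z : ℍ, ‖F z * Complex.exp (2 * π * Complex.I * K * z / h)‖ =
      ‖F z‖ * Real.exp (-2 * π * K * im z / h) := by
    intro z
    rw [norm_mul, Complex.norm_exp]
    congr 2
    have h1 : 2 * (π : ℂ) * Complex.I * K * z / h =
        ((2 * π * K / h : ℝ) : ℂ) * (Complex.I * z) := by
      push_cast
      ring
    rw [h1, Complex.re_ofReal_mul, Complex.I_mul_re, UpperHalfPlane.coe_im]
    ring
  simp only [key]

/-- an `n`-th root with a multiplier of order dividing `n` is meromorphic at the cusps as soon as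
its `n`-th power is. -/
theorem gkm_cusp_of_root (hn : 0 < n) {χ : Gamma0 N →* ℂˣ} (hχ : ∀ γ : Gamma0 N, χ γ ^ n = 1)
    {H : HolRing} (hH : GkmMult N χ H) (hc : GkmCusp (H ^ n)) : GkmCusp H := by
  intro g
  obtain ⟨h₁, hne₁, S₁, hS₁⟩ := hc g
  have hNn : NeZero (N * n) := ⟨Nat.mul_ne_zero (NeZero.ne N) hn.ne'⟩
  set M : ℕ := (-S₁.order).toNat with hM
  refine ⟨N * n, hNn, ?_⟩
  apply gkm_hasCuspExp_of_bound (N * n) (g • H) (gkmp_periodic hH g hχ) (M * N)
  rw [gkmp_bdd_iff]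
  -- the bound for the `n`-th power
  have hpow : ((g • (H ^ n) : HolRing) : ℍ → ℂ) = fun τ => ((g • H : HolRing) : ℍ → ℂ) τ ^ n := by
    rw [smul_pow']
    rfl
  have hb : IsBoundedAtImInfty (((g • (H ^ n) : HolRing) : ℍ → ℂ) *
      fun τ : ℍ => Function.Periodic.qParam (h₁ : ℝ) (τ : ℂ) ^ (M : ℤ)) := by
    refine (hS₁.mul (gkmp_hasCuspExp_qpow h₁ (M : ℤ))).isBoundedAtImInfty fun m hm => ?_
    have h1 : m = (m - M) + M := by ring
    rw [h1, HahnSeries.coeff_mul_single_add, mul_one]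
    apply HahnSeries.coeff_eq_zero_of_lt_order
    omega
  rw [isBoundedAtImInfty_iff] at hb
  obtain ⟨C, A, hCA⟩ := hb
  refine ⟨max C 1, A, fun z hz => ?_⟩
  have h1 := hCA z hz
  rw [hpow] at h1
  simp only [Pi.mul_apply, norm_mul, norm_pow, zpow_natCast] at h1
  rw [Function.Periodic.norm_qParam, UpperHalfPlane.coe_im] at h1
  set x : ℝ := ‖((g • H : HolRing) : ℍ → ℂ) z‖ *
    Real.exp (-2 * π * ((M * N : ℕ) : ℝ) * im z / ((N * n : ℕ) : ℝ)) with hx
  have hx0 : 0 ≤ x := mul_nonneg (norm_nonneg _) (Real.exp_pos _).le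
  have hy : 0 < im z := z.im_pos
  have hN0 : (0 : ℝ) < (N : ℝ) := by exact_mod_cast Nat.pos_of_ne_zero (NeZero.ne N)
  have hn0 : (0 : ℝ) < (n : ℝ) := by exact_mod_cast hn
  have hh1 : (1 : ℝ) ≤ (h₁ : ℝ) := by exact_mod_cast Nat.one_le_iff_ne_zero.2 (NeZero.ne h₁)
  have hxn : x ^ n ≤ C := by
    refine le_trans ?_ h1
    rw [hx, mul_pow, ← Real.exp_nat_mul, ← Real.exp_nat_mul]
    refine mul_le_mul_of_nonneg_left ?_ (pow_nonneg (norm_nonneg _) _)
    rw [Real.exp_le_exp]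
    have e1 : (n : ℝ) * (-2 * π * ((M * N : ℕ) : ℝ) * im z / ((N * n : ℕ) : ℝ)) =
        -2 * π * M * im z := by
      push_cast
      field_simp
    rw [e1]
    have e2 : (M : ℝ) * (-2 * π * im z / (h₁ : ℝ)) = -(2 * π * M * im z) / h₁ := by ring
    rw [e2]
    have hpos : 0 ≤ 2 * π * M * im z := by positivity
    rw [neg_div, show -2 * π * (M : ℝ) * im z = -(2 * π * M * im z) by ring, neg_le_neg_iff]
    exact div_le_self hpos hh1
  by_contra hlt
  push Not at hlt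
  have h1x : 1 ≤ x := le_trans (le_max_right C 1) hlt.le
  have h2 : x ≤ x ^ n := le_self_pow₀ h1x hn.ne'
  have h3 : C < x := lt_of_le_of_lt (le_max_left C 1) hlt
  linarith


theorem gkmp_coeffMap_gfcIota (S : LaurentSeries ℂ) : coeffMap gfcIota S = S := by
  ext m
  simp

/-- `x = a / s` holomorphic, as an identity of holomorphic functions. -/
theorem gkmp_toHol_mul {x : gfcField N} {G : HolRing}
    (h : HasCuspExp 1 (G : ℍ → ℂ) ((x : gfcField N) : LaurentSeries ℂ))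
    (a s : gfc_RBar N) (hx : (s : gfcField N) * x = (a : gfcField N)) :
    gfc_toHol N s * G = gfc_toHol N a := by
  apply Subtype.ext
  have h1 := (gfc_hasCuspExp_toHol N s).mul h
  have h2 := gfc_hasCuspExp_toHol N a
  rw [gkmp_coeffMap_gfcIota] at h1 h2
  have h3 : (((s : gfcField N)) : LaurentSeries ℂ) * ((x : gfcField N) : LaurentSeries ℂ) =
      (((a : gfcField N)) : LaurentSeries ℂ) := by
    rw [← hx]
    rfl
  rw [h3] at h1
  exact h1.eq_of_eq h2

/-- an element of `F_ℂ` which is holomorphic on `ℍ` is `Γ₀(N)`-invariant. -/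
theorem gkmp_hol_invariant {x : gfcField N} {G : HolRing}
    (h : HasCuspExp 1 (G : ℍ → ℂ) ((x : gfcField N) : LaurentSeries ℂ)) : GkmMult N 1 G := by
  have := gfc_isFractionRing_RBar N
  obtain ⟨a, s, hs, hx⟩ := IsFractionRing.div_surjective (gfc_RBar N) x
  have hs0 : s ≠ 0 := nonZeroDivisors.ne_zero hs
  have hs0' : algebraMap (gfc_RBar N) (gfcField N) s ≠ 0 := by
    intro h0
    exact hs0 ((map_eq_zero_iff _ (IsFractionRing.injective (gfc_RBar N) (gfcField N))).1 h0)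
  have hx' : (s : gfcField N) * x = (a : gfcField N) := by
    rw [← hx]
    show algebraMap (gfc_RBar N) (gfcField N) s * _ = algebraMap (gfc_RBar N) (gfcField N) a
    field_simp
  have hmul := gkmp_toHol_mul h a s hx'
  have hts : gfc_toHol N s ≠ 0 := fun h0 =>
    hs0 ((map_eq_zero_iff _ (gfc_toHol_injective N)).1 h0)
  intro γ
  have hγ : ((γ : SL(2, ℤ)))⁻¹ ∈ Gamma0 N := inv_mem γ.2
  have h1 := congrArg (fun F : HolRing => ((γ : SL(2, ℤ))⁻¹ • F : HolRing)) hmul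
  simp only [smul_mul', gfc_smul_toHol_of_mem_Gamma0 N _ hγ] at h1
  rw [← hmul] at h1
  have h2 := mul_left_cancel₀ hts h1
  rw [h2]
  simp

omit [NeZero N] in
/-- boundedness of `F · q_h^K` at `i∞` in terms of the norm of `q_h`. -/
theorem gkmp_bdd_iff' (F : ℍ → ℂ) (h K : ℕ) :
    IsBoundedAtImInfty (fun τ : ℍ => F τ * Complex.exp (2 * π * Complex.I * K * τ / h)) ↔
      ∃ C A : ℝ, ∀ z : ℍ, A ≤ im z →
        ‖F z‖ * ‖Function.Periodic.qParam (h : ℝ) (z : ℂ)‖ ^ K ≤ C := by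
  rw [isBoundedAtImInfty_iff]
  have key : ∀ z : ℍ, ‖F z * Complex.exp (2 * π * Complex.I * K * z / h)‖ =
      ‖F z‖ * ‖Function.Periodic.qParam (h : ℝ) (z : ℂ)‖ ^ K := by
    intro z
    rw [norm_mul, ← norm_pow, Function.Periodic.qParam, ← Complex.exp_nat_mul]
    congr 3
    push_cast
    ring
  simp only [key]

/-- an element of `F_ℂ` which is holomorphic on `ℍ` is meromorphic at all cusps. -/
theorem gkm_hol_cusp {x : gfcField N} {G : HolRing}
    (h : HasCuspExp 1 (G : ℍ → ℂ) ((x : gfcField N) : LaurentSeries ℂ)) : GkmCusp G := by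
  have hfr := gfc_isFractionRing_RBar N
  obtain ⟨a, s, hs, hx⟩ := IsFractionRing.div_surjective (gfc_RBar N) x
  have hs0 : s ≠ 0 := nonZeroDivisors.ne_zero hs
  have hs0' : algebraMap (gfc_RBar N) (gfcField N) s ≠ 0 := by
    intro h0
    exact hs0 ((map_eq_zero_iff _ (IsFractionRing.injective (gfc_RBar N) (gfcField N))).1 h0)
  have hx' : (s : gfcField N) * x = (a : gfcField N) := by
    rw [← hx]
    show algebraMap (gfc_RBar N) (gfcField N) s * _ = algebraMap (gfc_RBar N) (gfcField N) a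
    field_simp
  have hmul := gkmp_toHol_mul h a s hx'
  have hinv := gkmp_hol_invariant h
  intro g
  refine ⟨N, inferInstance, ?_⟩
  have hper : ∀ τ : ℍ, ((g • G : HolRing) : ℍ → ℂ) ((N : ℝ) +ᵥ τ) =
      ((g • G : HolRing) : ℍ → ℂ) τ := by
    intro τ
    have := gkmp_periodic hinv g (n := 1) (by simp) τ
    simpa using this
  -- the expansions of `g • toHol s` and `g • toHol a`
  set T : LaurentSeries ℂ := coeffMap gfcIota (gfc_cuspHom N g s) with hTdef
  set A : LaurentSeries ℂ := coeffMap gfcIota (gfc_cuspHom N g a) with hAdef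
  have hT : HasCuspExp N ((g • gfc_toHol N s : HolRing) : ℍ → ℂ) T := gfc_hasCuspExp_cuspHom N g s
  have hA : HasCuspExp N ((g • gfc_toHol N a : HolRing) : ℍ → ℂ) A := gfc_hasCuspExp_cuspHom N g a
  have hT0 : T ≠ 0 := by
    rw [hTdef, gkmp_coeffMap_gfcIota]
    intro h0
    exact hs0 ((map_eq_zero_iff _ (gfc_cuspHom_injective N g)).1 h0)
  set m : ℤ := T.order with hm
  set c : ℂ := T.coeff m with hc
  have hc0 : c ≠ 0 := fun h0 => hT0 (HahnSeries.coeff_order_eq_zero.1 h0)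
  set M' : ℤ := A.order with hM'
  set K : ℕ := (m - M').toNat with hK
  apply gkm_hasCuspExp_of_bound N (g • G) hper K
  rw [gkmp_bdd_iff']
  -- lower bound for `g • toHol s`
  have hu : IsZeroAtImInfty ((((g • gfc_toHol N s : HolRing) : ℍ → ℂ) *
      fun τ : ℍ => Function.Periodic.qParam (N : ℝ) (τ : ℂ) ^ (-m)) + -(fun _ : ℍ => c)) := by
    refine ((hT.mul (gkmp_hasCuspExp_qpow N (-m))).add
      (HasCuspExp.const (h := N) c).neg).isZeroAtImInfty fun k hk => ?_
    have h1 : k = (k + m) + (-m) := by ring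
    rw [HahnSeries.coeff_add, HahnSeries.coeff_neg, h1, HahnSeries.coeff_mul_single_add, mul_one,
      ← h1, HahnSeries.C_apply]
    rcases eq_or_lt_of_le hk with rfl | hlt
    · rw [zero_add, HahnSeries.coeff_single_same, ← hc, add_neg_cancel]
    · rw [HahnSeries.coeff_single_of_ne hlt.ne, neg_zero, add_zero]
      apply HahnSeries.coeff_eq_zero_of_lt_order
      omega
  rw [isZeroAtImInfty_iff] at hu
  obtain ⟨A₁, hA₁⟩ := hu (‖c‖ / 2) (half_pos (norm_pos_iff.2 hc0))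
  -- upper bound for `g • toHol a`
  have hw : IsBoundedAtImInfty (((g • gfc_toHol N a : HolRing) : ℍ → ℂ) *
      fun τ : ℍ => Function.Periodic.qParam (N : ℝ) (τ : ℂ) ^ (-M')) := by
    refine (hA.mul (gkmp_hasCuspExp_qpow N (-M'))).isBoundedAtImInfty fun k hk => ?_
    have h1 : k = (k + M') + (-M') := by ring
    rw [h1, HahnSeries.coeff_mul_single_add, mul_one]
    apply HahnSeries.coeff_eq_zero_of_lt_order
    omega
  rw [isBoundedAtImInfty_iff] at hw
  obtain ⟨C₂, A₂, hA₂⟩ := hw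
  refine ⟨C₂ / (‖c‖ / 2), max A₁ A₂, fun z hz => ?_⟩
  have hz1 := hA₁ z (le_trans (le_max_left _ _) hz)
  have hz2 := hA₂ z (le_trans (le_max_right _ _) hz)
  set q : ℂ := Function.Periodic.qParam (N : ℝ) (z : ℂ) with hq
  have hq0 : q ≠ 0 := Function.Periodic.qParam_ne_zero _
  set r : ℝ := ‖q‖ with hr
  have hr0 : 0 < r := norm_pos_iff.2 hq0
  have hr1 : r ≤ 1 :=
    (Function.Periodic.norm_qParam_lt_one (cuspExp_pos N) z.im_pos).le
  set X : ℝ := ‖((g • G : HolRing) : ℍ → ℂ) z‖ with hX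
  set Sn : ℝ := ‖((g • gfc_toHol N s : HolRing) : ℍ → ℂ) z‖ with hSn
  set An : ℝ := ‖((g • gfc_toHol N a : HolRing) : ℍ → ℂ) z‖ with hAn
  have heq : Sn * X = An := by
    have h1 := congrArg (fun F : HolRing => ((g • F : HolRing) : ℍ → ℂ) z) hmul
    simp only [smul_mul'] at h1
    rw [hSn, hX, hAn, ← norm_mul]
    exact congrArg norm h1
  -- `‖c‖/2 ≤ Sn * r^(-m)`
  have h_s : ‖c‖ / 2 ≤ Sn * r ^ (-m) := by
    simp only [Pi.add_apply, Pi.mul_apply, Pi.neg_apply] at hz1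
    have h2 : ‖c‖ ≤ ‖((g • gfc_toHol N s : HolRing) : ℍ → ℂ) z * q ^ (-m)‖ +
        ‖((g • gfc_toHol N s : HolRing) : ℍ → ℂ) z * q ^ (-m) + -c‖ := by
      have := norm_sub_le (((g • gfc_toHol N s : HolRing) : ℍ → ℂ) z * q ^ (-m))
        (((g • gfc_toHol N s : HolRing) : ℍ → ℂ) z * q ^ (-m) + -c)
      simpa using this
    rw [norm_mul, norm_zpow] at h2
    linarith
  have h_a : An * r ^ (-M') ≤ C₂ := by
    simp only [Pi.mul_apply, norm_mul, norm_zpow] at hz2
    exact hz2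
  have hc2 : 0 < ‖c‖ / 2 := half_pos (norm_pos_iff.2 hc0)
  rw [le_div_iff₀ hc2]
  have hX0 : 0 ≤ X := norm_nonneg _
  have hKge : 0 ≤ (K : ℤ) - m + M' := by
    rw [hK]
    have := Int.self_le_toNat (m - M')
    omega
  calc X * r ^ K * (‖c‖ / 2) ≤ X * r ^ K * (Sn * r ^ (-m)) :=
        mul_le_mul_of_nonneg_left h_s (mul_nonneg hX0 (pow_nonneg hr0.le _))
    _ = (Sn * X) * (r ^ (K : ℤ) * r ^ (-m)) := by rw [zpow_natCast]; ring
    _ = (An * r ^ (-M')) * r ^ ((K : ℤ) - m + M') := by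
        rw [heq, ← zpow_add₀ hr0.ne', mul_assoc, ← zpow_add₀ hr0.ne']
        congr 2
        ring
    _ ≤ C₂ * 1 := mul_le_mul h_a (zpow_le_one₀ hr0 hr1 hKge) (zpow_nonneg hr0.le _)
        (le_trans (mul_nonneg (norm_nonneg _) (zpow_nonneg hr0.le _)) h_a)
    _ = C₂ := mul_one _

end Fermat.Agent.G
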