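/-
Program G / package Kum, row KUM-RAMABS (helper9): `gkm_ram_abstract`, VERBATIM from helper22's
`Kum/Spec.lean`.  Pure algebra on top of S24 `exists_places_of_embeddings`: the ramification index
of `κ i` over `t` is the size of the `σ`-orbit of `i`.

Proof: take `κ` from `exists_places_of_embeddings`.
* `ord_{κ i} t ∣ minimalPeriod σ i` (`embCount_dvd_of_fixed` applied to a uniformizer of `κ i`);
* the fibre of `κ` through `i` is the `σ`-orbit of `i` (clause 4), of size `minimalPeriod σ i`;
* `∑_{v | t = 0} ord_v t = [F : K(t)] = #ι = ∑_{v | t = 0} #(fibre of v)`, hence equality termwise.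
-/
import Mathlib
import Fermat.Agent.S24.EmbCount

set_option autoImplicit false

namespace Fermat.Agent.G

open AlgebraicCurve IntermediateField Fermat.Agent.S24

/-- every point of a permutation of a finite type has positive minimal period. -/
theorem gkmra_minimalPeriod_pos {ι : Type*} [Finite ι] (σ : Equiv.Perm ι) (i : ι) :
    0 < Function.minimalPeriod σ i := by
  apply Function.minimalPeriod_pos_of_mem_periodicPts
  refine Function.mk_mem_periodicPts (orderOf_pos σ) ?_
  show (σ : ι → ι)^[orderOf σ] i = i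
  rw [Equiv.Perm.iterate_eq_pow, pow_orderOf_eq_one, Equiv.Perm.one_apply]

/-- the forward orbit of `i` under a permutation has `minimalPeriod σ i` elements. -/
theorem gkmra_card_orbit {ι : Type*} [Fintype ι] (σ : Equiv.Perm ι) (i : ι)
    [DecidablePred fun j => ∃ k : ℕ, (σ ^ k) i = j] :
    (Finset.univ.filter fun j => ∃ k : ℕ, (σ ^ k) i = j).card = Function.minimalPeriod σ i := by
  classical
  have hs := gkmra_minimalPeriod_pos σ i
  have himg : (Finset.univ.filter fun j => ∃ k : ℕ, (σ ^ k) i = j) =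
      (Finset.range (Function.minimalPeriod σ i)).image fun n => (σ : ι → ι)^[n] i := by
    ext j
    simp only [Finset.mem_filter, Finset.mem_univ, true_and, Finset.mem_image, Finset.mem_range]
    constructor
    · rintro ⟨k, rfl⟩
      refine ⟨k % Function.minimalPeriod σ i, Nat.mod_lt _ hs, ?_⟩
      rw [Function.iterate_mod_minimalPeriod_eq, Equiv.Perm.iterate_eq_pow]
    · rintro ⟨n, -, rfl⟩
      exact ⟨n, by rw [Equiv.Perm.iterate_eq_pow]⟩
  rw [himg, Finset.card_image_of_injOn, Finset.card_range]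
  intro a ha b hb hab
  exact Function.iterate_injOn_Iio_minimalPeriod (by simpa using ha) (by simpa using hb) hab

/-- (RAMABS) in the situation of S24 `exists_places_of_embeddings` the ramification index of `κ i`
over `t` is the size of the `σ`-orbit of `i` (count: `∑ ord_κ t = [F : K(t)] = #ι = ∑ orbit sizes`
and `ord_{κ i} t ∣ orbit size` because `ε i f` is invariant under `R^(orbit size)`). -/
theorem gkm_ram_abstract {K F : Type*} [Field K] [Field F] [Algebra K F]
    [IsAlgClosed K] {t : F} (ht : IsSepGen K t)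
    {ι : Type*} [Fintype ι] (ε : ι → F →+* LaurentSeries ℂ)
    (hinj : Function.Injective ε)
    (hcard : Fintype.card ι = Module.finrank K⟮t⟯ F)
    (hK : ∀ i j (c : K), ε i (algebraMap K F c) = ε j (algebraMap K F c))
    (hKord : ∀ i (c : K), c ≠ 0 → (ε i (algebraMap K F c)).order = 0)
    (ht' : ∀ i j, ε i t = ε j t)
    (e : ℕ) (he : 0 < e) (hord : ∀ i, (ε i t).order = (e : ℤ))
    (ζ : ℂ) (hζ : IsPrimitiveRoot ζ e)
    (R : LaurentSeries ℂ →+* LaurentSeries ℂ)
    (hR : ∀ (f : LaurentSeries ℂ) (m : ℤ), (R f).coeff m = ζ ^ m * f.coeff m)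
    (σ : Equiv.Perm ι) (hσ : ∀ i f, R (ε i f) = ε (σ i) f) :
    ∃ κ : ι → Place K F,
      (∀ i (f : F), f ≠ 0 →
        (ε i f).order * (Function.minimalPeriod σ i : ℤ) = (e : ℤ) * (κ i).ord f) ∧
      (∀ i, 0 < (κ i).ord t) ∧
      (∀ v : Place K F, 0 < v.ord t → ∃ i, κ i = v) := by
  classical
  obtain ⟨κ, h1, hpos, hsurj, hiff⟩ := exists_places_of_embeddings ht ε hinj hcard hK hKord ht'
    e he hord ζ hζ R hR σ hσ
  -- `ord_{κ i} t` divides the period
  have hdvd : ∀ i, (κ i).ord t ∣ (Function.minimalPeriod σ i : ℤ) := by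
    intro i
    obtain ⟨π, hπ⟩ := IsDiscreteValuationRing.exists_irreducible (κ i).toValuationSubring
    have hπ0 : (π : F) ≠ 0 := PlaceOrd.coe_irreducible_ne_zero (κ i) hπ
    have hfix : (σ ^ Function.minimalPeriod σ i) i = i := by
      rw [← Equiv.Perm.iterate_eq_pow]
      exact Function.iterate_minimalPeriod
    have h2 := embCount_dvd_of_fixed ε R σ hσ hζ hR i _ hfix hπ0
    have h3 := h1 i _ hπ0
    rw [(κ i).ord_coe_irreducible hπ, mul_one] at h3
    rw [← h3] at h2
    have ho : (ε i (π : F)).order ≠ 0 := by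
      intro h0
      rw [h0, zero_mul] at h3
      have : (e : ℤ) ≠ 0 := by exact_mod_cast he.ne'
      exact this h3.symm
    exact (mul_dvd_mul_iff_left ho).1 h2
  have hle : ∀ i, (κ i).ord t ≤ (Function.minimalPeriod σ i : ℤ) := fun i =>
    Int.le_of_dvd (by exact_mod_cast gkmra_minimalPeriod_pos σ i) (hdvd i)
  -- the fibres of `κ`
  have hfib : ∀ i, ((Finset.univ.filter fun j => κ j = κ i).card : ℤ) =
      (Function.minimalPeriod σ i : ℤ) := by
    intro i
    have hfe : (Finset.univ.filter fun j => κ j = κ i) =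
        Finset.univ.filter fun j => ∃ k : ℕ, (σ ^ k) i = j :=
      Finset.filter_congr fun j _ => by rw [eq_comm, hiff i j]
    rw [hfe, gkmra_card_orbit σ i]
  set P : Finset (Place K F) := ht.finite_ord_pos.toFinset with hP
  have hmemP : ∀ v, v ∈ P ↔ 0 < v.ord t := fun v => by
    rw [hP, Set.Finite.mem_toFinset]; rfl
  have hsum : ∑ v ∈ P, v.ord t = (Module.finrank K⟮t⟯ F : ℤ) := ht.sum_ord
  have himgeq : Finset.univ.image κ = P := by
    ext v
    rw [hmemP, Finset.mem_image]
    constructor
    · rintro ⟨i, -, rfl⟩; exact hpos i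
    · intro hv
      obtain ⟨i, hi⟩ := hsurj v hv
      exact ⟨i, Finset.mem_univ _, hi⟩
  have hc1 : ∑ v ∈ P, ((Finset.univ.filter fun j => κ j = v).card : ℤ) =
      (Module.finrank K⟮t⟯ F : ℤ) := by
    rw [← himgeq, ← hcard, ← Finset.card_univ, Finset.card_eq_sum_card_image κ Finset.univ]
    push_cast
    rfl
  have hub : ∀ v ∈ P, v.ord t ≤ ((Finset.univ.filter fun j => κ j = v).card : ℤ) := by
    intro v hv
    obtain ⟨i, rfl⟩ := hsurj v ((hmemP v).1 hv)
    rw [hfib i]
    exact hle i
  have heq : ∀ v ∈ P, v.ord t = ((Finset.univ.filter fun j => κ j = v).card : ℤ) :=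
    (Finset.sum_eq_sum_iff_of_le hub).1 (by rw [hsum, hc1])
  have hkey : ∀ i, (κ i).ord t = (Function.minimalPeriod σ i : ℤ) := by
    intro i
    rw [heq (κ i) ((hmemP _).2 (hpos i)), hfib i]
  refine ⟨κ, ?_, hpos, hsurj⟩
  intro i f hf
  rw [← hkey]
  exact h1 i f hf

end Fermat.Agent.G
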