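/-
Program G / package Kum, row KUM-DIVP (helper16): `gkm_div_point`.

`x ∈ F_ℂ` holomorphic on `ℍ` with a holomorphic `n`-th root `H` of multiplier `χ` (`χ` trivial on the
elliptic and parabolic elements): then `n ∣ ord_v x` at every place `v` of `F_ℂ` over a finite value
`a` of `j`.

Proof: take `τ₀` with `j τ₀ = a` and `γ₀` generating its stabiliser (`ρ, S T`; `i, S`; generic, `1`).
(RAMABS) for the embeddings `ε_q = gfc_pointEmb N τ₀ q.out` (Taylor expansions at `τ₀` of the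
`SL₂(ℤ)`-translates) gives `q` with `(ε_q x).order * s = e * ord_v x`, `s` the period of `q` under
`γ₀⁻¹`.  `ε_q x = Ĥ ^ n` with `Ĥ` the Taylor expansion of `q.out • H`; `δ = q.out⁻¹ γ₀^(-s) q.out`
lies in `Γ₀(N)` and fixes a point, so `χ δ = 1`, `δ • H = H`, hence `Ĥ` is invariant under the
rotation by `ζ^s` and `e ∣ s * order Ĥ`.
-/
import Mathlib
import Fermat.Agent.G.Kum.Defs
import Fermat.Agent.G.Kum.RamAbs

set_option autoImplicit false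
set_option linter.unusedSectionVars false

noncomputable section

namespace Fermat.Agent.G

open UpperHalfPlane ModularCurve AlgebraicCurve CongruenceSubgroup Fermat.Agent.S24
  Fermat.Agent.S16LB IntermediateField
open scoped MatrixGroups Manifold ModularForm Real

variable {N : ℕ} [NeZero N] {n : ℕ}

/-! ### an element of `SL₂(ℤ)` with a fixed point in `ℍ` has `trace² ≤ 4` -/

theorem gkdp_normSq_denom_eq_one (γ : SL(2, ℤ)) (τ : ℍ) (h : γ • τ = τ) :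
    Complex.normSq (denom γ τ) = 1 := by
  have h1 := ModularGroup.im_smul_eq_div_normSq γ τ
  rw [h] at h1
  have hpos : 0 < τ.im := τ.im_pos
  have hne : Complex.normSq (denom γ τ) ≠ 0 := by
    intro h0
    rw [h0, div_zero] at h1
    exact hpos.ne' h1
  field_simp at h1
  nlinarith [h1, hpos]

theorem gkdp_bottom_sq_le_one (γ : SL(2, ℤ)) (τ : ℍ) (h : γ • τ = τ) :
    ((γ 1 0 : ℝ) * τ.re + (γ 1 1 : ℝ)) ^ 2 ≤ 1 := by
  have h1 := gkdp_normSq_denom_eq_one γ τ h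
  rw [ModularGroup.denom_apply, Complex.normSq_apply] at h1
  simp only [Complex.add_re, Complex.mul_re, Complex.intCast_re, Complex.intCast_im,
    UpperHalfPlane.coe_re, UpperHalfPlane.coe_im, zero_mul, sub_zero, Complex.add_im,
    Complex.mul_im, add_zero] at h1
  nlinarith [h1, mul_self_nonneg ((γ 1 0 : ℝ) * τ.im)]

theorem gkdp_trace_sq_le (γ : SL(2, ℤ)) (τ : ℍ) (h : γ • τ = τ) :
    ((γ : Matrix (Fin 2) (Fin 2) ℤ).trace) ^ 2 ≤ 4 := by
  have h1 := gkdp_bottom_sq_le_one γ τ h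
  have hinv : γ⁻¹ • τ = τ := by
    conv_lhs => rw [← h]
    rw [inv_smul_smul]
  have h2 := gkdp_bottom_sq_le_one γ⁻¹ τ hinv
  have e10 : (γ⁻¹ : SL(2, ℤ)) 1 0 = - γ 1 0 := by
    rw [Matrix.SpecialLinearGroup.SL2_inv_expl]; rfl
  have e11 : (γ⁻¹ : SL(2, ℤ)) 1 1 = γ 0 0 := by
    rw [Matrix.SpecialLinearGroup.SL2_inv_expl]; rfl
  rw [e10, e11] at h2
  push_cast at h2
  have h3 : (((γ 0 0 : ℤ) : ℝ) + ((γ 1 1 : ℤ) : ℝ)) ^ 2 ≤ 4 := by
    nlinarith [h1, h2, sq_nonneg ((-(γ 1 0 : ℝ)) * τ.re + (γ 0 0 : ℝ) - ((γ 1 0 : ℝ) * τ.re + (γ 1 1 : ℝ)))]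
  rw [Matrix.trace_fin_two]
  exact_mod_cast h3

/-! ### the Taylor expansion of an element of `F_ℂ` which is holomorphic on `ℍ` -/

/-- `x = a / s` with `a, s ∈ gfc_RBar N`; if `x` is the holomorphic function `G` then
`toHol s * G = toHol a`. -/
theorem gkdp_exists_toHol_mul {x : gfcField N} {G : HolRing}
    (hG : HasCuspExp 1 (G : ℍ → ℂ) ((x : gfcField N) : LaurentSeries ℂ)) :
    ∃ a s : gfc_RBar N, s ≠ 0 ∧ x * (s : gfcField N) = (a : gfcField N) ∧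
      gfc_toHol N s * G = gfc_toHol N a := by
  haveI := gfc_isFractionRing_RBar N
  obtain ⟨⟨a, s⟩, hs⟩ := IsLocalization.surj (nonZeroDivisors (gfc_RBar N)) x
  have hs0 : (s : gfc_RBar N) ≠ 0 := nonZeroDivisors.ne_zero s.2
  refine ⟨a, s, hs0, hs, ?_⟩
  have h1 := (gfc_hasCuspExp_toHol N (s : gfc_RBar N)).mul hG
  have h2 := gfc_hasCuspExp_toHol N a
  have hgi : gfcIota = RingHom.id ℂ := rfl
  rw [hgi, coeffMap_id] at h1 h2
  have h3 : ((((s : gfc_RBar N) : gfcField N)) : LaurentSeries ℂ) * ((x : gfcField N) : LaurentSeries ℂ)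
      = (((a : gfcField N)) : LaurentSeries ℂ) := by
    have := congrArg (fun y : gfcField N => (y : LaurentSeries ℂ)) hs
    simp only at this
    rw [mul_comm]
    exact this
  rw [h3] at h1
  exact gfc_bridge_hol_ext h1 h2

/-- the Taylor expansion at `τ₀` of the `g`-translate. -/
theorem gkdp_pointEmb_of_hasCuspExp (τ₀ : ℍ) (g : SL(2, ℤ)) {x : gfcField N} {G : HolRing}
    (hG : HasCuspExp 1 (G : ℍ → ℂ) ((x : gfcField N) : LaurentSeries ℂ)) :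
    gfc_pointEmb N τ₀ g x = HahnSeries.ofPowerSeries ℤ ℂ (taylorDisc τ₀ (g • G)) := by
  obtain ⟨a, s, hs0, hxs, hmul⟩ := gkdp_exists_toHol_mul hG
  have h1 : gfc_pointEmb N τ₀ g x * gfc_pointEmb N τ₀ g (s : gfcField N) =
      gfc_pointEmb N τ₀ g (a : gfcField N) := by rw [← map_mul, hxs]
  rw [gfc_pointEmb_coe, gfc_pointEmb_coe, ← hmul, smul_mul', map_mul, map_mul] at h1
  have hne : HahnSeries.ofPowerSeries ℤ ℂ (taylorDisc τ₀ (g • gfc_toHol N s)) ≠ 0 := by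
    rw [← gfc_pointEmb_coe]
    intro h0
    apply hs0
    have := (gfc_pointEmb N τ₀ g).injective (h0.trans (map_zero _).symm)
    exact_mod_cast this
  rw [mul_comm] at h1
  exact mul_left_cancel₀ hne h1

/-! ### rotation invariance -/

theorem gkdp_taylorDisc_pow_inv_smul (τ₀ : ℍ) (γ₀ : SL(2, ℤ)) (hγ₀ : γ₀ • τ₀ = τ₀) (s : ℕ)
    (f : HolRing) :
    taylorDisc τ₀ ((γ₀⁻¹) ^ s • f) =
      PowerSeries.rescale ((rotFactor γ₀ τ₀) ^ s) (taylorDisc τ₀ f) := by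
  induction s with
  | zero => simp
  | succ s ih =>
    rw [pow_succ', mul_smul, taylorDisc_inv_smul τ₀ γ₀ hγ₀, ih, PowerSeries.rescale_rescale,
      pow_succ]

/-- a nonzero power series invariant under the rotation by `ζ ^ s`, `ζ` a primitive `e`-th root of
unity: `e ∣ s * order`. -/
theorem gkdp_dvd_of_rescale_eq {ζ : ℂ} {e : ℕ} (hζ : IsPrimitiveRoot ζ e) (P : PowerSeries ℂ)
    (hP : P ≠ 0) (s : ℕ) (h : PowerSeries.rescale (ζ ^ s) P = P) :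
    ∃ k : ℕ, P.order = k ∧ e ∣ s * k := by
  obtain ⟨k, hk⟩ : ∃ k : ℕ, P.order = k := by
    have hfin : P.order ≠ ⊤ := by
      rw [Ne, PowerSeries.order_eq_top]
      exact hP
    exact ⟨P.order.toNat, (ENat.coe_toNat hfin).symm⟩
  refine ⟨k, hk, ?_⟩
  have hc : PowerSeries.coeff k P ≠ 0 := ((PowerSeries.order_eq_nat).mp hk).1
  have h1 := congrArg (PowerSeries.coeff k) h
  rw [PowerSeries.coeff_rescale] at h1
  have h2 : (ζ ^ s) ^ k = 1 := by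
    have : ((ζ ^ s) ^ k - 1) * PowerSeries.coeff k P = 0 := by rw [sub_mul, h1, one_mul, sub_self]
    rcases mul_eq_zero.mp this with h3 | h3
    · exact sub_eq_zero.mp h3
    · exact absurd h3 hc
  rw [← pow_mul] at h2
  exact hζ.dvd_of_pow_eq_one _ h2

/-! ### the core -/

theorem gkdp_pow_smul_fix (γ : SL(2, ℤ)) (τ : ℍ) (h : γ • τ = τ) (s : ℕ) : γ ^ s • τ = τ := by
  induction s with
  | zero => simp
  | succ s ih => rw [pow_succ, mul_smul, h, ih]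

theorem gkdp_div_of_point (hn : 0 < n) {χ : Gamma0 N →* ℂˣ} (hχ : GkmPE N χ) {x : gfcField N}
    (hx : x ≠ 0) (h : GkmRoot N n χ x)
    (a : ℂ) (τ₀ : ℍ) (hτ₀ : jFun τ₀ = gfcIota a)
    (γ₀ : SL(2, ℤ)) (hγ₀ : γ₀ • τ₀ = τ₀) (e : ℕ)
    (he : analyticOrderAt (fun z : ℂ => jFun (ofComplex z) - jFun τ₀) (τ₀ : ℂ) = e)
    (hζ : IsPrimitiveRoot (rotFactor γ₀ τ₀) e)
    (v : Place ℂ (gfcField N)) (hv : 0 < v.ord (gfc_jBar N - algebraMap ℂ (gfcField N) a)) :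
    (n : ℤ) ∣ v.ord x := by
  classical
  have hfin : Finite (SL(2, ℤ) ⧸ Gamma0 N) := gfc_finite_quotient_Gamma0 N
  let _inst : Fintype (SL(2, ℤ) ⧸ Gamma0 N) := Fintype.ofFinite _
  have hepos : 0 < e := gfc_pos_of_analyticOrderAt_jFun_sub τ₀ e he
  have hζ0 : rotFactor γ₀ τ₀ ≠ 0 := hζ.ne_zero hepos.ne'
  set ζ : ℂˣ := Units.mk0 (rotFactor γ₀ τ₀) hζ0 with hζdef
  have hζval : (ζ : ℂ) = rotFactor γ₀ τ₀ := rfl
  have ht : IsSepGen ℂ (gfc_jBar N - algebraMap ℂ (gfcField N) a) :=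
    (gfc_isSepGen_jBar N).sub_algebraMap a
  -- the hypotheses of (RAMABS), as in `gfc_card_places_of_point`
  have hσ : ∀ (q : SL(2, ℤ) ⧸ Gamma0 N) (f : gfcField N),
      rotLaurent ζ (gfc_pointEmb N τ₀ q.out f) =
        gfc_pointEmb N τ₀ ((MulAction.toPerm γ₀⁻¹ : Equiv.Perm (SL(2, ℤ) ⧸ Gamma0 N)) q).out f := by
    intro q f
    rw [gfc_rotLaurent_pointEmb N τ₀ γ₀ hγ₀ ζ hζval]
    obtain ⟨h, hh, hout⟩ := gfc_exists_out_smul_eq N γ₀⁻¹ q
    show _ = gfc_pointEmb N τ₀ (γ₀⁻¹ • q).out f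
    rw [hout, gfc_pointEmb_mul_of_mem_Gamma0 N τ₀ _ h hh]
  have hcard : Fintype.card (SL(2, ℤ) ⧸ Gamma0 N) =
      Module.finrank ℂ⟮gfc_jBar N - algebraMap ℂ (gfcField N) a⟯ (gfcField N) := by
    rw [(gfc_isSepGen_jBar N).finrank_sub_algebraMap a, gfc_finrank_jBar, Fintype.card_eq_nat_card]
  have hK : ∀ (i j : SL(2, ℤ) ⧸ Gamma0 N) (c : ℂ),
      gfc_pointEmb N τ₀ i.out (algebraMap ℂ (gfcField N) c) =
        gfc_pointEmb N τ₀ j.out (algebraMap ℂ (gfcField N) c) := by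
    intro i j c
    rw [gfc_pointEmb_algebraMap, gfc_pointEmb_algebraMap]
  have hKord : ∀ (i : SL(2, ℤ) ⧸ Gamma0 N) (c : ℂ), c ≠ 0 →
      (gfc_pointEmb N τ₀ i.out (algebraMap ℂ (gfcField N) c)).order = 0 := by
    intro i c hc
    rw [gfc_pointEmb_algebraMap, HahnSeries.C_apply]
    apply HahnSeries.order_single
    intro h0
    exact hc (gfcIota_injective (by rw [h0, map_zero]))
  have ht' : ∀ i j : SL(2, ℤ) ⧸ Gamma0 N,
      gfc_pointEmb N τ₀ i.out (gfc_jBar N - algebraMap ℂ (gfcField N) a) =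
        gfc_pointEmb N τ₀ j.out (gfc_jBar N - algebraMap ℂ (gfcField N) a) := by
    intro i j
    rw [gfc_pointEmb_jBar_sub, gfc_pointEmb_jBar_sub]
  have hord : ∀ i : SL(2, ℤ) ⧸ Gamma0 N,
      (gfc_pointEmb N τ₀ i.out (gfc_jBar N - algebraMap ℂ (gfcField N) a)).order = (e : ℤ) :=
    fun i => gfc_order_pointEmb_jBar_sub N τ₀ _ a hτ₀ e he
  have hR : ∀ (f : LaurentSeries ℂ) (m : ℤ),
      (rotLaurent ζ f).coeff m = (rotFactor γ₀ τ₀) ^ m * f.coeff m := by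
    intro f m
    rw [rotLaurent_coeff, hζval]
  obtain ⟨κ, hκ1, -, hκ3⟩ := gkm_ram_abstract ht
    (fun q : SL(2, ℤ) ⧸ Gamma0 N => gfc_pointEmb N τ₀ q.out)
    (gfc_pointEmb_out_injective N τ₀) hcard hK hKord ht' e hepos hord (rotFactor γ₀ τ₀) hζ
    (rotLaurent ζ) hR (MulAction.toPerm γ₀⁻¹) hσ
  obtain ⟨q, rfl⟩ := hκ3 v hv
  obtain ⟨H, hH, hmult⟩ := h
  set g : SL(2, ℤ) := q.out with hg
  set s : ℕ := Function.minimalPeriod (MulAction.toPerm γ₀⁻¹ : Equiv.Perm (SL(2, ℤ) ⧸ Gamma0 N)) q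
    with hs
  -- `q` is fixed by `γ₀^(-s)`
  have hq : (γ₀⁻¹) ^ s • q = q := by
    have hper := Function.isPeriodicPt_minimalPeriod
      (MulAction.toPerm γ₀⁻¹ : Equiv.Perm (SL(2, ℤ) ⧸ Gamma0 N)) q
    have h1 : ((MulAction.toPerm γ₀⁻¹ : Equiv.Perm (SL(2, ℤ) ⧸ Gamma0 N)) :
        (SL(2, ℤ) ⧸ Gamma0 N) → (SL(2, ℤ) ⧸ Gamma0 N)) = (γ₀⁻¹ • ·) := rfl
    rw [Function.IsPeriodicPt, Function.IsFixedPt, h1, smul_iterate] at hper
    exact hper
  obtain ⟨δ, hδ, hout⟩ := gfc_exists_out_smul_eq N ((γ₀⁻¹) ^ s) q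
  rw [hq] at hout
  -- `δ` fixes a point of `ℍ`
  have hfix' : ((γ₀⁻¹) ^ s) • τ₀ = τ₀ := by
    have h1 : γ₀⁻¹ • τ₀ = τ₀ := by
      conv_lhs => rw [← hγ₀]
      rw [inv_smul_smul]
    exact gkdp_pow_smul_fix γ₀⁻¹ τ₀ h1 s
  have hδeq : (γ₀⁻¹) ^ s * g = g * δ⁻¹ := by
    have : g = (γ₀⁻¹) ^ s * g * δ := hout
    calc (γ₀⁻¹) ^ s * g = (γ₀⁻¹) ^ s * g * δ * δ⁻¹ := by group
      _ = g * δ⁻¹ := by rw [← this]
  have hδfix : δ⁻¹ • (g⁻¹ • τ₀) = g⁻¹ • τ₀ := by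
    have : δ⁻¹ = g⁻¹ * (γ₀⁻¹) ^ s * g := by
      rw [mul_assoc, hδeq]; group
    rw [this, mul_smul, mul_smul, smul_inv_smul, hfix']
  have hδfix2 : δ • (g⁻¹ • τ₀) = g⁻¹ • τ₀ := by
    conv_lhs => rw [← hδfix]
    rw [smul_inv_smul]
  have hχδ : χ ⟨δ, hδ⟩ = 1 := hχ ⟨δ, hδ⟩ (gkdp_trace_sq_le δ _ hδfix2)
  have hδH : δ⁻¹ • H = H := by
    have := hmult ⟨δ, hδ⟩
    rw [hχδ] at this
    simpa using this
  -- the Taylor expansion of `g • H` is rotation invariant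
  have hinvH : (γ₀⁻¹) ^ s • (g • H) = g • H := by
    rw [← mul_smul, hδeq, mul_smul, hδH]
  set P : PowerSeries ℂ := taylorDisc τ₀ (g • H) with hP
  have hresc : PowerSeries.rescale ((rotFactor γ₀ τ₀) ^ s) P = P := by
    rw [hP, ← gkdp_taylorDisc_pow_inv_smul τ₀ γ₀ hγ₀ s, hinvH]
  have hε : gfc_pointEmb N τ₀ g x = HahnSeries.ofPowerSeries ℤ ℂ (P ^ n) := by
    rw [gkdp_pointEmb_of_hasCuspExp τ₀ g hH, smul_pow', map_pow]
  have hεne : gfc_pointEmb N τ₀ g x ≠ 0 :=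
    (map_ne_zero_iff _ (gfc_pointEmb N τ₀ g).injective).mpr hx
  have hPne : P ≠ 0 := by
    intro h0
    apply hεne
    rw [hε, h0, zero_pow hn.ne', map_zero]
  obtain ⟨k, hk, hdvd⟩ := gkdp_dvd_of_rescale_eq hζ P hPne s hresc
  have hordx : (gfc_pointEmb N τ₀ g x).order = ((n * k : ℕ) : ℤ) := by
    rw [hε]
    apply gfc_order_ofPowerSeries_of_order_eq
    rw [PowerSeries.order_pow, hk]
    push_cast
    rw [nsmul_eq_mul]
  have hmain := hκ1 q x hx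
  rw [hordx] at hmain
  obtain ⟨m, hm⟩ := hdvd
  refine ⟨(m : ℤ), ?_⟩
  have he0 : (e : ℤ) ≠ 0 := by exact_mod_cast hepos.ne'
  apply mul_left_cancel₀ he0
  rw [← hmain]
  have hm' : ((s : ℤ)) * (k : ℤ) = (e : ℤ) * (m : ℤ) := by exact_mod_cast hm
  push_cast
  calc (n : ℤ) * (k : ℤ) * (s : ℤ) = (n : ℤ) * ((s : ℤ) * (k : ℤ)) := by ring
    _ = (n : ℤ) * ((e : ℤ) * (m : ℤ)) := by rw [hm']
    _ = (e : ℤ) * ((n : ℤ) * (m : ℤ)) := by ring

/-- (DIVP) places over the finite part of the `j`-line. -/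
theorem gkm_div_point (hn : 0 < n) {χ : Gamma0 N →* ℂˣ} (hχ : GkmPE N χ) {x : gfcField N}
    (hx : x ≠ 0) (h : GkmRoot N n χ x) (v : Place ℂ (gfcField N))
    (hv : 0 ≤ v.ord (gfc_jBar N)) : (n : ℤ) ∣ v.ord x := by
  obtain ⟨a, ha, -⟩ := (gfc_isSepGen_jBar N).existsUnique_ord_sub_pos v hv
  by_cases h0 : a = 0
  · subst h0
    have hτ : jFun ρ = gfcIota 0 := by rw [jFun_ρ, map_zero]
    refine gkdp_div_of_point hn hχ hx h 0 ρ hτ (ModularGroup.S * ModularGroup.T) ST_smul_ρ 3 ?_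
      (isPrimitiveRoot_rotFactor_ST ρ ST_smul_ρ) v ha
    rw [analyticOrderAt_jFun_sub, if_pos jFun_ρ]
    rfl
  by_cases h1 : a = 1728
  · subst h1
    have hτ : jFun UpperHalfPlane.I = gfcIota 1728 := by rw [jFun_I, map_ofNat]
    have hζ : IsPrimitiveRoot (rotFactor ModularGroup.S UpperHalfPlane.I) 2 := by
      rw [rotFactor_S _ S_smul_I]
      exact IsPrimitiveRoot.neg_one 0 (by norm_num)
    refine gkdp_div_of_point hn hχ hx h 1728 UpperHalfPlane.I hτ ModularGroup.S S_smul_I 2 ?_ hζ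
      v ha
    have h0' : jFun UpperHalfPlane.I ≠ 0 := by rw [jFun_I]; norm_num
    rw [analyticOrderAt_jFun_sub, if_neg h0', if_pos jFun_I]
    rfl
  · obtain ⟨τ₀, hτ⟩ := jFun_surjective (gfcIota a)
    have h0' : jFun τ₀ ≠ 0 := by
      rw [hτ]
      exact fun h => h0 (gfcIota.injective (by rw [h, map_zero]))
    have h1' : jFun τ₀ ≠ 1728 := by
      rw [hτ]
      exact fun h => h1 (gfcIota.injective (by rw [h, map_ofNat]))
    have hζ : IsPrimitiveRoot (rotFactor 1 τ₀) 1 := by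
      rw [gfc_rotFactor_one]
      exact IsPrimitiveRoot.one
    refine gkdp_div_of_point hn hχ hx h a τ₀ hτ 1 (one_smul _ _) 1 ?_ hζ v ha
    rw [analyticOrderAt_jFun_sub, if_neg h0', if_neg h1']
    rfl

end Fermat.Agent.G
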