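/-
Program G / package Kum (helper22), row KUM-EIS: the Eisenstein root `H_χ = E_{χ,12} / Δ`.
Holomorphic on `ℍ`, nonzero, multiplier `χ`, meromorphic at all cusps.
-/
import Fermat.Agent.G.Kum.Defs
import Fermat.Agent.G.Kum.PerExpBase
import Fermat.Agent.G.Eis.Char
import Fermat.Agent.S24.JExp
import Fermat.Agent.S24.JDeriv

set_option autoImplicit false

noncomputable section

namespace Fermat.Agent.G

open UpperHalfPlane ModularCurve CongruenceSubgroup Fermat.Agent.S24 ModularForm Filter Topology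
  Function
open scoped MatrixGroups Manifold ModularForm Real

local notation "Δ" => ModularForm.discriminant
local notation "𝕢" => Periodic.qParam

/-! ### `1 / Δ` -/

theorem gkme_discriminant_smul (γ : SL(2, ℤ)) (τ : ℍ) :
    Δ (γ • τ) = denom γ τ ^ (12 : ℤ) * Δ τ := by
  have hγ : (γ : GL (Fin 2) ℝ) ∈ 𝒮ℒ := ⟨γ, rfl⟩
  have := SlashInvariantForm.slash_action_eqn'' CuspForm.discriminant hγ τ
  simpa using this

/-- `1 / Δ` as a holomorphic function -/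
def gkmeDinv : HolRing :=
  ⟨fun τ => (Δ τ)⁻¹, fun τ =>
    ((ModularFormClass.holo CuspForm.discriminant) τ).inv (ModularForm.discriminant_ne_zero τ)⟩

@[simp] theorem gkmeDinv_apply (τ : ℍ) : (gkmeDinv : ℍ → ℂ) τ = (Δ τ)⁻¹ := rfl

theorem gkme_Dinv_periodic (τ : ℍ) :
    (gkmeDinv : ℍ → ℂ) (((1 : ℕ) : ℝ) +ᵥ τ) = (gkmeDinv : ℍ → ℂ) τ := by
  have h1 : ((1 : ℕ) : ℝ) +ᵥ τ = ModularGroup.T • τ := by
    rw [UpperHalfPlane.modular_T_smul]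
    simp
  rw [gkmeDinv_apply, gkmeDinv_apply, h1, gkme_discriminant_smul]
  have : denom ModularGroup.T τ = 1 := by
    have := geis_denom_T_zpow 1 τ
    rwa [zpow_one] at this
  rw [this, one_zpow, one_mul]

theorem gkme_Dinv_bounded :
    IsBoundedAtImInfty (fun τ : ℍ => (gkmeDinv : ℍ → ℂ) τ *
      Complex.exp (2 * π * Complex.I * ((1 : ℕ) : ℂ) * τ / ((1 : ℕ) : ℂ))) := by
  have h1 : (fun τ : ℍ => (gkmeDinv : ℍ → ℂ) τ *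
      Complex.exp (2 * π * Complex.I * ((1 : ℕ) : ℂ) * τ / ((1 : ℕ) : ℂ))) =
      fun τ : ℍ => (jexpD τ ^ 24)⁻¹ := by
    funext τ
    have hq : 𝕢 1 (τ : ℂ) = Complex.exp (2 * π * Complex.I * ((1 : ℕ) : ℂ) * τ / ((1 : ℕ) : ℂ)) := by
      rw [Periodic.qParam]
      congr 1
      push_cast
      ring
    rw [gkmeDinv_apply, jexp_discriminant_eq, ← hq, mul_inv, mul_comm _ (jexpD τ ^ 24)⁻¹, mul_assoc,
      inv_mul_cancel₀ (Periodic.qParam_ne_zero _), mul_one]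
  rw [h1]
  have h2 : Tendsto (fun τ : ℍ => (jexpD τ ^ 24)⁻¹) atImInfty (𝓝 (1 : ℂ)⁻¹) :=
    jexp_tendsto_D_pow.inv₀ one_ne_zero
  exact h2.isBigO_one ℝ

theorem gkme_Dinv_cuspExp : ∃ S : LaurentSeries ℂ, HasCuspExp 1 (gkmeDinv : ℍ → ℂ) S :=
  gkm_hasCuspExp_of_bound 1 gkmeDinv gkme_Dinv_periodic 1 (by exact_mod_cast gkme_Dinv_bounded)

/-! ### the Eisenstein series -/

section Eis

variable {N : ℕ} [NeZero N] (χ : Gamma0 N →* ℂˣ)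

theorem gkme_chi_of_c_zero (hχ : GkmPE N χ) (g : Gamma0 N)
    (hg : ((g : SL(2, ℤ)) : Matrix (Fin 2) (Fin 2) ℤ) 1 0 = 0) : χ g = 1 := by
  apply hχ
  have hdet := Matrix.SpecialLinearGroup.det_coe (g : SL(2, ℤ))
  rw [Matrix.det_fin_two, hg, mul_zero, sub_zero] at hdet
  rw [Matrix.trace_fin_two]
  rcases Int.eq_one_or_neg_one_of_mul_eq_one' hdet with ⟨h1, h2⟩ | ⟨h1, h2⟩
  · rw [h1, h2]; norm_num
  · rw [h1, h2]; norm_num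

theorem gkme_conj_T_mem (σ : SL(2, ℤ)) :
    σ * ModularGroup.T ^ ((N : ℕ) : ℤ) * σ⁻¹ ∈ Gamma0 N := by
  have h1 : ModularGroup.T ^ ((N : ℕ) : ℤ) ∈ Gamma N := by
    have := ModularGroup_T_pow_mem_Gamma (N : ℤ) (N : ℤ) dvd_rfl
    simpa using this
  have h2 : σ * ModularGroup.T ^ ((N : ℕ) : ℤ) * σ⁻¹ ∈ Gamma N :=
    (Gamma_normal (N := N)).conj_mem _ h1 σ
  rw [Gamma_mem] at h2
  rw [Gamma0_mem]
  exact h2.2.2.1

theorem gkme_chi_conj_T (hχ : GkmPE N χ) (σ : SL(2, ℤ)) :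
    χ ⟨_, gkme_conj_T_mem (N := N) σ⟩ = 1 := by
  apply hχ
  show ((((σ * ModularGroup.T ^ ((N : ℕ) : ℤ) * σ⁻¹ : SL(2, ℤ)) :
    Matrix (Fin 2) (Fin 2) ℤ)).trace) ^ 2 ≤ 4
  have h1 : ((σ * ModularGroup.T ^ ((N : ℕ) : ℤ) * σ⁻¹ : SL(2, ℤ)) :
      Matrix (Fin 2) (Fin 2) ℤ) =
      (σ : Matrix (Fin 2) (Fin 2) ℤ) * ((ModularGroup.T ^ ((N : ℕ) : ℤ) : SL(2, ℤ)) :
        Matrix (Fin 2) (Fin 2) ℤ) * ((σ⁻¹ : SL(2, ℤ)) : Matrix (Fin 2) (Fin 2) ℤ) := by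
    simp
  rw [h1, Matrix.trace_mul_cycle]
  have h2 : ((σ⁻¹ : SL(2, ℤ)) : Matrix (Fin 2) (Fin 2) ℤ) * (σ : Matrix (Fin 2) (Fin 2) ℤ) = 1 := by
    rw [← Matrix.SpecialLinearGroup.coe_mul, inv_mul_cancel, Matrix.SpecialLinearGroup.coe_one]
  rw [h2, one_mul, ModularGroup.coe_T_zpow, Matrix.trace_fin_two]
  norm_num

variable (hχ : GkmPE N χ) (hu : ∀ γ : Gamma0 N, ‖((χ γ : ℂˣ) : ℂ)‖ = 1)

/-- the weight of the translate of `E_χ` by `σ` -/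
def gkmeW (σ : SL(2, ℤ)) : (Fin 2 → ℤ) → ℂ := fun v => geisW χ (geisMul v σ⁻¹)

include hu in
theorem gkmeW_norm_le (σ : SL(2, ℤ)) (v : Fin 2 → ℤ) : ‖gkmeW χ σ v‖ ≤ 1 :=
  geisW_norm_le χ hu _

include hχ in
theorem gkme_T_mem_stab (σ : SL(2, ℤ)) :
    ModularGroup.T ^ ((N : ℕ) : ℤ) ∈ geisStab (gkmeW χ σ) :=
  geis_mem_stab_slash χ (gkme_chi_of_c_zero χ hχ) σ (N : ℤ) (gkme_conj_T_mem σ)
    (gkme_chi_conj_T χ hχ σ)

/-- the translate of `E_{χ,12}` by `σ`, as a holomorphic function -/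
def gkmeF (σ : SL(2, ℤ)) : HolRing :=
  ⟨geisSum 12 (gkmeW χ σ), geisSum_mdifferentiable (by norm_num) (gkmeW_norm_le χ hu σ)⟩

theorem gkmeF_apply (σ : SL(2, ℤ)) (τ : ℍ) :
    (gkmeF χ hu σ : ℍ → ℂ) τ = geisSum 12 (gkmeW χ σ) τ := rfl

include hχ in
theorem gkmeF_periodic (σ : SL(2, ℤ)) (τ : ℍ) :
    (gkmeF χ hu σ : ℍ → ℂ) (((N : ℕ) : ℝ) +ᵥ τ) = (gkmeF χ hu σ : ℍ → ℂ) τ := by
  have h1 : ((N : ℕ) : ℝ) +ᵥ τ = ModularGroup.T ^ ((N : ℕ) : ℤ) • τ := by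
    rw [UpperHalfPlane.modular_T_zpow_smul]
    simp
  rw [gkmeF_apply, gkmeF_apply, h1, geisSum_smul_of_mem_stab 12 (gkme_T_mem_stab χ hχ σ),
    geis_denom_T_zpow, one_zpow, one_mul]

include hχ in
theorem gkmeF_bounded (σ : SL(2, ℤ)) :
    IsBoundedAtImInfty (fun τ : ℍ => (gkmeF χ hu σ : ℍ → ℂ) τ *
      Complex.exp (2 * π * Complex.I * ((0 : ℕ) : ℂ) * τ / ((N : ℕ) : ℂ))) := by
  have h1 : (fun τ : ℍ => (gkmeF χ hu σ : ℍ → ℂ) τ *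
      Complex.exp (2 * π * Complex.I * ((0 : ℕ) : ℂ) * τ / ((N : ℕ) : ℂ))) =
      geisSum 12 (gkmeW χ σ) := by
    funext τ
    rw [gkmeF_apply]
    simp
  rw [h1]
  exact geis_isBoundedAtImInfty (by norm_num) (gkmeW_norm_le χ hu σ) (Nat.pos_of_ne_zero (NeZero.ne N))
    (gkme_T_mem_stab χ hχ σ)

include hχ in
theorem gkmeF_cuspExp (σ : SL(2, ℤ)) :
    ∃ S : LaurentSeries ℂ, HasCuspExp N (gkmeF χ hu σ : ℍ → ℂ) S :=
  gkm_hasCuspExp_of_bound N (gkmeF χ hu σ) (gkmeF_periodic χ hχ hu σ) 0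
    (by exact_mod_cast gkmeF_bounded χ hχ hu σ)

/-- the Eisenstein root -/
def gkmeH : HolRing := gkmeF χ hu 1 * gkmeDinv

theorem gkmeW_one : gkmeW χ 1 = geisW χ := by
  funext v
  simp [gkmeW, geisMul_one]

theorem gkmeH_apply (τ : ℍ) : (gkmeH χ hu : ℍ → ℂ) τ = geisE χ 12 τ * (Δ τ)⁻¹ := by
  show (gkmeF χ hu 1 : ℍ → ℂ) τ * (gkmeDinv : ℍ → ℂ) τ = _
  rw [gkmeF_apply, gkmeW_one, gkmeDinv_apply]
  rfl

/-- the translates of `H_χ` -/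
theorem gkmeH_smul_apply (σ : SL(2, ℤ)) (τ : ℍ) :
    (gkmeH χ hu : ℍ → ℂ) (σ • τ) = (gkmeF χ hu σ : ℍ → ℂ) τ * (Δ τ)⁻¹ := by
  rw [gkmeH_apply, gkmeF_apply, gkme_discriminant_smul]
  unfold geisE
  rw [geisSum_smul]
  have hd : denom σ τ ^ (12 : ℤ) ≠ 0 := zpow_ne_zero _ (denom_ne_zero σ τ)
  rw [mul_inv]
  show denom σ τ ^ (12 : ℤ) * geisSum 12 (gkmeW χ σ) τ * ((denom σ τ ^ (12 : ℤ))⁻¹ * (Δ τ)⁻¹) = _
  field_simp

theorem gkmeH_smul (g : SL(2, ℤ)) : g • gkmeH χ hu = gkmeF χ hu g⁻¹ * gkmeDinv := by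
  apply Subtype.ext
  funext τ
  rw [HolRing.smul_apply, gkmeH_smul_apply]
  rfl

include hχ in
theorem gkmeH_cusp : GkmCusp (gkmeH χ hu) := by
  intro g
  obtain ⟨S, hS⟩ := gkmeF_cuspExp χ hχ hu g⁻¹
  obtain ⟨D, hD⟩ := gkme_Dinv_cuspExp
  refine ⟨N, inferInstance, S * qExpand ℂ N D, ?_⟩
  rw [gkmeH_smul]
  have hD' := hD.qExpand N
  rw [one_mul] at hD'
  exact hS.mul hD'

include hχ in
theorem gkmeH_mult : GkmMult N χ (gkmeH χ hu) := by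
  intro γ
  apply Subtype.ext
  funext τ
  rw [HolRing.inv_smul_apply]
  show _ = ((χ γ : ℂˣ) : ℂ) * (gkmeH χ hu : ℍ → ℂ) τ
  rw [gkmeH_apply, gkmeH_apply, gkme_discriminant_smul,
    geisE_smul χ (gkme_chi_of_c_zero χ hχ) 12 γ τ]
  have hd : denom (γ : SL(2, ℤ)) τ ^ (12 : ℤ) ≠ 0 := zpow_ne_zero _ (denom_ne_zero _ τ)
  rw [mul_inv]
  field_simp

include hχ in
theorem gkmeH_ne_zero : gkmeH χ hu ≠ 0 := by
  have hT : ModularGroup.T ^ ((1 : ℕ) : ℤ) ∈ Gamma0 N := by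
    rw [Gamma0_mem, ModularGroup.coe_T_zpow]
    simp
  obtain ⟨z, hz⟩ := geisE_ne_zero χ (gkme_chi_of_c_zero χ hχ) hu (k := 12) (by norm_num)
    (by decide) one_pos hT
  intro h0
  have h1 := congrArg (fun f : HolRing => (f : ℍ → ℂ) z) h0
  simp only [gkmeH_apply] at h1
  have h2 : ((0 : HolRing) : ℍ → ℂ) z = 0 := rfl
  rw [h2] at h1
  rcases mul_eq_zero.1 h1 with h3 | h3
  · exact hz h3
  · exact ModularForm.discriminant_ne_zero z (inv_eq_zero.1 h3)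

end Eis

/-- (EIS) -/
theorem gkm_eis_hol {N : ℕ} [NeZero N] (χ : Gamma0 N →* ℂˣ) (hχ : GkmPE N χ)
    (hu : ∀ γ : Gamma0 N, ‖((χ γ : ℂˣ) : ℂ)‖ = 1) :
    ∃ H : HolRing, H ≠ 0 ∧ GkmMult N χ H ∧ GkmCusp H :=
  ⟨gkmeH χ hu, gkmeH_ne_zero χ hχ hu, gkmeH_mult χ hχ hu, gkmeH_cusp χ hχ hu⟩

end Fermat.Agent.G
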