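import Mathlib
import Fermat.Agent.S24.HolRing

/-!
# Program G, package Kum, row KUM-ROOTHOL: holomorphic `n`-th roots on the upper half plane

`gkm_exists_holRoot` (VERBATIM from `Kum/Spec.lean`): `G : HolRing` all of whose analytic orders are
divisible by `n` is an `n`-th power in `HolRing`.

`gkrh_exists_root` : a HOLOMORPHIC function on `{0 < im z}` all of whose orders are finite and
divisible by `n` is the `n`-th power of a holomorphic function.  (helper8's `G/Kum/Root.lean` has the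
meromorphic / codiscrete form; this file is the everywhere-defined holomorphic form.)
Route: exhaustion by discs with compact closure, finitely many zeros divided out, logarithm of the
nonvanishing rest via primitives on discs, gluing by uniqueness of normalised roots.
-/

set_option autoImplicit false
set_option linter.unusedVariables false
noncomputable section
namespace Fermat.Agent.G

open Complex Metric Set Filter Topology

/-- a nonvanishing holomorphic function on a disc has a holomorphic `n`-th root. -/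
theorem gkrh_root_of_ne_zero {c : ℂ} {r : ℝ} {g : ℂ → ℂ} (hg : DifferentiableOn ℂ g (ball c r))
    (hnz : ∀ z ∈ ball c r, g z ≠ 0) (n : ℕ) (hn : 0 < n) :
    ∃ h : ℂ → ℂ, DifferentiableOn ℂ h (ball c r) ∧ ∀ z ∈ ball c r, h z ^ n = g z := by
  rcases (ball c r).eq_empty_or_nonempty with hemp | ⟨z₁, hz₁⟩
  · exact ⟨0, by rw [hemp]; exact differentiableOn_empty, by rw [hemp]; simp⟩
  have hopen : IsOpen (ball c r) := isOpen_ball
  have hφ : DifferentiableOn ℂ (fun z => deriv g z / g z) (ball c r) :=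
    (hg.deriv hopen).div hg hnz
  obtain ⟨L, hL⟩ := hφ.isExactOn_ball
  have hgd : ∀ z ∈ ball c r, HasDerivAt g (deriv g z) z := fun z hz =>
    (hg.differentiableAt (hopen.mem_nhds hz)).hasDerivAt
  have hψ : ∀ z ∈ ball c r, HasDerivAt (fun w => g w * exp (-(L w))) 0 z := by
    intro z hz
    have h1 : HasDerivAt (fun w => g w * exp (-(L w)))
        (deriv g z * exp (-(L z)) + g z * (exp (-(L z)) * -(deriv g z / g z))) z :=
      (hgd z hz).mul ((hL z hz).neg.cexp)
    refine h1.congr_deriv ?_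
    have := hnz z hz
    field_simp
    ring
  have hconst : ∀ z ∈ ball c r, g z * exp (-(L z)) = g z₁ * exp (-(L z₁)) := by
    intro z hz
    refine hopen.is_const_of_deriv_eq_zero (convex_ball c r).isPreconnected
      (fun w hw => (hψ w hw).differentiableAt.differentiableWithinAt)
      (fun w hw => (hψ w hw).deriv) hz hz₁
  set C := g z₁ * exp (-(L z₁)) with hC
  have hC0 : C ≠ 0 := mul_ne_zero (hnz z₁ hz₁) (exp_ne_zero _)
  have hgeq : ∀ z ∈ ball c r, g z = C * exp (L z) := by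
    intro z hz
    have := hconst z hz
    rw [← this, mul_assoc, ← exp_add, neg_add_cancel, exp_zero, mul_one]
  refine ⟨fun z => exp ((log C + L z) / n), ?_, ?_⟩
  · intro z hz
    have : HasDerivAt (fun z => exp ((log C + L z) / n)) _ z :=
      (((hL z hz).const_add (log C)).div_const (n : ℂ)).cexp
    exact this.differentiableAt.differentiableWithinAt
  · intro z hz
    have hn0 : (n : ℂ) ≠ 0 := Nat.cast_ne_zero.mpr hn.ne'
    rw [hgeq z hz, ← exp_nat_mul, mul_div_cancel₀ _ hn0, exp_add, exp_log hC0]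

/-- dividing out a zero of finite order. -/
theorem gkrh_divide {U : Set ℂ} (hU : IsOpen U) {g : ℂ → ℂ} (hg : DifferentiableOn ℂ g U) {z₀ : ℂ}
    (hz₀ : z₀ ∈ U) {m : ℕ} (hm : analyticOrderAt g z₀ = (m : ℕ∞)) :
    ∃ g₁ : ℂ → ℂ, DifferentiableOn ℂ g₁ U ∧ g₁ z₀ ≠ 0 ∧ ∀ z, g z = (z - z₀) ^ m * g₁ z := by
  have hana : AnalyticAt ℂ g z₀ := hg.analyticAt (hU.mem_nhds hz₀)
  obtain ⟨gl, hgl, hgl0, hev⟩ := hana.analyticOrderAt_eq_natCast.mp hm
  classical
  refine ⟨fun z => if z = z₀ then gl z₀ else g z / (z - z₀) ^ m, ?_, by simp [hgl0], ?_⟩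
  · intro z hz
    apply DifferentiableAt.differentiableWithinAt
    by_cases hzz : z = z₀
    · rw [hzz]
      have heq : (fun z => if z = z₀ then gl z₀ else g z / (z - z₀) ^ m) =ᶠ[𝓝 z₀] gl := by
        filter_upwards [hev] with w hw
        by_cases hw0 : w = z₀
        · simp [hw0]
        · have : (w - z₀) ^ m ≠ 0 := pow_ne_zero _ (sub_ne_zero.mpr hw0)
          simp only [hw0, if_false, hw, smul_eq_mul]
          field_simp
      exact (heq.differentiableAt_iff).mpr hgl.differentiableAt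
    · have heq : (fun z => if z = z₀ then gl z₀ else g z / (z - z₀) ^ m) =ᶠ[𝓝 z]
          fun w => g w / (w - z₀) ^ m := by
        filter_upwards [isOpen_ne.mem_nhds hzz] with w hw
        simp [show w ≠ z₀ from hw]
      refine (heq.differentiableAt_iff).mpr ?_
      have : (z - z₀) ^ m ≠ 0 := pow_ne_zero _ (sub_ne_zero.mpr hzz)
      exact (hg.differentiableAt (hU.mem_nhds hz)).div (by fun_prop) this
  · intro z
    by_cases hzz : z = z₀
    · rw [hzz]
      have := hev.self_of_nhds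
      simpa using this
    · have : (z - z₀) ^ m ≠ 0 := pow_ne_zero _ (sub_ne_zero.mpr hzz)
      simp only [hzz, if_false]
      field_simp

/-- the orders away from the divided zero do not change. -/
theorem gkrh_order_of_divide {g g₁ : ℂ → ℂ} {z₀ z : ℂ} {m : ℕ} (hz : z ≠ z₀)
    (hg₁ : AnalyticAt ℂ g₁ z) (h : ∀ z, g z = (z - z₀) ^ m * g₁ z) :
    analyticOrderAt g z = analyticOrderAt g₁ z := by
  have h1 : g = (fun w => (w - z₀) ^ m) * g₁ := funext h
  have h2 : AnalyticAt ℂ (fun w : ℂ => (w - z₀) ^ m) z := by fun_prop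
  have h3 : analyticOrderAt (fun w : ℂ => (w - z₀) ^ m) z = 0 :=
    h2.analyticOrderAt_eq_zero.mpr (pow_ne_zero _ (sub_ne_zero.mpr hz))
  rw [h1, analyticOrderAt_mul h2 hg₁, h3, zero_add]

/-- a holomorphic function on a disc with finitely many zeros, all of order divisible by `n`, has a
holomorphic `n`-th root. -/
theorem gkrh_root_of_finite_zeros {c : ℂ} {r : ℝ} (n : ℕ) (hn : 0 < n) (s : Finset ℂ) :
    ∀ g : ℂ → ℂ, DifferentiableOn ℂ g (ball c r) →
      (∀ z ∈ ball c r, g z = 0 → z ∈ s) →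
      (∀ z ∈ ball c r, ∃ k : ℕ, analyticOrderAt g z = ((n * k : ℕ) : ℕ∞)) →
      ∃ h : ℂ → ℂ, DifferentiableOn ℂ h (ball c r) ∧ ∀ z ∈ ball c r, h z ^ n = g z := by
  classical
  induction s using Finset.induction_on with
  | empty =>
    intro g hg hz _
    exact gkrh_root_of_ne_zero hg (fun z hzb h0 => by simpa using hz z hzb h0) n hn
  | insert a s _ ih =>
    intro g hg hz hord
    by_cases ha : a ∈ ball c r
    · obtain ⟨k, hk⟩ := hord a ha
      obtain ⟨g₁, hg₁, hg₁a, hfac⟩ := gkrh_divide isOpen_ball hg ha hk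
      have hg₁an : ∀ z ∈ ball c r, AnalyticAt ℂ g₁ z := fun z hzb =>
        hg₁.analyticAt (isOpen_ball.mem_nhds hzb)
      have hz₁ : ∀ z ∈ ball c r, g₁ z = 0 → z ∈ s := by
        intro z hzb h0
        have h1 : g z = 0 := by rw [hfac z, h0, mul_zero]
        have h2 := hz z hzb h1
        rcases Finset.mem_insert.mp h2 with rfl | h3
        · exact absurd h0 hg₁a
        · exact h3
      have hord₁ : ∀ z ∈ ball c r, ∃ k : ℕ, analyticOrderAt g₁ z = ((n * k : ℕ) : ℕ∞) := by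
        intro z hzb
        by_cases hza : z = a
        · refine ⟨0, ?_⟩
          rw [hza, mul_zero, Nat.cast_zero]
          exact (hg₁an a ha).analyticOrderAt_eq_zero.mpr hg₁a
        · obtain ⟨k', hk'⟩ := hord z hzb
          exact ⟨k', by rw [← gkrh_order_of_divide hza (hg₁an z hzb) hfac, hk']⟩
      obtain ⟨h₁, hh₁, hpow⟩ := ih g₁ hg₁ hz₁ hord₁
      refine ⟨fun z => (z - a) ^ k * h₁ z, ?_, ?_⟩
      · exact (by fun_prop : DifferentiableOn ℂ (fun z : ℂ => (z - a) ^ k) (ball c r)).mul hh₁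
      · intro z hzb
        rw [mul_pow, hpow z hzb, hfac z, ← pow_mul, mul_comm k n]
    · refine ih g hg (fun z hzb h0 => ?_) hord
      rcases Finset.mem_insert.mp (hz z hzb h0) with rfl | h3
      · exact absurd hzb ha
      · exact h3

/-- a holomorphic function which is nowhere locally zero has finitely many zeros on a compact
set. -/
theorem gkrh_finite_zeros {U : Set ℂ} (hU : IsOpen U) {f : ℂ → ℂ} (hf : DifferentiableOn ℂ f U)
    (hord : ∀ z ∈ U, analyticOrderAt f z ≠ ⊤) {K : Set ℂ} (hK : IsCompact K) (hKU : K ⊆ U) :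
    {z ∈ K | f z = 0}.Finite := by
  by_contra hinf
  obtain ⟨x, hxK, hacc⟩ :=
    (Set.not_finite.mp hinf).exists_accPt_of_subset_isCompact hK (sep_subset _ _)
  have hana : AnalyticAt ℂ f x := hf.analyticAt (hU.mem_nhds (hKU hxK))
  have hfreq : ∃ᶠ w in 𝓝[≠] x, f w = 0 :=
    (accPt_iff_frequently_nhdsNE.mp hacc).mono (fun w hw => hw.2)
  exact hord x (hKU hxK)
    (analyticOrderAt_eq_top.mpr (hana.frequently_zero_iff_eventually_zero.mp hfreq))

/-- `n`-th roots on a disc with compact closure in the domain of holomorphy. -/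
theorem gkrh_root_on_ball {U : Set ℂ} (hU : IsOpen U) {f : ℂ → ℂ} (hf : DifferentiableOn ℂ f U)
    (n : ℕ) (hn : 0 < n)
    (hord : ∀ z ∈ U, ∃ k : ℕ, analyticOrderAt f z = ((n * k : ℕ) : ℕ∞))
    {c : ℂ} {r : ℝ} (hcr : closedBall c r ⊆ U) :
    ∃ h : ℂ → ℂ, DifferentiableOn ℂ h (ball c r) ∧ ∀ z ∈ ball c r, h z ^ n = f z := by
  have hfin := gkrh_finite_zeros hU hf (fun z hz => by
    obtain ⟨k, hk⟩ := hord z hz
    rw [hk]; exact ENat.natCast_ne_top _) (isCompact_closedBall c r) hcr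
  have hsub : ball c r ⊆ U := ball_subset_closedBall.trans hcr
  refine gkrh_root_of_finite_zeros n hn hfin.toFinset f (hf.mono hsub) ?_
    (fun z hz => hord z (hsub hz))
  intro z hz h0
  rw [Set.Finite.mem_toFinset]
  exact ⟨ball_subset_closedBall hz, h0⟩

/-- two holomorphic `n`-th roots of the same function on a connected open set which agree at a
point where they do not vanish are equal. -/
theorem gkrh_root_unique {V : Set ℂ} (hV : IsOpen V) (hVc : IsPreconnected V) {g₁ g₂ : ℂ → ℂ}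
    (h₁ : DifferentiableOn ℂ g₁ V) (h₂ : DifferentiableOn ℂ g₂ V) {n : ℕ} (hn : 0 < n)
    (hpow : ∀ z ∈ V, g₁ z ^ n = g₂ z ^ n) {z₀ : ℂ} (hz₀ : z₀ ∈ V) (heq : g₁ z₀ = g₂ z₀)
    (hne : g₂ z₀ ≠ 0) : EqOn g₁ g₂ V := by
  refine (h₁.analyticOnNhd hV).eqOn_of_preconnected_of_eventuallyEq (h₂.analyticOnNhd hV) hVc hz₀ ?_
  -- the geometric sum does not vanish near `z₀`
  set S : ℂ → ℂ := fun z => ∑ i ∈ Finset.range n, g₁ z ^ i * g₂ z ^ (n - 1 - i) with hS
  have hc₁ : ContinuousAt g₁ z₀ := (h₁.differentiableAt (hV.mem_nhds hz₀)).continuousAt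
  have hc₂ : ContinuousAt g₂ z₀ := (h₂.differentiableAt (hV.mem_nhds hz₀)).continuousAt
  have hSc : ContinuousAt S z₀ := by
    rw [hS]
    refine tendsto_finsetSum _ (fun i _ => ?_)
    exact (hc₁.pow i).mul (hc₂.pow _)
  have hS0 : S z₀ ≠ 0 := by
    have : S z₀ = n * g₂ z₀ ^ (n - 1) := by
      simp only [hS, heq]
      rw [Finset.sum_congr rfl (fun i hi => by
        rw [← pow_add]
        congr 1
        have := Finset.mem_range.mp hi
        omega :
        ∀ i ∈ Finset.range n, g₂ z₀ ^ i * g₂ z₀ ^ (n - 1 - i) = g₂ z₀ ^ (n - 1))]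
      simp
    rw [this]
    exact mul_ne_zero (Nat.cast_ne_zero.mpr hn.ne') (pow_ne_zero _ hne)
  filter_upwards [hSc.eventually_ne hS0, hV.mem_nhds hz₀] with z hz hzV
  have h3 : S z * (g₁ z - g₂ z) = 0 := by
    rw [hS]
    simp only
    rw [geom_sum₂_mul, hpow z hzV, sub_self]
  rcases mul_eq_zero.mp h3 with h4 | h4
  · exact absurd h4 hz
  · exact sub_eq_zero.mp h4

/-- gluing `n`-th roots along an increasing sequence of connected open sets. -/
theorem gkrh_glue {U : ℕ → Set ℂ} (hUo : ∀ m, IsOpen (U m)) (hUc : ∀ m, IsPreconnected (U m))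
    (hmono : Monotone U) {f : ℂ → ℂ} {n : ℕ} (hn : 0 < n) {z₀ : ℂ} (hz₀ : z₀ ∈ U 0)
    (hfz₀ : f z₀ ≠ 0)
    (hroot : ∀ m, ∃ h : ℂ → ℂ, DifferentiableOn ℂ h (U m) ∧ ∀ z ∈ U m, h z ^ n = f z) :
    ∃ h : ℂ → ℂ, DifferentiableOn ℂ h (⋃ m, U m) ∧ ∀ z ∈ ⋃ m, U m, h z ^ n = f z := by
  classical
  choose h hd hp using hroot
  have hz₀m : ∀ m, z₀ ∈ U m := fun m => hmono (Nat.zero_le m) hz₀
  have hne : ∀ m, h m z₀ ≠ 0 := fun m h0 => hfz₀ (by rw [← hp m z₀ (hz₀m m), h0, zero_pow hn.ne'])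
  -- normalise at `z₀`
  set h' : ℕ → ℂ → ℂ := fun m z => (h 0 z₀ / h m z₀) * h m z with hh'
  have hd' : ∀ m, DifferentiableOn ℂ (h' m) (U m) := fun m => (hd m).const_mul _
  have hp' : ∀ m, ∀ z ∈ U m, h' m z ^ n = f z := by
    intro m z hz
    simp only [hh']
    rw [mul_pow, div_pow, hp m z hz, hp 0 z₀ hz₀, hp m z₀ (hz₀m m), div_self hfz₀, one_mul]
  have hv' : ∀ m, h' m z₀ = h 0 z₀ := fun m => by
    simp only [hh']
    exact div_mul_cancel₀ _ (hne m)
  have hcompat : ∀ m m', m ≤ m' → EqOn (h' m) (h' m') (U m) := by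
    intro m m' hmm
    refine gkrh_root_unique (hUo m) (hUc m) (hd' m) ((hd' m').mono (hmono hmm)) hn ?_ (hz₀m m)
      ((hv' m).trans (hv' m').symm) ?_
    · intro z hz
      rw [hp' m z hz, hp' m' z (hmono hmm hz)]
    · rw [hv' m']; exact hne 0
  refine ⟨fun z => if hz : ∃ m, z ∈ U m then h' (Nat.find hz) z else 0, ?_, ?_⟩
  · have key : ∀ m, EqOn (fun z => if hz : ∃ m, z ∈ U m then h' (Nat.find hz) z else 0) (h' m)
        (U m) := by
      intro m z hz
      have hex : ∃ m, z ∈ U m := ⟨m, hz⟩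
      simp only [hex, dif_pos]
      exact hcompat _ _ (Nat.find_min' hex hz) (Nat.find_spec hex)
    intro z hz
    obtain ⟨m, hm⟩ := mem_iUnion.mp hz
    apply DifferentiableAt.differentiableWithinAt
    have : (fun z => if hz : ∃ m, z ∈ U m then h' (Nat.find hz) z else 0) =ᶠ[𝓝 z] h' m :=
      Filter.eventuallyEq_of_mem ((hUo m).mem_nhds hm) (key m)
    exact this.differentiableAt_iff.mpr ((hd' m).differentiableAt ((hUo m).mem_nhds hm))
  · intro z hz
    have hex : ∃ m, z ∈ U m := mem_iUnion.mp hz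
    simp only [hex, dif_pos]
    exact hp' _ z (Nat.find_spec hex)

/-! ### exhaustion of the upper half plane by discs -/

/-- the `m`-th disc of the exhaustion. -/
def gkrhDisc (m : ℕ) : Set ℂ := ball (((m : ℝ) + 2 : ℝ) * I) ((m : ℝ) + 2 - 1 / ((m : ℝ) + 2))

theorem gkrh_closedBall_subset (m : ℕ) :
    closedBall (((m : ℝ) + 2 : ℝ) * I) ((m : ℝ) + 2 - 1 / ((m : ℝ) + 2)) ⊆ {z : ℂ | 0 < z.im} := by
  intro z hz
  rw [mem_closedBall, dist_eq_norm] at hz
  have ht : (0 : ℝ) < (m : ℝ) + 2 := by positivity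
  have h1 : |(z - ((m : ℝ) + 2 : ℝ) * I).im| ≤ ‖z - ((m : ℝ) + 2 : ℝ) * I‖ := abs_im_le_norm _
  have h2 : (z - ((m : ℝ) + 2 : ℝ) * I).im = z.im - ((m : ℝ) + 2) := by simp
  rw [h2] at h1
  have h3 := (abs_le.mp (h1.trans hz)).1
  have h4 : 0 < 1 / ((m : ℝ) + 2) := by positivity
  show 0 < z.im
  linarith

theorem gkrh_disc_subset (m : ℕ) : gkrhDisc m ⊆ {z : ℂ | 0 < z.im} :=
  ball_subset_closedBall.trans (gkrh_closedBall_subset m)

theorem gkrh_disc_mono : Monotone gkrhDisc := by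
  intro m m' hmm
  apply ball_subset_ball'
  have h1 : (m : ℝ) ≤ (m' : ℝ) := Nat.cast_le.mpr hmm
  have hd : dist (((m : ℝ) + 2 : ℝ) * I) (((m' : ℝ) + 2 : ℝ) * I) = (m' : ℝ) - m := by
    rw [dist_eq_norm, ← sub_mul, norm_mul, norm_I, mul_one, ← ofReal_sub, norm_real,
      Real.norm_eq_abs, abs_sub_comm, abs_of_nonneg (by linarith)]
    ring
  rw [hd]
  have ht : (0 : ℝ) < (m : ℝ) + 2 := by positivity
  have h2 : 1 / ((m' : ℝ) + 2) ≤ 1 / ((m : ℝ) + 2) :=
    one_div_le_one_div_of_le ht (by linarith)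
  linarith

theorem gkrh_iUnion_disc : (⋃ m, gkrhDisc m) = {z : ℂ | 0 < z.im} := by
  apply Subset.antisymm
  · exact iUnion_subset gkrh_disc_subset
  · intro z hz
    have hy : 0 < z.im := hz
    obtain ⟨m, hm⟩ := exists_nat_gt ((z.re ^ 2 + z.im ^ 2 + 2) / (2 * z.im))
    refine mem_iUnion.mpr ⟨m, ?_⟩
    rw [gkrhDisc, mem_ball, dist_eq_norm]
    have ht : (2 : ℝ) ≤ (m : ℝ) + 2 := by
      have : (0 : ℝ) ≤ (m : ℝ) := Nat.cast_nonneg m
      linarith
    set t : ℝ := (m : ℝ) + 2 with htdef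
    have ht0 : 0 < t := by linarith
    have h1 : z.re ^ 2 + z.im ^ 2 + 2 < 2 * z.im * t := by
      have := (div_lt_iff₀ (by positivity : (0 : ℝ) < 2 * z.im)).mp hm
      nlinarith
    have hinv : 1 / t ≤ 1 / 2 := one_div_le_one_div_of_le (by norm_num) ht
    have hrad : 0 < t - 1 / t := by linarith
    have hsq : ‖z - (t : ℝ) * I‖ ^ 2 < (t - 1 / t) ^ 2 := by
      rw [Complex.sq_norm, normSq_apply]
      have hre : (z - (t : ℝ) * I).re = z.re := by simp
      have him : (z - (t : ℝ) * I).im = z.im - t := by simp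
      rw [hre, him]
      have h5 : (t - 1 / t) ^ 2 = t ^ 2 - 2 + (1 / t) ^ 2 := by
        field_simp
        ring
      rw [h5]
      have h6 : 0 ≤ (1 / t) ^ 2 := sq_nonneg _
      nlinarith
    exact lt_of_pow_lt_pow_left₀ 2 hrad.le hsq

/-- **`n`-th roots on the upper half plane**: a holomorphic function all of whose orders are
(finite and) divisible by `n` is the `n`-th power of a holomorphic function. -/
theorem gkrh_exists_root (f : ℂ → ℂ) (hf : DifferentiableOn ℂ f {z : ℂ | 0 < z.im}) (n : ℕ)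
    (hn : 0 < n)
    (hord : ∀ z : ℂ, 0 < z.im → ∃ k : ℕ, analyticOrderAt f z = ((n * k : ℕ) : ℕ∞)) :
    ∃ h : ℂ → ℂ, DifferentiableOn ℂ h {z : ℂ | 0 < z.im} ∧ ∀ z : ℂ, 0 < z.im → h z ^ n = f z := by
  have hopen : IsOpen {z : ℂ | 0 < z.im} := isOpen_lt continuous_const continuous_im
  -- a base point in the first disc
  have hbase : ∃ z₀ ∈ gkrhDisc 0, f z₀ ≠ 0 := by
    by_contra hcon
    push Not at hcon
    have hc : (((0 : ℕ) : ℝ) + 2 : ℝ) * I ∈ gkrhDisc 0 := by
      rw [gkrhDisc]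
      apply mem_ball_self
      norm_num
    have hev : ∀ᶠ z in 𝓝 ((((0 : ℕ) : ℝ) + 2 : ℝ) * I), f z = 0 :=
      Filter.eventually_of_mem (isOpen_ball.mem_nhds hc) hcon
    obtain ⟨k, hk⟩ := hord _ (gkrh_disc_subset 0 hc)
    rw [analyticOrderAt_eq_top.mpr hev] at hk
    exact ENat.top_ne_natCast _ hk
  obtain ⟨z₀, hz₀, hfz₀⟩ := hbase
  have hroot : ∀ m, ∃ h : ℂ → ℂ, DifferentiableOn ℂ h (gkrhDisc m) ∧
      ∀ z ∈ gkrhDisc m, h z ^ n = f z := fun m =>
    gkrh_root_on_ball hopen hf n hn (fun z hz => hord z hz) (gkrh_closedBall_subset m)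
  obtain ⟨h, hd, hp⟩ := gkrh_glue (U := gkrhDisc) (fun m => isOpen_ball)
    (fun m => (convex_ball _ _).isPreconnected) gkrh_disc_mono hn hz₀ hfz₀ hroot
  rw [gkrh_iUnion_disc] at hd hp
  exact ⟨h, hd, fun z hz => hp z hz⟩

/-! ### the `HolRing` form (row KUM-ROOTHOL) -/

open UpperHalfPlane Fermat.Agent.S24
open scoped Manifold

theorem gkm_exists_holRoot {n : ℕ} (hn : 0 < n) (G : HolRing) (hG : G ≠ 0)
    (hdiv : ∀ τ : ℍ, ∃ m : ℕ,
      analyticOrderAt ((G : ℍ → ℂ) ∘ ofComplex) (τ : ℂ) = ((n * m : ℕ) : ℕ∞)) :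
    ∃ H : HolRing, H ^ n = G := by
  have hf : DifferentiableOn ℂ ((G : ℍ → ℂ) ∘ ofComplex) {z : ℂ | 0 < z.im} :=
    UpperHalfPlane.mdifferentiable_iff.mp G.2
  obtain ⟨h, hd, hp⟩ := gkrh_exists_root _ hf n hn (fun z hz => hdiv ⟨z, hz⟩)
  have hH : MDiff (fun τ : ℍ => h (τ : ℂ)) := by
    rw [UpperHalfPlane.mdifferentiable_iff]
    refine hd.congr (fun z hz => ?_)
    have hz' : 0 < z.im := hz
    simp only [Function.comp_apply, ofComplex_apply_of_im_pos hz']
  refine ⟨⟨fun τ : ℍ => h (τ : ℂ), hH⟩, ?_⟩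
  apply Subtype.ext
  funext τ
  have := hp (τ : ℂ) τ.im_pos
  simp only [Function.comp_apply, ofComplex_apply] at this
  simpa using this

end Fermat.Agent.G
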