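/-
Program G / package Kum, row KUM-HCUSP: the analytic Hecke operator preserves meromorphy at the cusps.
-/
import Mathlib
import Fermat.Agent.G.Kum.Defs
import Fermat.Agent.S16.LB.HeckePeriod

set_option autoImplicit false

noncomputable section

namespace Fermat.Agent.G

open UpperHalfPlane ModularCurve AlgebraicCurve CongruenceSubgroup Fermat.Agent.S24
  Fermat.Agent.S16LB
open P2MW.S_ModularForm_heckeT_slash_eq_self_of_mem_Gamma0.ModularForm.HeckeSlashInvariance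
open scoped MatrixGroups Manifold ModularForm Real

/-- Affine substitution `τ ↦ (a τ + b) / d` in an expansion of width `h`. -/
theorem gkmc_comp_affine {h : ℕ} {f : ℍ → ℂ} {S : LaurentSeries ℂ} {a d : ℕ} (hh : h ≠ 0)
    (ha : a ≠ 0) (hd : d ≠ 0) (b : ℤ)
    (g' : GL (Fin 2) ℝ) (hg' : ∀ τ : ℍ, ((g' • τ : ℍ) : ℂ) = ((a : ℂ) * τ + b) / d)
    (hS : HasCuspExp h f S) (ζ : ℂˣ)
    (hζ : (ζ : ℂ) = Complex.exp (2 * π * Complex.I * b / (d * h))) :
    haveI : NeZero a := ⟨ha⟩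
    HasCuspExp (d * h) (fun τ => f (g' • τ)) (ModularCurve.qExpand ℂ a (rotLaurent ζ S)) := by
  have : NeZero a := ⟨ha⟩
  intro τ
  have h1 := hS (g' • τ)
  have ha' : (a : ℤ) ≠ 0 := by exact_mod_cast ha
  have hd' : (d : ℂ) ≠ 0 := by exact_mod_cast hd
  have hh' : (h : ℂ) ≠ 0 := by exact_mod_cast hh
  have hinj : Function.Injective (fun m : ℤ => (a : ℤ) * m) := mul_right_injective₀ ha'
  rw [← hinj.hasSum_iff]
  · have : ((fun m : ℤ => (ModularCurve.qExpand ℂ a (rotLaurent ζ S)).coeff m *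
        Complex.exp (2 * π * Complex.I * m * τ / ((d * h : ℕ) : ℂ))) ∘ fun m : ℤ => (a : ℤ) * m) =
        fun m : ℤ => S.coeff m *
          Complex.exp (2 * π * Complex.I * m * ((g' • τ : ℍ) : ℂ) / ((h : ℕ) : ℂ)) := by
      funext m
      simp only [Function.comp_apply, qExpand_coeff_mul, rotLaurent_coeff]
      rw [hg', hζ, ← Complex.exp_int_mul, mul_comm (Complex.exp _) (S.coeff m), mul_assoc,
        ← Complex.exp_add]
      congr 2
      push_cast
      field_simp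
      ring
    rw [this]
    exact h1
  · intro m hm
    rw [qExpand_coeff_of_not_dvd a _ (fun ⟨n, hn⟩ => hm ⟨n, hn.symm⟩), zero_mul]

/-- a finite product of functions with expansions (of arbitrary widths) has an expansion -/
theorem gkmc_prod {ι : Type*} (s : Finset ι) (F : ι → ℍ → ℂ) (w : ι → ℕ)
    (hw : ∀ i ∈ s, w i ≠ 0) (S : ι → LaurentSeries ℂ)
    (hF : ∀ i ∈ s, HasCuspExp (w i) (F i) (S i)) :
    ∃ (W : ℕ) (_ : NeZero W) (T : LaurentSeries ℂ),
      HasCuspExp W (fun τ => ∏ i ∈ s, F i τ) T := by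
  classical
  induction s using Finset.induction_on with
  | empty =>
    refine ⟨1, ⟨one_ne_zero⟩, HahnSeries.C 1, ?_⟩
    simp only [Finset.prod_empty]
    exact HasCuspExp.const 1
  | insert a s has ih =>
    obtain ⟨W, hW, T, hT⟩ := ih (fun i hi => hw i (Finset.mem_insert_of_mem hi))
      (fun i hi => hF i (Finset.mem_insert_of_mem hi))
    have hwa : NeZero (w a) := ⟨hw a (Finset.mem_insert_self a s)⟩
    have h1 := (hF a (Finset.mem_insert_self a s)).qExpand W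
    have h2 := hT.qExpand (w a)
    rw [mul_comm] at h2
    have h3 := h1.mul h2
    have e : (fun τ => ∏ i ∈ insert a s, F i τ) = F a * fun τ => ∏ i ∈ s, F i τ := by
      funext τ
      rw [Finset.prod_insert has]
      rfl
    rw [← e] at h3
    exact ⟨w a * W, ⟨mul_ne_zero hwa.ne hW.ne⟩, _, h3⟩

variable {ℓ : ℕ} [Fact ℓ.Prime]

/-- (HCUSP) `∏ i, G ∘ α_i` is meromorphic at the cusps if `G` is. -/
theorem gkm_heckeHol_cusp {G : HolRing} (hc : GkmCusp G) : GkmCusp (gkmHeckeHol ℓ G) := by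
  intro g
  have hℓ : ℓ.Prime := Fact.out
  have key : ∀ x : OnePoint (ZMod ℓ), ∃ (w : ℕ) (_ : w ≠ 0) (T : LaurentSeries ℂ),
      HasCuspExp w (fun τ : ℍ => (G : ℍ → ℂ) ((heckeRep ℓ x : GL (Fin 2) ℝ) • (g⁻¹ • τ))) T := by
    intro x
    obtain ⟨g', -, hmul⟩ := heckeRep_mul (p := ℓ) (N := 1)
      (fun h => hℓ.one_lt.ne' (Nat.dvd_one.mp h)) g⁻¹ (by simp) x
    set y := redMatrix ℓ g⁻¹ • x with hy
    obtain ⟨h, hne, S, hS⟩ := hc g'⁻¹
    have hfun : (fun τ : ℍ => (G : ℍ → ℂ) ((heckeRep ℓ x : GL (Fin 2) ℝ) • (g⁻¹ • τ))) =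
        fun τ : ℍ => ((g'⁻¹ • G : HolRing) : ℍ → ℂ) ((heckeRep ℓ y : GL (Fin 2) ℝ) • τ) := by
      funext τ
      have e1 : ((heckeRep ℓ x : GL (Fin 2) ℝ) • (g⁻¹ • τ) : ℍ) =
          ((heckeRep ℓ x : GL (Fin 2) ℝ) * Matrix.SpecialLinearGroup.mapGL ℝ g⁻¹) • τ := by
        rw [mul_smul]
        rfl
      rw [e1, hmul, mul_smul, HolRing.inv_smul_apply]
      rfl
    rw [hfun]
    have hA : s16lbRepA ℓ y ≠ 0 := (s16lb_repA_pos y).ne'
    have hD : s16lbRepD ℓ y ≠ 0 := (s16lb_repD_pos y).ne'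
    have h1 := gkmc_comp_affine hne.ne hA hD (s16lbRepB ℓ y : ℤ) (heckeRep ℓ y)
      (fun τ => by rw [s16lb_coe_heckeRep_smul]; push_cast; rfl) hS
      (Units.mk0 _ (Complex.exp_ne_zero _)) (Units.val_mk0 _)
    exact ⟨_, mul_ne_zero hD hne.ne, _, h1⟩
  choose w hw T hT using key
  obtain ⟨W, hW, S, hS⟩ := gkmc_prod Finset.univ
    (fun x τ => (G : ℍ → ℂ) ((heckeRep ℓ x : GL (Fin 2) ℝ) • (g⁻¹ • τ))) w (fun x _ => hw x) T
    (fun x _ => hT x)
  refine ⟨W, hW, S, ?_⟩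
  have e : ((g • gkmHeckeHol ℓ G : HolRing) : ℍ → ℂ) =
      fun τ => ∏ x : OnePoint (ZMod ℓ), (G : ℍ → ℂ) ((heckeRep ℓ x : GL (Fin 2) ℝ) • (g⁻¹ • τ)) := by
    funext τ
    rw [HolRing.smul_apply, gkmHeckeHol_apply]
  rw [e]
  exact hS

end Fermat.Agent.G
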