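import Mathlib
import Fermat.Agent.G.Kum.Defs
import Fermat.Agent.S16.LB.HeckePeriod

/-!
# Program G / package Kum, row KUM-HEXP : the expansion of the analytic Hecke norm

`gkm_heckeHol_cuspExp_aux`, `gkm_heckeHol_cuspExp` VERBATIM from `Kum/Spec.lean` (origin/helper22
82b6025): if `G = ∑ S_m q^m` then `∏ i, G ∘ α_i` (`α_∞ = [ℓ,0;0,1]`, `α_j = [1,j;0,ℓ]`) has the
expansion `S(Q^(ℓ²)) ∏_{i<ℓ} S(ζ^i Q)` in `Q = q^(1/ℓ)`, for any primitive `ℓ`-th root of unity `ζ`.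
Auxiliary lemmas are prefixed `gkmx_`.
-/

set_option autoImplicit false
set_option linter.style.haveILetI false

noncomputable section

namespace Fermat.Agent.G

open UpperHalfPlane ModularCurve AlgebraicCurve CongruenceSubgroup Fermat.Agent.S24
  Fermat.Agent.S16LB IntermediateField
open P2MW.S_ModularForm_heckeT_slash_eq_self_of_mem_Gamma0.ModularForm.HeckeSlashInvariance
open scoped MatrixGroups Manifold ModularForm Real

variable {N : ℕ} [NeZero N] {n : ℕ}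

/-- helper19's twist is the S24 rotation. -/
theorem gkmx_twist_eq_rot (c : ℂˣ) (S : LaurentSeries ℂ) : gcjTwist c S = rotLaurent c S := by
  ext m
  rw [gcjTwist_coeff, rotLaurent_coeff, Units.val_zpow_eq_zpow_val]

theorem gkmx_rot_one (S : LaurentSeries ℂ) : rotLaurent 1 S = S := by
  ext m
  rw [rotLaurent_coeff, Units.val_one, one_zpow, one_mul]

/-- finite products of cusp expansions -/
theorem gkmx_hasCuspExp_prod {h : ℕ} [NeZero h] {ι : Type*} (s : Finset ι) (F : ι → ℍ → ℂ)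
    (T : ι → LaurentSeries ℂ) (hF : ∀ i ∈ s, HasCuspExp h (F i) (T i)) :
    HasCuspExp h (∏ i ∈ s, F i) (∏ i ∈ s, T i) := by
  classical
  induction s using Finset.induction_on with
  | empty =>
    rw [Finset.prod_empty, Finset.prod_empty]
    have := HasCuspExp.const (h := h) 1
    rw [map_one] at this
    exact this
  | insert a s ha ih =>
    rw [Finset.prod_insert ha, Finset.prod_insert ha]
    exact (hF a (Finset.mem_insert_self a s)).mul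
      (ih fun i hi => hF i (Finset.mem_insert_of_mem hi))

/-- the product over the powers of a primitive root does not depend on the root -/
theorem gkmx_prod_pow_eq {M : Type*} [CommMonoid M] (F : ℂˣ → M) {k : ℕ} [NeZero k] {ζ ζ' : ℂˣ}
    (hζ : IsPrimitiveRoot ζ k) (hζ' : IsPrimitiveRoot ζ' k) :
    ∏ i ∈ Finset.range k, F (ζ ^ i) = ∏ i ∈ Finset.range k, F (ζ' ^ i) := by
  classical
  have hinj : ∀ {ξ : ℂˣ}, IsPrimitiveRoot ξ k →
      Set.InjOn (fun i : ℕ => ξ ^ i) (Finset.range k : Set ℕ) := by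
    intro ξ hξ i hi j hj hij
    exact hξ.pow_inj (Finset.mem_range.1 hi) (Finset.mem_range.1 hj) hij
  have himg : (Finset.range k).image (fun i : ℕ => ζ' ^ i) =
      (Finset.range k).image (fun i : ℕ => ζ ^ i) := by
    apply Finset.eq_of_subset_of_card_le
    · intro μ hμ
      obtain ⟨i, hi, rfl⟩ := Finset.mem_image.1 hμ
      have h1 : ((ζ' ^ i : ℂˣ) : ℂ) ^ k = 1 := by
        rw [← Units.val_pow_eq_pow_val, ← pow_mul, mul_comm, pow_mul, hζ'.pow_eq_one, one_pow,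
          Units.val_one]
      have hζc : IsPrimitiveRoot (ζ : ℂ) k := IsPrimitiveRoot.coe_units_iff.2 hζ
      obtain ⟨j, hj, hjeq⟩ := hζc.eq_pow_of_pow_eq_one h1
      refine Finset.mem_image.2 ⟨j, Finset.mem_range.2 hj, ?_⟩
      apply Units.ext
      rw [Units.val_pow_eq_pow_val, hjeq]
    · rw [Finset.card_image_of_injOn (hinj hζ), Finset.card_image_of_injOn (hinj hζ')]
  rw [← Finset.prod_image (f := F) (hinj hζ), ← Finset.prod_image (f := F) (hinj hζ'), himg]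

/-- products over `ZMod k` and over `range k` -/
theorem gkmx_prod_zmod {M : Type*} [CommMonoid M] (k : ℕ) [NeZero k] (F : ℕ → M) :
    ∏ j : ZMod k, F j.val = ∏ i ∈ Finset.range k, F i := by
  refine Finset.prod_bij (fun j _ => j.val) (fun j _ => Finset.mem_range.2 (ZMod.val_lt j))
    (fun a _ b _ hab => ZMod.val_injective k hab) (fun i hi => ?_) (fun j _ => rfl)
  refine ⟨(i : ZMod k), Finset.mem_univ _, ?_⟩
  rw [ZMod.val_natCast, Nat.mod_eq_of_lt (Finset.mem_range.1 hi)]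

/-- `exp(2πi/k)` as a unit -/
def gkmxExp (k : ℕ) : ℂˣ :=
  Units.mk0 (Complex.exp (2 * π * Complex.I / k)) (Complex.exp_ne_zero _)

theorem gkmxExp_isPrimitiveRoot (k : ℕ) (hk : k ≠ 0) : IsPrimitiveRoot (gkmxExp k) k := by
  rw [← IsPrimitiveRoot.coe_units_iff]
  exact Complex.isPrimitiveRoot_exp k hk

theorem gkmxExp_pow (k : ℕ) (i : ℕ) :
    ((gkmxExp k ^ i : ℂˣ) : ℂ) = Complex.exp (2 * π * Complex.I * (i : ℤ) / k) := by
  rw [Units.val_pow_eq_pow_val, gkmxExp, Units.val_mk0, ← Complex.exp_nat_mul]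
  congr 1
  push_cast
  ring

section Hecke

variable {ℓ : ℕ} [Fact ℓ.Prime]

/-- the expansion of `G ∘ α_∞` in `q^(1/ℓ)` -/
theorem gkmx_cuspExp_infty {G : ℍ → ℂ} {S : LaurentSeries ℂ} (hG : HasCuspExp 1 G S) :
    haveI : NeZero ℓ := ⟨(Fact.out : ℓ.Prime).ne_zero⟩
    HasCuspExp ℓ (fun τ => G ((heckeRep ℓ (OnePoint.infty) : GL (Fin 2) ℝ) • τ))
      (qExpand ℂ (ℓ * ℓ) S) := by
  haveI : NeZero ℓ := ⟨(Fact.out : ℓ.Prime).ne_zero⟩
  have hℓ : ℓ ≠ 0 := (Fact.out : ℓ.Prime).ne_zero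
  have h1 := HasCuspExp.comp_affine (a := ℓ) (d := 1) hℓ one_ne_zero 0
    (heckeRep ℓ (OnePoint.infty) : GL (Fin 2) ℝ)
    (fun τ => by
      rw [s16lb_coe_heckeRep_smul]
      simp [s16lbRepA, s16lbRepB, s16lbRepD]) hG 1 (by simp)
  have h2 := h1.qExpand ℓ
  rw [gkmx_rot_one, qExpand_qExpand, one_mul] at h2
  exact h2

/-- the expansion of `G ∘ α_j` in `q^(1/ℓ)` -/
theorem gkmx_cuspExp_coe {G : ℍ → ℂ} {S : LaurentSeries ℂ} (hG : HasCuspExp 1 G S)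
    (j : ZMod ℓ) :
    HasCuspExp ℓ (fun τ => G ((heckeRep ℓ ((j : OnePoint (ZMod ℓ))) : GL (Fin 2) ℝ) • τ))
      (rotLaurent (gkmxExp ℓ ^ j.val) S) := by
  haveI : NeZero ℓ := ⟨(Fact.out : ℓ.Prime).ne_zero⟩
  have hℓ : ℓ ≠ 0 := (Fact.out : ℓ.Prime).ne_zero
  have h1 := HasCuspExp.comp_affine (a := 1) (d := ℓ) one_ne_zero hℓ (j.val : ℤ)
    (heckeRep ℓ ((j : OnePoint (ZMod ℓ))) : GL (Fin 2) ℝ)
    (fun τ => by
      rw [s16lb_coe_heckeRep_smul]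
      simp [-ZMod.natCast_val, s16lbRepA, s16lbRepB, s16lbRepD]) hG (gkmxExp ℓ ^ j.val)
    (gkmxExp_pow ℓ j.val)
  rw [qExpand_one_apply] at h1
  exact h1

/-- (HEXP) the expansion of `∏ i, G ∘ α_i` in `q^(1/ℓ)`: `S(Q^(ℓ²)) ∏_{i<ℓ} S(ζ^i Q)`
(S24 `HasCuspExp.comp_affine` for the `ℓ + 1` matrices, `HasCuspExp.mul`; `{ζ^i} = {exp(2πi j/ℓ)}`). -/
theorem gkm_heckeHol_cuspExp_aux {G : HolRing} {S : LaurentSeries ℂ}
    (hG : HasCuspExp 1 (G : ℍ → ℂ) S) (ζ : ℂˣ) (hζ : IsPrimitiveRoot ζ ℓ) :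
    haveI : NeZero ℓ := ⟨(Fact.out : ℓ.Prime).ne_zero⟩
    HasCuspExp ℓ ((gkmHeckeHol ℓ G : HolRing) : ℍ → ℂ)
      (qExpand ℂ (ℓ * ℓ) S * ∏ i ∈ Finset.range ℓ, gcjTwist (ζ ^ i) S) := by
  haveI : NeZero ℓ := ⟨(Fact.out : ℓ.Prime).ne_zero⟩
  have hℓ : ℓ ≠ 0 := (Fact.out : ℓ.Prime).ne_zero
  -- the function
  have hfun : ((gkmHeckeHol ℓ G : HolRing) : ℍ → ℂ) =
      (fun τ => (G : ℍ → ℂ) ((heckeRep ℓ (OnePoint.infty) : GL (Fin 2) ℝ) • τ)) *
        ∏ j : ZMod ℓ,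
          (fun τ => (G : ℍ → ℂ) ((heckeRep ℓ ((j : OnePoint (ZMod ℓ))) : GL (Fin 2) ℝ) • τ)) := by
    funext τ
    rw [gkmHeckeHol_apply, Pi.mul_apply, Finset.prod_apply]
    exact Fintype.prod_option
      (fun i : Option (ZMod ℓ) => (G : ℍ → ℂ) ((heckeRep ℓ i : GL (Fin 2) ℝ) • τ))
  -- the series
  have hser : ∏ i ∈ Finset.range ℓ, gcjTwist (ζ ^ i) S =
      ∏ j : ZMod ℓ, rotLaurent (gkmxExp ℓ ^ j.val) S := by
    rw [gkmx_prod_zmod ℓ (fun i => rotLaurent (gkmxExp ℓ ^ i) S),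
      gkmx_prod_pow_eq (fun c => rotLaurent c S) (gkmxExp_isPrimitiveRoot ℓ hℓ) hζ]
    exact Finset.prod_congr rfl fun i _ => gkmx_twist_eq_rot _ _
  rw [hfun, hser]
  exact (gkmx_cuspExp_infty hG).mul
    (gkmx_hasCuspExp_prod Finset.univ _ _ fun j _ => gkmx_cuspExp_coe hG j)

/-- (HEXP) the expansion of `∏ i, G ∘ α_i` is the Hecke norm (helper19's `GcjIsHeckeNorm`) of the
expansion of `G`: `S'(q) = S(q^ℓ) ∏_{i<ℓ} S(ζ^i q^(1/ℓ))`. -/
theorem gkm_heckeHol_cuspExp {G : HolRing} {S S' : LaurentSeries ℂ}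
    (hG : HasCuspExp 1 (G : ℍ → ℂ) S) (ζ : ℂˣ) (hζ : IsPrimitiveRoot ζ ℓ)
    (hS : haveI : NeZero ℓ := ⟨(Fact.out : ℓ.Prime).ne_zero⟩; GcjIsHeckeNorm ℓ ζ S S') :
    HasCuspExp 1 ((gkmHeckeHol ℓ G : HolRing) : ℍ → ℂ) S' := by
  haveI : NeZero ℓ := ⟨(Fact.out : ℓ.Prime).ne_zero⟩
  have h1 := gkm_heckeHol_cuspExp_aux hG ζ hζ
  have hS' : qExpand ℂ ℓ S' = qExpand ℂ (ℓ * ℓ) S * ∏ i ∈ Finset.range ℓ, gcjTwist (ζ ^ i) S := hS
  rw [← hS'] at h1
  have h2 : HasCuspExp (1 * ℓ) ((gkmHeckeHol ℓ G : HolRing) : ℍ → ℂ) (qExpand ℂ ℓ S') := by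
    rw [one_mul]
    exact h1
  exact (cuspExp_qExpand_iff ℓ).1 h2

end Hecke

end Fermat.Agent.G
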