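import Fermat.Agent.G.Per.Defs
import Fermat.Agent.G.Per.Fg

/-!
# Program G, package Kum: the bridge between additive `ℤ/n`-valued characters of `Γ₀(N)^ab`
and multiplicative characters `Γ₀(N) → ℂˣ` of exponent `n`; the transfer law for multipliers.

* `gkcChar n x : Gamma0 N →* ℂˣ`, `γ ↦ exp (2πi · x(cls γ) / n)`.
* `gkc_exists_eq_char` : every `χ : Gamma0 N →* ℂˣ` with `χ ^ n = 1` is `gkcChar n x`.
* `gkc_mul_periods` : if `h (γ z) = χ γ * h z` then `H z = ∏ i, h (α i z)` has multiplier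
  `γ ↦ ∏ i, χ (coc γ i)`; `gkc_prod_coc` : for `χ = gkcChar n x` this is
  `gkcChar n (x ∘ trEnd)`.
-/

set_option autoImplicit false

noncomputable section

namespace Fermat.Agent.G

open Fermat.Agent.S16LB CongruenceSubgroup
open scoped MatrixGroups BigOperators

variable {N : ℕ}

/-- The multiplicative character `γ ↦ exp (2πi · x(cls γ)/n)` of `Γ₀(N)` attached to an additive
character `x : Γ₀(N)^ab → ℤ/n`. -/
def gkcChar (n : ℕ) [NeZero n] (x : s16lbAb N →+ ZMod n) : Gamma0 N →* ℂˣ :=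
  ((ZMod.stdAddChar (N := n)).toMonoidHom.comp
    (AddMonoidHom.toMultiplicativeRight (x.comp (s16lbCls N)))).toHomUnits

variable (n : ℕ) [NeZero n]

@[simp] theorem gkcChar_apply (x : s16lbAb N →+ ZMod n) (γ : Gamma0 N) :
    ((gkcChar n x γ : ℂˣ) : ℂ) = ZMod.stdAddChar (x (s16lbCls N (Additive.ofMul γ))) := rfl

theorem gkcChar_add (x y : s16lbAb N →+ ZMod n) : gkcChar n (x + y) = gkcChar n x * gkcChar n y := by
  refine MonoidHom.ext fun γ => Units.ext ?_
  rw [MonoidHom.mul_apply, Units.val_mul, gkcChar_apply, gkcChar_apply, gkcChar_apply,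
    AddMonoidHom.add_apply, AddChar.map_add_eq_mul]

theorem gkcChar_zero : gkcChar n (0 : s16lbAb N →+ ZMod n) = 1 := by
  refine MonoidHom.ext fun γ => Units.ext ?_
  rw [gkcChar_apply, AddMonoidHom.zero_apply, AddChar.map_zero_eq_one]
  rfl

theorem gkcChar_pow (x : s16lbAb N →+ ZMod n) (γ : Gamma0 N) : gkcChar n x γ ^ n = 1 := by
  refine Units.ext ?_
  rw [Units.val_pow_eq_pow_val, gkcChar_apply, ← AddChar.map_nsmul_eq_pow, nsmul_eq_mul,
    ZMod.natCast_self, zero_mul, AddChar.map_zero_eq_one]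
  rfl

theorem gkcChar_norm (x : s16lbAb N →+ ZMod n) (γ : Gamma0 N) :
    ‖((gkcChar n x γ : ℂˣ) : ℂ)‖ = 1 := by
  rw [gkcChar_apply, ZMod.stdAddChar_apply]
  exact Circle.norm_coe _

theorem gkcChar_eq_one_iff (x : s16lbAb N →+ ZMod n) : gkcChar n x = 1 ↔ x = 0 := by
  constructor
  · intro h
    refine s16lbAb_ext fun γ => ?_
    obtain ⟨γ, rfl⟩ := Additive.ofMul.surjective γ
    have h1 := congrArg (fun u : ℂˣ => (u : ℂ)) (DFunLike.congr_fun h γ)
    simp only [gkcChar_apply, MonoidHom.one_apply, Units.val_one] at h1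
    rw [← AddChar.map_zero_eq_one (ZMod.stdAddChar (N := n))] at h1
    rw [AddMonoidHom.zero_apply]
    exact ZMod.injective_stdAddChar h1
  · rintro rfl
    exact gkcChar_zero n

theorem gkcChar_injective : Function.Injective (gkcChar (N := N) n) := by
  intro x y h
  refine s16lbAb_ext fun γ => ?_
  obtain ⟨γ, rfl⟩ := Additive.ofMul.surjective γ
  have h1 := congrArg (fun u : ℂˣ => (u : ℂ)) (DFunLike.congr_fun h γ)
  simp only [gkcChar_apply] at h1
  exact ZMod.injective_stdAddChar h1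

/-- `gkcChar n x` is trivial on the parabolic and elliptic elements iff `x` kills them. -/
theorem gkcChar_isPE_iff (x : s16lbAb N →+ ZMod n) :
    (∀ γ : Gamma0 N, gprIsPE γ → gkcChar n x γ = 1) ↔ x ∈ gprHomPE N (ZMod n) := by
  constructor
  · intro h γ hγ
    have h1 := congrArg (fun u : ℂˣ => (u : ℂ)) (h γ hγ)
    simp only [gkcChar_apply, Units.val_one] at h1
    rw [← AddChar.map_zero_eq_one (ZMod.stdAddChar (N := n))] at h1
    exact ZMod.injective_stdAddChar h1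
  · intro h γ hγ
    refine Units.ext ?_
    rw [gkcChar_apply, h γ hγ, AddChar.map_zero_eq_one]
    rfl

/-- elements of `Γ₀(N)` with lower left entry `0` are parabolic (or `±1`). -/
theorem gkc_isPE_of_c_eq_zero (γ : Gamma0 N) (hc : (γ : SL(2, ℤ)) 1 0 = 0) : gprIsPE γ := by
  have hdet := Matrix.SpecialLinearGroup.det_coe (γ : SL(2, ℤ))
  rw [Matrix.det_fin_two, hc, mul_zero, sub_zero] at hdet
  have h1 : (γ : SL(2, ℤ)) 0 0 = 1 ∧ (γ : SL(2, ℤ)) 1 1 = 1 ∨
      (γ : SL(2, ℤ)) 0 0 = -1 ∧ (γ : SL(2, ℤ)) 1 1 = -1 := Int.eq_one_or_neg_one_of_mul_eq_one' hdet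
  unfold gprIsPE
  rw [Matrix.trace_fin_two]
  rcases h1 with ⟨h1, h2⟩ | ⟨h1, h2⟩
  · show ((γ : SL(2, ℤ)) 0 0 + (γ : SL(2, ℤ)) 1 1) ^ 2 ≤ 4
    rw [h1, h2]; norm_num
  · show ((γ : SL(2, ℤ)) 0 0 + (γ : SL(2, ℤ)) 1 1) ^ 2 ≤ 4
    rw [h1, h2]; norm_num

/-! ### every character of exponent `n` comes from an additive one -/

theorem gkc_exists_stdAddChar_eq {z : ℂ} (hz : z ^ n = 1) :
    ∃ a : ZMod n, ZMod.stdAddChar a = z := by
  have hn : n ≠ 0 := NeZero.ne n
  have hprim : IsPrimitiveRoot (Complex.exp (2 * Real.pi * Complex.I / n)) n :=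
    Complex.isPrimitiveRoot_exp n hn
  obtain ⟨i, -, hi⟩ := hprim.eq_pow_of_pow_eq_one hz
  refine ⟨(i : ZMod n), ?_⟩
  have h1 : ZMod.stdAddChar (N := n) ((1 : ℤ) : ZMod n)
      = Complex.exp (2 * Real.pi * Complex.I / n) := by
    rw [ZMod.stdAddChar_coe]
    simp
  have h2 : ((i : ZMod n)) = i • (((1 : ℤ) : ZMod n)) := by simp
  rw [h2, AddChar.map_nsmul_eq_pow, h1, hi]

/-- every character `Γ₀(N) → ℂˣ` of exponent `n` is `gkcChar n x` for a (unique) additive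
character `x : Γ₀(N)^ab → ℤ/n`. -/
theorem gkc_exists_eq_char (χ : Gamma0 N →* ℂˣ) (hχ : ∀ γ, χ γ ^ n = 1) :
    ∃ x : s16lbAb N →+ ZMod n, gkcChar n x = χ := by
  classical
  have hex : ∀ γ : Gamma0 N, ∃ a : ZMod n, ZMod.stdAddChar a = ((χ γ : ℂˣ) : ℂ) := by
    intro γ
    refine gkc_exists_stdAddChar_eq n ?_
    rw [← Units.val_pow_eq_pow_val, hχ γ, Units.val_one]
  let f : Gamma0 N → ZMod n := fun γ => (hex γ).choose
  have hf : ∀ γ, ZMod.stdAddChar (f γ) = ((χ γ : ℂˣ) : ℂ) := fun γ => (hex γ).choose_spec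
  let φ : Additive (Gamma0 N) →+ ZMod n :=
    { toFun := fun γ => f (Additive.toMul γ)
      map_zero' := by
        apply ZMod.injective_stdAddChar
        rw [hf, AddChar.map_zero_eq_one]
        show ((χ 1 : ℂˣ) : ℂ) = 1
        rw [map_one, Units.val_one]
      map_add' := by
        intro γ δ
        apply ZMod.injective_stdAddChar
        rw [AddChar.map_add_eq_mul, hf, hf, hf]
        show ((χ (Additive.toMul γ * Additive.toMul δ) : ℂˣ) : ℂ) = _
        rw [map_mul, Units.val_mul] }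
  refine ⟨s16lbDesc φ, MonoidHom.ext fun γ => Units.ext ?_⟩
  rw [gkcChar_apply, s16lbDesc_cls]
  exact hf γ

/-- `Hom(Γ₀(N)^ab, A)` is finite for finite `A`. -/
theorem gkc_finite_hom (N : ℕ) [NeZero N] (A : Type*) [AddCommGroup A] [Finite A] :
    Finite (s16lbAb N →+ A) := by
  classical
  obtain ⟨S, hS⟩ := (AddGroup.fg_iff.mp (gpr_ab_fg N))
  obtain ⟨hS, hSfin⟩ := hS
  have : Finite S := hSfin
  refine Finite.of_injective (fun (f : s16lbAb N →+ A) (s : S) => f s) ?_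
  intro f g hfg
  refine AddMonoidHom.eq_of_eqOn_dense hS ?_
  intro s hs
  exact congrFun hfg ⟨s, hs⟩

/-- the set of characters of `Γ₀(N)` of exponent `n` is finite. -/
theorem gkc_finite_chars (N : ℕ) [NeZero N] :
    {χ : Gamma0 N →* ℂˣ | ∀ γ, χ γ ^ n = 1}.Finite := by
  have := gkc_finite_hom N (ZMod n)
  refine (Set.finite_range (gkcChar (N := N) n)).subset ?_
  intro χ hχ
  obtain ⟨x, hx⟩ := gkc_exists_eq_char n χ hχ
  exact ⟨x, hx⟩

/-! ### the transfer law for multipliers -/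

/-- **Transfer law (pointwise).**  If `h (δ • w) = χ δ * h w` at the points `w = α j • z`, then
`H z = ∏ i, h (α i • z)` satisfies `H (γ • z) = (∏ i, χ (coc γ i)) * H z`. -/
theorem gkc_mul_periods {𝔾 Γ I : Type*} [Group 𝔾] [Group Γ] [Fintype I]
    (H : S16lbHeckeData 𝔾 Γ I) {𝔛 : Type*} [MulAction 𝔾 𝔛] {B : Type*} [CommMonoid B]
    (h : 𝔛 → B) (χ : Γ → B) (γ : Γ) (z : 𝔛)
    (hh : ∀ (δ : Γ) (j : I), h (H.ι δ • H.α j • z) = χ δ * h (H.α j • z)) :
    ∏ i, h (H.α i • H.ι γ • z) = (∏ i, χ (H.coc γ i)) * ∏ i, h (H.α i • z) := by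
  have h1 : ∀ i, h (H.α i • H.ι γ • z) = χ (H.coc γ i) * h (H.α (H.idx γ i) • z) := by
    intro i
    rw [← mul_smul, H.spec γ i, mul_smul, hh]
  simp only [h1, Finset.prod_mul_distrib]
  congr 1
  exact Equiv.prod_comp (H.perm γ) (fun i => h (H.α i • z))

theorem gkc_addChar_sum {A M ι : Type*} [AddCommMonoid A] [CommMonoid M] (ψ : AddChar A M)
    (s : Finset ι) (f : ι → A) : ψ (∑ i ∈ s, f i) = ∏ i ∈ s, ψ (f i) := by
  classical
  induction s using Finset.induction_on with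
  | empty => simp
  | insert a s ha ih => rw [Finset.sum_insert ha, Finset.prod_insert ha, AddChar.map_add_eq_mul, ih]

/-- for `χ = gkcChar n x` the multiplier of the transfer is `gkcChar n (x ∘ trEnd)`. -/
theorem gkc_prod_coc {𝔾 I : Type*} [Group 𝔾] [Fintype I]
    (H : S16lbHeckeData 𝔾 (Gamma0 N) I) (x : s16lbAb N →+ ZMod n) (γ : Gamma0 N) :
    ∏ i, gkcChar n x (H.coc γ i) = gkcChar n (x.comp H.trEnd) γ := by
  refine Units.ext ?_
  rw [Units.coe_prod, gkcChar_apply, AddMonoidHom.comp_apply]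
  have hcls : s16lbCls N (Additive.ofMul γ) = Additive.ofMul (Abelianization.of γ) := rfl
  rw [hcls, S16lbHeckeData.trEnd_of, map_sum, gkc_addChar_sum]
  rfl

/-- the same for `T_ℓ = gprT N ℓ`. -/
theorem gkc_prod_coc_T {ℓ : ℕ} [Fact ℓ.Prime] (hℓN : ¬ ℓ ∣ N) (x : s16lbAb N →+ ZMod n)
    (γ : Gamma0 N) :
    ∏ i, gkcChar n x ((s16lbDataT N ℓ hℓN).coc γ i) = gkcChar n (x.comp (gprT N ℓ)) γ := by
  rw [gkc_prod_coc, gprT_eq N hℓN]

end Fermat.Agent.G
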