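/-
Program G / package Kum, row KUM-DIVC (helper9): `gkm_div_cusp`, VERBATIM from helper22's
`Kum/Spec.lean`: if `x ∈ F_ℂ` has a holomorphic `n`-th root `H` on `ℍ` whose multiplier `χ` kills the
parabolic elements, then `n ∣ ord_v x` at every place `v` over `j = ∞`.

Route: `gkm_ram_abstract` (row RAMABS) with the family `ε_q = gfc_cuspEmb N q.out`, `t = 1/j`,
`e = N`, `σ = T⁻¹` on `SL₂(ℤ)/Γ₀(N)` gives `v = κ q` and
`(ε_q x).order * s_q = N * ord_v x`, `s_q` = period of `q`.  With `g = q.out`: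
`g • H` is `N`-periodic (`g⁻¹ T^N g ∈ Γ(N)` is parabolic) and meromorphic at `i∞`
(`gkm_cusp_of_root`), hence has an expansion `S_H` in `exp(2πiτ/N)` (width reduction
`gkmdc_exists_of_periodic`); `S_H ^ n = ε_q x`; `g⁻¹ T^(s_q) g ∈ Γ₀(N)` is parabolic so `S_H` is
fixed by the rotation by `ζ^(s_q)`, whence `N ∣ s_q * order S_H`, and `n ∣ ord_v x` follows.
Auxiliary lemmas are prefixed `gkmdc_`.
-/
import Fermat.Agent.G.Kum.Defs
import Fermat.Agent.G.Kum.Alg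
import Fermat.Agent.G.Kum.PerExp
import Fermat.Agent.G.Kum.RamAbs

set_option autoImplicit false
set_option linter.unusedSectionVars false
set_option linter.unusedVariables false

noncomputable section

namespace Fermat.Agent.G

open UpperHalfPlane ModularCurve AlgebraicCurve CongruenceSubgroup Fermat.Agent.S24
  Fermat.Agent.S16LB IntermediateField
open P2MW.S_ModularForm_heckeT_slash_eq_self_of_mem_Gamma0.ModularForm.HeckeSlashInvariance
open scoped MatrixGroups Manifold ModularForm Real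

variable {N : ℕ} [NeZero N] {n : ℕ}

/-! ### expansions: translation, rotation, reduction of the width -/

/-- translation `τ ↦ τ + s` rotates an expansion in `exp(2πiτ/h)` by `exp(2πis/h)`. -/
theorem gkmdc_comp_vadd {h : ℕ} [NeZero h] {f : ℍ → ℂ} {S : LaurentSeries ℂ}
    (hS : HasCuspExp h f S) (s : ℕ) (ω : ℂˣ)
    (hω : (ω : ℂ) = Complex.exp (2 * π * Complex.I * s / h)) :
    HasCuspExp h (fun τ => f ((s : ℝ) +ᵥ τ)) (rotLaurent ω S) := by
  intro τ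
  have h1 := hS ((s : ℝ) +ᵥ τ)
  have hT : (((s : ℝ) +ᵥ τ : ℍ) : ℂ) = (s : ℂ) + (τ : ℂ) := by
    rw [UpperHalfPlane.coe_vadd]
    push_cast
    rfl
  have e1 : (fun m : ℤ => (rotLaurent ω S).coeff m *
      Complex.exp (2 * π * Complex.I * m * τ / h)) =
      fun m : ℤ => S.coeff m *
        Complex.exp (2 * π * Complex.I * m * (((s : ℝ) +ᵥ τ : ℍ) : ℂ) / h) := by
    funext m
    rw [rotLaurent_coeff, hT, hω, ← Complex.exp_int_mul, mul_comm (Complex.exp _) (S.coeff m),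
      mul_assoc, ← Complex.exp_add]
    congr 2
    ring
  rw [e1]
  exact h1

/-- a series fixed by the rotation by `ω` is supported on the exponents `m` with `ω^m = 1`. -/
theorem gkmdc_zpow_eq_one_of_rot_fixed {S : LaurentSeries ℂ} (ω : ℂˣ)
    (hfix : rotLaurent ω S = S) {m : ℤ} (hm : S.coeff m ≠ 0) : (ω : ℂ) ^ m = 1 := by
  have h1 := congrArg (fun X : LaurentSeries ℂ => X.coeff m) hfix
  simp only [rotLaurent_coeff] at h1
  have : ((ω : ℂ) ^ m - 1) * S.coeff m = 0 := by rw [sub_mul, h1, one_mul, sub_self]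
  rcases mul_eq_zero.1 this with h3 | h3
  · exact sub_eq_zero.1 h3
  · exact absurd h3 hm

/-- reduction of the width: an `M`-periodic function with an expansion in `exp(2πiτ/(M k))` has an
expansion in `exp(2πiτ/M)` (generalisation of S24 `HasCuspExp.exists_of_periodic`, `M = 1`). -/
theorem gkmdc_exists_of_periodic {M k : ℕ} [NeZero M] [NeZero k] {f : ℍ → ℂ}
    {S : LaurentSeries ℂ} (hS : HasCuspExp (M * k) f S)
    (hper : ∀ τ : ℍ, f ((M : ℝ) +ᵥ τ) = f τ) :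
    ∃ S₁ : LaurentSeries ℂ, HasCuspExp M f S₁ ∧ S = ModularCurve.qExpand ℂ k S₁ := by
  have hk : (k : ℂ) ≠ 0 := Nat.cast_ne_zero.2 (NeZero.ne k)
  have hM : (M : ℂ) ≠ 0 := Nat.cast_ne_zero.2 (NeZero.ne M)
  let ω : ℂˣ := Units.mk0 (Complex.exp (2 * π * Complex.I / k)) (Complex.exp_ne_zero _)
  have hω : (ω : ℂ) = Complex.exp (2 * π * Complex.I * M / ((M * k : ℕ) : ℂ)) := by
    show Complex.exp (2 * π * Complex.I / k) = _
    congr 1
    push_cast
    field_simp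
  have hprim : IsPrimitiveRoot (ω : ℂ) k := Complex.isPrimitiveRoot_exp k (NeZero.ne k)
  have hrot : rotLaurent ω S = S := by
    have h1 := gkmdc_comp_vadd hS M ω hω
    have h2 : (fun τ => f ((M : ℝ) +ᵥ τ)) = f := funext hper
    rw [h2] at h1
    exact h1.unique hS
  have hdvd : ∀ m : ℤ, S.coeff m ≠ 0 → (k : ℤ) ∣ m := fun m hm =>
    (hprim.zpow_eq_one_iff_dvd m).1 (gkmdc_zpow_eq_one_of_rot_fixed ω hrot hm)
  have hbdd : BddBelow (Function.support fun j : ℤ => S.coeff ((k : ℤ) * j)) := by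
    refine ⟨min S.order 0, fun j hj => ?_⟩
    rw [Function.mem_support] at hj
    have h1 : S.order ≤ (k : ℤ) * j := HahnSeries.order_le_of_coeff_ne_zero hj
    have hpos : (1 : ℤ) ≤ k := by exact_mod_cast Nat.one_le_iff_ne_zero.2 (NeZero.ne k)
    by_contra hlt
    push Not at hlt
    rw [lt_min_iff] at hlt
    nlinarith [hlt.1, hlt.2]
  have hS' : S = ModularCurve.qExpand ℂ k (HahnSeries.ofSuppBddBelow _ hbdd) := by
    ext m
    by_cases hdm : (k : ℤ) ∣ m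
    · obtain ⟨j, rfl⟩ := hdm
      rw [qExpand_coeff_mul, HahnSeries.coeff_ofSuppBddBelow]
    · rw [qExpand_coeff_of_not_dvd k _ hdm]
      by_contra hne
      exact hdm (hdvd m hne)
  refine ⟨HahnSeries.ofSuppBddBelow _ hbdd, ?_, hS'⟩
  refine (cuspExp_qExpand_iff (h := M) k).1 ?_
  rw [← hS']
  exact hS

/-! ### parabolic conjugates of powers of `T` -/

theorem gkmdc_conj_T_pow_mem (g : SL(2, ℤ)) :
    g⁻¹ * ModularGroup.T ^ ((N : ℕ) : ℤ) * g ∈ Gamma0 N := by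
  have h1 : ModularGroup.T ^ ((N : ℕ) : ℤ) ∈ Gamma N := by
    have := ModularGroup_T_pow_mem_Gamma (N : ℤ) (N : ℤ) dvd_rfl
    simpa using this
  have h2 : g⁻¹ * ModularGroup.T ^ ((N : ℕ) : ℤ) * g ∈ Gamma N := by
    have := (Gamma_normal N).conj_mem _ h1 g⁻¹
    simpa using this
  rw [Gamma_mem] at h2
  rw [Gamma0_mem]
  exact h2.2.2.1

theorem gkmdc_trace_conj_T (g : SL(2, ℤ)) (s : ℤ) :
    ((g⁻¹ * ModularGroup.T ^ s * g : SL(2, ℤ)) : Matrix (Fin 2) (Fin 2) ℤ).trace = 2 := by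
  rw [Matrix.SpecialLinearGroup.coe_mul, Matrix.trace_mul_comm,
    ← Matrix.SpecialLinearGroup.coe_mul, mul_inv_cancel_left, ModularGroup.coe_T_zpow,
    Matrix.trace_fin_two_of]
  norm_num

/-- a multiplier which is trivial at `γ` gives invariance under `γ`. -/
theorem gkmdc_apply_smul_of_char_one {χ : Gamma0 N →* ℂˣ} {H : HolRing} (hH : GkmMult N χ H)
    (γ : Gamma0 N) (hγ : χ γ = 1) (τ : ℍ) :
    (H : ℍ → ℂ) ((γ : SL(2, ℤ)) • τ) = (H : ℍ → ℂ) τ := by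
  have h1 := hH γ
  rw [hγ, Units.val_one, map_one, one_mul] at h1
  have h2 := congrArg (fun F : HolRing => (F : ℍ → ℂ) τ) h1
  simp only [HolRing.inv_smul_apply] at h2
  exact h2

/-- if `g⁻¹ T^s g ∈ Γ₀(N)` then `g • H` is `s`-periodic (`χ` kills the parabolic elements). -/
theorem gkmdc_smul_periodic {χ : Gamma0 N →* ℂˣ} (hχ : GkmPE N χ) {H : HolRing}
    (hH : GkmMult N χ H) (g : SL(2, ℤ)) (s : ℕ)
    (hs : g⁻¹ * ModularGroup.T ^ ((s : ℕ) : ℤ) * g ∈ Gamma0 N) (τ : ℍ) :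
    ((g • H : HolRing) : ℍ → ℂ) ((s : ℝ) +ᵥ τ) = ((g • H : HolRing) : ℍ → ℂ) τ := by
  rw [HolRing.smul_apply, HolRing.smul_apply]
  have h1 : g⁻¹ • ((s : ℝ) +ᵥ τ) =
      (g⁻¹ * ModularGroup.T ^ ((s : ℕ) : ℤ) * g) • (g⁻¹ • τ) := by
    rw [mul_smul, mul_smul, smul_inv_smul, UpperHalfPlane.modular_T_zpow_smul]
    push_cast
    rfl
  rw [h1]
  have htr : ((((⟨_, hs⟩ : Gamma0 N) : SL(2, ℤ)) : Matrix (Fin 2) (Fin 2) ℤ).trace) ^ 2 ≤ 4 := by
    rw [gkmdc_trace_conj_T]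
    norm_num
  exact gkmdc_apply_smul_of_char_one hH ⟨_, hs⟩ (hχ ⟨_, hs⟩ htr) (g⁻¹ • τ)

theorem gkmdc_pe_one : GkmPE N (1 : Gamma0 N →* ℂˣ) := fun _ _ => rfl

/-! ### the expansion at the cusp `g • i∞` of a holomorphic element of `F_ℂ` -/

/-- if `x ∈ F_ℂ` is the holomorphic function `G` then `g • G` has the expansion
`gfc_cuspEmb N g x` in `exp(2πiτ/N)`. -/
theorem gkmdc_hasCuspExp_smul {x : gfcField N} {G : HolRing}
    (h : HasCuspExp 1 (G : ℍ → ℂ) ((x : gfcField N) : LaurentSeries ℂ)) (g : SL(2, ℤ)) :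
    HasCuspExp N ((g • G : HolRing) : ℍ → ℂ) (gfc_cuspEmb N g x) := by
  obtain ⟨h', hh', S', hS'⟩ := gkm_hol_cusp h g
  have hinv : GkmMult N 1 G := gkm_hol_invariant h
  have hper : ∀ τ : ℍ, ((g • G : HolRing) : ℍ → ℂ) ((N : ℝ) +ᵥ τ) =
      ((g • G : HolRing) : ℍ → ℂ) τ :=
    fun τ => gkmdc_smul_periodic gkmdc_pe_one hinv g N (gkmdc_conj_T_pow_mem g) τ
  have h1 := hS'.qExpand N
  rw [mul_comm] at h1
  obtain ⟨S₁, hS₁, -⟩ := gkmdc_exists_of_periodic h1 hper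
  obtain ⟨a, s, hs, hxs⟩ := gkma_exists_frac x
  have hmul : G * gfc_toHol N s = gfc_toHol N a := gkma_mul_toHol h hxs
  have hmul' : (g • G) * (g • gfc_toHol N s) = g • gfc_toHol N a := by
    rw [← smul_mul', hmul]
  have hEs : HasCuspExp N ((g • gfc_toHol N s : HolRing) : ℍ → ℂ)
      (gfc_cuspEmb N g (s : gfcField N)) := by
    have := gfc_hasCuspExp_cuspHom N g s
    rwa [← gfc_cuspEmb_coe] at this
  have hEa : HasCuspExp N ((g • gfc_toHol N a : HolRing) : ℍ → ℂ)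
      (gfc_cuspEmb N g (a : gfcField N)) := by
    have := gfc_hasCuspExp_cuspHom N g a
    rwa [← gfc_cuspEmb_coe] at this
  have hprod : HasCuspExp N ((g • gfc_toHol N a : HolRing) : ℍ → ℂ)
      (S₁ * gfc_cuspEmb N g (s : gfcField N)) := by
    rw [← hmul', gkma_hol_coe_mul]
    exact hS₁.mul hEs
  have heq : S₁ * gfc_cuspEmb N g (s : gfcField N) =
      gfc_cuspEmb N g x * gfc_cuspEmb N g (s : gfcField N) := by
    rw [hprod.unique hEa, ← map_mul, hxs]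
  have hsne : gfc_cuspEmb N g (s : gfcField N) ≠ 0 := by
    rw [Ne, map_eq_zero]
    intro h0
    exact hs (Subtype.ext h0)
  rw [← mul_right_cancel₀ hsne heq]
  exact hS₁

/-! ### Row KUM-DIVC -/

/-- the period of a coset under `T⁻¹`: `g⁻¹ T^s g ∈ Γ₀(N)`. -/
theorem gkmdc_conj_mem_of_fixed (q : SL(2, ℤ) ⧸ Gamma0 N) (s : ℕ)
    (hfix : ((MulAction.toPerm (ModularGroup.T⁻¹ : SL(2, ℤ)) :
      Equiv.Perm (SL(2, ℤ) ⧸ Gamma0 N)) ^ s) q = q) :
    q.out⁻¹ * ModularGroup.T ^ ((s : ℕ) : ℤ) * q.out ∈ Gamma0 N := by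
  have hpow : (MulAction.toPerm (ModularGroup.T⁻¹ : SL(2, ℤ)) :
      Equiv.Perm (SL(2, ℤ) ⧸ Gamma0 N)) ^ s = MulAction.toPerm ((ModularGroup.T⁻¹) ^ s) := by
    have h1 := map_pow (MulAction.toPermHom SL(2, ℤ) (SL(2, ℤ) ⧸ Gamma0 N)) ModularGroup.T⁻¹ s
    rw [MulAction.toPermHom_apply, MulAction.toPermHom_apply] at h1
    exact h1.symm
  rw [hpow, MulAction.toPerm_apply] at hfix
  have h2 : (QuotientGroup.mk ((ModularGroup.T⁻¹) ^ s * q.out) : SL(2, ℤ) ⧸ Gamma0 N) =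
      QuotientGroup.mk q.out := by
    rw [QuotientGroup.out_eq']
    conv_rhs => rw [← hfix]
    conv_rhs => rw [← QuotientGroup.out_eq' q]
    rfl
  have h3 := QuotientGroup.eq.mp h2
  have h4 : ((ModularGroup.T⁻¹ : SL(2, ℤ)) ^ s * q.out)⁻¹ * q.out =
      q.out⁻¹ * ModularGroup.T ^ ((s : ℕ) : ℤ) * q.out := by
    rw [mul_inv_rev, inv_pow, inv_inv, zpow_natCast]
  rw [← h4]
  exact h3

/-- (DIVC) places over `j = ∞`. -/
theorem gkm_div_cusp (hn : 0 < n) {χ : Gamma0 N →* ℂˣ} (hχ : GkmPE N χ) {x : gfcField N}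
    (hx : x ≠ 0) (h : GkmRoot N n χ x) (v : Place ℂ (gfcField N))
    (hv : v.ord (gfc_jBar N) < 0) : (n : ℤ) ∣ v.ord x := by
  classical
  obtain ⟨H, hHx, hHm⟩ := h
  have : Finite (SL(2, ℤ) ⧸ CongruenceSubgroup.Gamma0 N) := gfc_finite_quotient_Gamma0 N
  let _ : Fintype (SL(2, ℤ) ⧸ CongruenceSubgroup.Gamma0 N) := Fintype.ofFinite _
  have ht : IsSepGen ℂ (gfc_jBar N)⁻¹ := (gfc_isSepGen_jBar N).inv
  obtain ⟨ζ, hζ⟩ : ∃ ζ : ℂˣ, (ζ : ℂ) = Complex.exp (2 * π * Complex.I / N) :=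
    ⟨Units.mk0 _ (Complex.exp_ne_zero _), rfl⟩
  have hζprim : IsPrimitiveRoot (ζ : ℂ) N := by
    rw [hζ]
    exact Complex.isPrimitiveRoot_exp N (NeZero.ne N)
  have hout : ∀ (g : SL(2, ℤ)),
      gfc_cuspEmb N (QuotientGroup.mk g : SL(2, ℤ) ⧸ CongruenceSubgroup.Gamma0 N).out =
        gfc_cuspEmb N g := by
    intro g
    obtain ⟨γ, hγ⟩ := QuotientGroup.mk_out_eq_mul (CongruenceSubgroup.Gamma0 N) g
    rw [hγ]
    exact gfc_cuspEmb_mul_of_mem_Gamma0 N g γ γ.2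
  obtain ⟨κ, hκ, -, hsurj⟩ := gkm_ram_abstract ht
    (ι := SL(2, ℤ) ⧸ CongruenceSubgroup.Gamma0 N) (fun q => gfc_cuspEmb N q.out)
    (by
      intro q q' h
      have h1 := gfc_mem_Gamma0_of_cuspEmb_eq N q.out q'.out h
      have h2 : (QuotientGroup.mk q.out : SL(2, ℤ) ⧸ CongruenceSubgroup.Gamma0 N) =
          QuotientGroup.mk q'.out := QuotientGroup.eq.mpr h1
      rwa [QuotientGroup.out_eq', QuotientGroup.out_eq'] at h2)
    (by
      rw [(gfc_isSepGen_jBar N).finrank_inv, gfc_finrank_jBar, Nat.card_eq_fintype_card])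
    (fun i j c => by rw [gfc_cuspEmb_algebraMap, gfc_cuspEmb_algebraMap])
    (fun i c hc => by
      rw [gfc_cuspEmb_algebraMap, HahnSeries.C_apply]
      exact HahnSeries.order_single (fun h => hc (gfcIota_injective (by rw [h, map_zero]))))
    (fun i j => by rw [map_inv₀, map_inv₀, gfc_cuspEmb_jBar, gfc_cuspEmb_jBar])
    N (NeZero.pos N) (fun i => gfc_cuspEmb_jBar_inv_order N _)
    (ζ : ℂ) hζprim (rotLaurent ζ) (rotLaurent_coeff ζ)
    (MulAction.toPerm (ModularGroup.T⁻¹ : SL(2, ℤ)))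
    (by
      intro q f
      rw [gfc_cuspEmb_T_inv_mul N _ ζ hζ]
      have h1 : (MulAction.toPerm (ModularGroup.T⁻¹ : SL(2, ℤ)) q :
          SL(2, ℤ) ⧸ CongruenceSubgroup.Gamma0 N) =
          QuotientGroup.mk (ModularGroup.T⁻¹ * q.out) := by
        conv_lhs => rw [← QuotientGroup.out_eq' q]
        rfl
      rw [h1, hout])
  have hv' : 0 < v.ord (gfc_jBar N)⁻¹ := by
    rw [Place.ord_inv]
    omega
  obtain ⟨q, rfl⟩ := hsurj v hv'
  have hrel := hκ q x hx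
  set s : ℕ := Function.minimalPeriod
    (MulAction.toPerm (ModularGroup.T⁻¹ : SL(2, ℤ)) : Equiv.Perm (SL(2, ℤ) ⧸ Gamma0 N)) q with hs
  have hfix : ((MulAction.toPerm (ModularGroup.T⁻¹ : SL(2, ℤ)) :
      Equiv.Perm (SL(2, ℤ) ⧸ Gamma0 N)) ^ s) q = q := by
    rw [← Equiv.Perm.iterate_eq_pow]
    exact Function.iterate_minimalPeriod
  have hmem := gkmdc_conj_mem_of_fixed q s hfix
  -- the root is meromorphic at the cusps
  have hχn : ∀ γ : Gamma0 N, χ γ ^ n = 1 :=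
    gkm_rel_char_pow hn hx ⟨1, one_ne_zero, by rw [one_pow, mul_one]; exact ⟨H, hHx, hHm⟩⟩
  have hcH : GkmCusp H := gkm_cusp_of_root hn hχn hHm (gkm_hol_cusp hHx)
  obtain ⟨h', hh', S', hS'⟩ := hcH q.out
  have hperN : ∀ τ : ℍ, ((q.out • H : HolRing) : ℍ → ℂ) ((N : ℝ) +ᵥ τ) =
      ((q.out • H : HolRing) : ℍ → ℂ) τ :=
    fun τ => gkmdc_smul_periodic hχ hHm q.out N (gkmdc_conj_T_pow_mem q.out) τ
  have h1 := hS'.qExpand N
  rw [mul_comm] at h1
  obtain ⟨SH, hSH, -⟩ := gkmdc_exists_of_periodic h1 hperN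
  -- `SH ^ n` is the expansion of `x`
  have hpow : SH ^ n = gfc_cuspEmb N q.out x := by
    have e1 := gkma_hasCuspExp_pow hSH n
    have e2 := gkmdc_hasCuspExp_smul hHx q.out
    rw [smul_pow'] at e2
    exact e1.unique e2
  -- invariance under `τ ↦ τ + s`
  have hpers : ∀ τ : ℍ, ((q.out • H : HolRing) : ℍ → ℂ) ((s : ℝ) +ᵥ τ) =
      ((q.out • H : HolRing) : ℍ → ℂ) τ :=
    fun τ => gkmdc_smul_periodic hχ hHm q.out s hmem τ
  have hω : ((ζ ^ s : ℂˣ) : ℂ) = Complex.exp (2 * π * Complex.I * s / N) := by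
    rw [Units.val_pow_eq_pow_val, hζ, ← Complex.exp_nat_mul]
    congr 1
    ring
  have hrot : rotLaurent (ζ ^ s) SH = SH := by
    have h2 := gkmdc_comp_vadd hSH s (ζ ^ s) hω
    rw [show (fun τ => ((q.out • H : HolRing) : ℍ → ℂ) ((s : ℝ) +ᵥ τ)) =
      ((q.out • H : HolRing) : ℍ → ℂ) from funext hpers] at h2
    exact h2.unique hSH
  have hxne : gfc_cuspEmb N q.out x ≠ 0 := by
    rw [Ne, map_eq_zero]
    exact hx
  have hSne : SH ≠ 0 := by
    intro h0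
    rw [h0, zero_pow hn.ne'] at hpow
    exact hxne hpow.symm
  have hcoef : SH.coeff SH.order ≠ 0 := fun h0 => hSne (HahnSeries.coeff_order_eq_zero.1 h0)
  have hone := gkmdc_zpow_eq_one_of_rot_fixed (ζ ^ s) hrot hcoef
  have hdvd : (N : ℤ) ∣ (s : ℤ) * SH.order := by
    have h3 : (ζ : ℂ) ^ ((s : ℤ) * SH.order) = 1 := by
      rw [zpow_mul, zpow_natCast]
      rw [Units.val_pow_eq_pow_val] at hone
      exact hone
    exact (hζprim.zpow_eq_one_iff_dvd _).1 h3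
  obtain ⟨m, hm⟩ := hdvd
  have hord : (gfc_cuspEmb N q.out x).order = (n : ℤ) * SH.order := by
    rw [← hpow, HahnSeries.order_pow, nsmul_eq_mul]
  refine ⟨m, ?_⟩
  have hN : ((N : ℕ) : ℤ) ≠ 0 := by exact_mod_cast NeZero.ne N
  apply mul_left_cancel₀ hN
  rw [← hrel, hord]
  linear_combination (n : ℤ) * hm

end Fermat.Agent.G
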