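/-
Program G / package Kum, row KUM-ORBIT (helper11): the orbit polynomial of a `Γ₀(N)`-invariant
holomorphic function which is meromorphic at the cusps has coefficients in `ℂ[j]` (prefix `gkmo_`).
Port of the first half of `G/FC/Degree.lean` (`gfc_exists_monic_of_mem_RBar`) from `gfc_toHol N x`
to a general invariant `G`.
-/
import Mathlib
import Fermat.Agent.G.Kum.Defs

set_option autoImplicit false
set_option linter.unusedSectionVars false
set_option linter.style.haveILetI false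

noncomputable section

namespace Fermat.Agent.G

open UpperHalfPlane ModularCurve AlgebraicCurve CongruenceSubgroup Fermat.Agent.S24
  Fermat.Agent.S16LB IntermediateField
open scoped MatrixGroups Manifold ModularForm Real

/-! ### generalities on expansions -/

theorem gkmo_coeffMap_gfcIota (S : LaurentSeries ℂ) : coeffMap gfcIota S = S := by
  ext m
  rw [coeffMap_coeff, gfcIota_apply]

/-- finitely many functions with expansions have expansions of a common width -/
theorem gkmo_exists_common_width {ι : Type*} [Fintype ι] (f : ι → ℍ → ℂ)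
    (hf : ∀ i, ∃ (h : ℕ) (_ : NeZero h) (S : LaurentSeries ℂ), HasCuspExp h (f i) S) :
    ∃ (H : ℕ) (_ : NeZero H), ∀ i, ∃ S : LaurentSeries ℂ, HasCuspExp H (f i) S := by
  classical
  choose h hne S hS using hf
  have hH : (∏ i, h i) ≠ 0 := Finset.prod_ne_zero_iff.mpr fun i _ => NeZero.ne (h i)
  refine ⟨∏ i, h i, ⟨hH⟩, fun i => ?_⟩
  have hk : (∏ j ∈ Finset.univ.erase i, h j) ≠ 0 :=
    Finset.prod_ne_zero_iff.mpr fun j _ => NeZero.ne (h j)
  haveI : NeZero (∏ j ∈ Finset.univ.erase i, h j) := ⟨hk⟩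
  have h1 := (hS i).qExpand (∏ j ∈ Finset.univ.erase i, h j)
  rw [Finset.mul_prod_erase Finset.univ h (Finset.mem_univ i)] at h1
  exact ⟨_, h1⟩

/-- the expansion of a polynomial in `j` -/
theorem gkmo_hasCuspExp_aeval (Q : Polynomial ℂ) :
    HasCuspExp 1 ((Polynomial.aeval (R := ℂ) jHol Q : HolRing) : ℍ → ℂ)
      (Polynomial.aeval (coeffEmb ℂ jq) Q) := by
  have hj : HasCuspExp 1 (jHol : ℍ → ℂ) (coeffEmb ℂ jq) := by
    have h := hasCuspExp_jFun
    rw [← gfc_coeffMap_iotaBar_coeffEmb_jq, gkmo_coeffMap_gfcIota] at h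
    exact h
  induction Q using Polynomial.induction_on with
  | C c =>
    rw [Polynomial.aeval_C, Polynomial.aeval_C, HolRing.algebraMap_eq, gfc_deg_algebraMap_laurent]
    exact HasCuspExp.const c
  | add p q hp hq =>
    rw [map_add, map_add, Subring.coe_add]
    exact hp.add hq
  | monomial n c hn =>
    have e1 : Polynomial.aeval (R := ℂ) jHol (Polynomial.C c * Polynomial.X ^ (n + 1)) =
        Polynomial.aeval (R := ℂ) jHol (Polynomial.C c * Polynomial.X ^ n) * jHol := by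
      rw [pow_succ, ← mul_assoc, map_mul (Polynomial.aeval (R := ℂ) jHol) _ Polynomial.X,
        Polynomial.aeval_X]
    have e2 : Polynomial.aeval (coeffEmb ℂ jq) (Polynomial.C c * Polynomial.X ^ (n + 1)) =
        Polynomial.aeval (coeffEmb ℂ jq) (Polynomial.C c * Polynomial.X ^ n) * coeffEmb ℂ jq := by
      rw [pow_succ, ← mul_assoc, map_mul (Polynomial.aeval (coeffEmb ℂ jq)) _ Polynomial.X,
        Polynomial.aeval_X]
    rw [e1, e2, Subring.coe_mul]
    exact hn.mul hj

/-! ### the orbit polynomial -/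

section Orbit

variable {N : ℕ} [NeZero N]

/-- A `Fintype` structure on the coset space (local to this file). -/
local instance gkmoFintypeQuot : Fintype (SL(2, ℤ) ⧸ CongruenceSubgroup.Gamma0 N) :=
  haveI := gfc_finite_quotient_Gamma0 N
  Fintype.ofFinite _

theorem gkmo_smul_of_mem {G : HolRing} (hinv : GkmMult N 1 G) {γ : SL(2, ℤ)}
    (hγ : γ ∈ Gamma0 N) : γ • G = G := by
  have h := hinv ⟨γ⁻¹, inv_mem hγ⟩
  simp only [MonoidHom.one_apply, Units.val_one, map_one, one_mul, inv_inv] at h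
  exact h

/-- The conjugate `g • G` only depends on the coset `g Γ₀(N)`. -/
theorem gkmo_smul_eq_of_coset {G : HolRing} (hinv : GkmMult N 1 G) {g g' : SL(2, ℤ)}
    (h : g⁻¹ * g' ∈ CongruenceSubgroup.Gamma0 N) : g' • G = g • G := by
  have h1 : g' = g * (g⁻¹ * g') := by group
  rw [h1, mul_smul, gkmo_smul_of_mem hinv h]

/-- The orbit polynomial of holomorphic functions. -/
def gkmoOrbHol (N : ℕ) [NeZero N] (G : HolRing) : Polynomial HolRing :=
  ∏ ξ : SL(2, ℤ) ⧸ CongruenceSubgroup.Gamma0 N, (Polynomial.X - Polynomial.C (ξ.out • G))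

theorem gkmoOrbHol_monic (G : HolRing) : (gkmoOrbHol N G).Monic :=
  Polynomial.monic_prod_of_monic _ _ fun _ _ => Polynomial.monic_X_sub_C _

theorem gkmoOrbHol_natDegree (G : HolRing) :
    (gkmoOrbHol N G).natDegree = Nat.card (SL(2, ℤ) ⧸ CongruenceSubgroup.Gamma0 N) := by
  rw [gkmoOrbHol, Polynomial.natDegree_prod_of_monic _ _ fun _ _ => Polynomial.monic_X_sub_C _]
  simp [Nat.card_eq_fintype_card]

theorem gkmoOrbHol_eval {G : HolRing} (hinv : GkmMult N 1 G) :
    (gkmoOrbHol N G).eval G = 0 := by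
  rw [gkmoOrbHol, Polynomial.eval_prod]
  refine Finset.prod_eq_zero
    (Finset.mem_univ (QuotientGroup.mk (1 : SL(2, ℤ)) : SL(2, ℤ) ⧸ CongruenceSubgroup.Gamma0 N)) ?_
  have hg : (1 : SL(2, ℤ))⁻¹ *
      (QuotientGroup.mk (1 : SL(2, ℤ)) : SL(2, ℤ) ⧸ CongruenceSubgroup.Gamma0 N).out ∈
      CongruenceSubgroup.Gamma0 N := by
    rw [← QuotientGroup.eq]
    exact (QuotientGroup.out_eq' _).symm
  have h1 := gkmo_smul_eq_of_coset hinv hg
  rw [one_smul] at h1
  simp [h1]

/-- The conjugates are permuted by `SL(2, ℤ)`. -/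
theorem gkmo_smul_out_smul {G : HolRing} (hinv : GkmMult N 1 G) (γ : SL(2, ℤ))
    (ξ : SL(2, ℤ) ⧸ CongruenceSubgroup.Gamma0 N) :
    γ • (ξ.out • G) = (γ • ξ).out • G := by
  rw [← mul_smul]
  refine gkmo_smul_eq_of_coset hinv ?_
  rw [← QuotientGroup.eq, QuotientGroup.out_eq']
  conv_lhs => rw [← QuotientGroup.out_eq' ξ]
  rfl

theorem gkmo_smul_orbHol_coeff {G : HolRing} (hinv : GkmMult N 1 G) (γ : SL(2, ℤ)) (k : ℕ) :
    γ • (gkmoOrbHol N G).coeff k = (gkmoOrbHol N G).coeff k := by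
  have h1 : γ • (gkmoOrbHol N G).coeff k =
      ((gkmoOrbHol N G).map (MulSemiringAction.toRingHom SL(2, ℤ) HolRing γ)).coeff k := by
    rw [Polynomial.coeff_map]; rfl
  rw [h1]
  congr 1
  rw [gkmoOrbHol, Polynomial.map_prod]
  simp only [Polynomial.map_sub, Polynomial.map_X, Polynomial.map_C,
    MulSemiringAction.toRingHom_apply, gkmo_smul_out_smul hinv]
  exact Fintype.prod_equiv (MulAction.toPerm γ) _ _ fun ξ => rfl

/-- every coefficient of the orbit polynomial has an expansion of some width -/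
theorem gkmo_orbHol_coeff_exp {G : HolRing} (hc : GkmCusp G) (k : ℕ) :
    ∃ (H : ℕ) (_ : NeZero H) (c : LaurentSeries ℂ),
      HasCuspExp H (((gkmoOrbHol N G).coeff k : HolRing) : ℍ → ℂ) c := by
  obtain ⟨H, hH, hS⟩ := gkmo_exists_common_width
    (fun ξ : SL(2, ℤ) ⧸ CongruenceSubgroup.Gamma0 N => ((ξ.out • G : HolRing) : ℍ → ℂ))
    (fun ξ => hc ξ.out)
  choose S hS using hS
  -- the conjugates together with their expansions
  let p : SL(2, ℤ) ⧸ CongruenceSubgroup.Gamma0 N → gfc_degExpSubring H := fun ξ =>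
    ⟨(ξ.out • G, S ξ), by
      rw [gfc_mem_degExpSubring, gkmo_coeffMap_gfcIota]
      exact hS ξ⟩
  let P : Polynomial (gfc_degExpSubring H) := ∏ ξ, (Polynomial.X - Polynomial.C (p ξ))
  have hfst : P.map (gfc_degFst (N := H)) = gkmoOrbHol N G := by
    simp only [P, gkmoOrbHol, Polynomial.map_prod, Polynomial.map_sub, Polynomial.map_X,
      Polynomial.map_C]
    rfl
  have h := (P.coeff k).2
  rw [gfc_mem_degExpSubring, gkmo_coeffMap_gfcIota] at h
  refine ⟨H, hH, (P.coeff k).1.2, ?_⟩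
  rw [← hfst, Polynomial.coeff_map]
  exact h

/-- every coefficient of the orbit polynomial is a polynomial in `j` -/
theorem gkmo_exists_poly_coeff {G : HolRing} (hinv : GkmMult N 1 G) (hc : GkmCusp G) (k : ℕ) :
    ∃ Q : Polynomial ℂ, (gkmoOrbHol N G).coeff k = Polynomial.aeval (R := ℂ) jHol Q := by
  set f : HolRing := (gkmoOrbHol N G).coeff k with hf
  obtain ⟨H, hH, c, hexp⟩ := gkmo_orbHol_coeff_exp (N := N) hc k
  have hinv' : ∀ γ : SL(2, ℤ), γ • f = f := fun γ => gkmo_smul_orbHol_coeff hinv γ k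
  have hper : ∀ τ : ℍ, (f : ℍ → ℂ) (ModularGroup.T • τ) = (f : ℍ → ℂ) τ := by
    intro τ
    rw [← HolRing.inv_smul_apply, hinv']
  obtain ⟨S₁, hS₁, -⟩ := hexp.exists_of_periodic hper
  obtain ⟨Q, hQ⟩ := gfc_exists_poly_of_invariant f hinv' S₁
    (by rw [gkmo_coeffMap_gfcIota]; exact hS₁)
  refine ⟨Q, ?_⟩
  rw [hQ] at hS₁
  exact Subtype.ext (hS₁.eq_of_eq (gkmo_hasCuspExp_aeval Q))

end Orbit

variable {N : ℕ} [NeZero N]

/-- (ORBIT) the orbit polynomial `∏_{ξ ∈ SL₂(ℤ)/Γ₀(N)} (X - ξ • G)` has coefficients in `ℂ[j]`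
(port of the first half of `G/FC/Degree.lean`, `gfc_exists_monic_of_mem_RBar`, from `gfc_toHol N x` to
a general invariant `G` meromorphic at the cusps). -/
theorem gkm_exists_monic (G : HolRing) (hinv : GkmMult N 1 G) (hc : GkmCusp G) :
    ∃ P : Polynomial (Polynomial ℂ), P.Monic ∧
      P.natDegree = Nat.card (SL(2, ℤ) ⧸ Gamma0 N) ∧
      Polynomial.eval₂ ((Polynomial.aeval (R := ℂ) jHol).toRingHom) G P = 0 := by
  set φ : Polynomial ℂ →+* HolRing := (Polynomial.aeval (R := ℂ) jHol).toRingHom with hφ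
  have hlift : gkmoOrbHol N G ∈ Polynomial.lifts φ := by
    rw [Polynomial.lifts_iff_coeff_lifts]
    intro k
    obtain ⟨Q, hQ⟩ := gkmo_exists_poly_coeff hinv hc k
    exact ⟨Q, hQ.symm⟩
  obtain ⟨P, hPmap, hPdeg, hPmonic⟩ :=
    Polynomial.lifts_and_natDegree_eq_and_monic hlift (gkmoOrbHol_monic G)
  refine ⟨P, hPmonic, by rw [hPdeg, gkmoOrbHol_natDegree], ?_⟩
  rw [← Polynomial.eval_map, hPmap]
  exact gkmoOrbHol_eval hinv

end Fermat.Agent.G
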