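/-
Program G / package Kum, row KUM-MEM (helper27): a `Γ₀(N)`-invariant holomorphic function on `ℍ`
which is meromorphic at the cusps belongs to `F_ℂ = gfcField N` (prefix `gkmm`).

Route: the set `gkmmInv N` of invariant functions, meromorphic at all cusps, is a subring of
`HolRing` containing `gfc_toHol N (gfc_RBar N)` and `G`; each of its elements has an expansion in
`exp(2πiτ)` and, by (ORBIT) `gkm_exists_monic`, is a root of a monic polynomial of degree
`μ = [SL₂(ℤ) : Γ₀(N)]` over `ℂ[j]`; the identity is transported to expansions through the ring of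
pairs `gkmmPair`.  Inside `ℂ((q))` put `L = F_ℂ(S)`, `S` the expansion of `G`, and `A = R[S]`:
every element of `A` has degree `≤ μ` over `ℂ(j)` and `A` separates the `ℂ(j)`-embeddings of `L`, so
`[L : ℂ(j)] ≤ μ = [F_ℂ : ℂ(j)]` (the counting argument of `gfc_finrank_jBar_le`), hence `L = F_ℂ`.
-/
import Mathlib
import Fermat.Agent.G.Kum.Defs
import Fermat.Agent.G.Kum.Orbit

set_option autoImplicit false
set_option linter.unusedSectionVars false

noncomputable section

namespace Fermat.Agent.G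

open UpperHalfPlane ModularCurve AlgebraicCurve CongruenceSubgroup Fermat.Agent.S24
  IntermediateField
open scoped MatrixGroups Manifold ModularForm Real

/-! ### pairs (holomorphic function, its expansion in `exp(2πiτ)`) -/

/-- the ring of pairs `(f, S)` with `S` the expansion of `f` in `exp(2πiτ)` -/
def gkmmPair : Subring (HolRing × LaurentSeries ℂ) where
  carrier := {p | HasCuspExp 1 (p.1 : ℍ → ℂ) p.2}
  mul_mem' := by
    intro a b ha hb
    show HasCuspExp 1 ((a * b).1 : ℍ → ℂ) (a * b).2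
    rw [Prod.fst_mul, Prod.snd_mul, Subring.coe_mul]
    exact HasCuspExp.mul ha hb
  one_mem' := by
    show HasCuspExp 1 ((1 : HolRing × LaurentSeries ℂ).1 : ℍ → ℂ)
      (1 : HolRing × LaurentSeries ℂ).2
    rw [Prod.fst_one, Prod.snd_one, Subring.coe_one]
    have := HasCuspExp.const (h := 1) (1 : ℂ)
    rw [map_one] at this
    exact this
  add_mem' := by
    intro a b ha hb
    show HasCuspExp 1 ((a + b).1 : ℍ → ℂ) (a + b).2
    rw [Prod.fst_add, Prod.snd_add, Subring.coe_add]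
    exact HasCuspExp.add ha hb
  zero_mem' := by
    show HasCuspExp 1 ((0 : HolRing × LaurentSeries ℂ).1 : ℍ → ℂ)
      (0 : HolRing × LaurentSeries ℂ).2
    rw [Prod.fst_zero, Prod.snd_zero, Subring.coe_zero]
    have := HasCuspExp.const (h := 1) (0 : ℂ)
    rw [map_zero] at this
    exact this
  neg_mem' := by
    intro a ha
    show HasCuspExp 1 ((-a).1 : ℍ → ℂ) (-a).2
    rw [Prod.fst_neg, Prod.snd_neg, NegMemClass.coe_neg]
    exact HasCuspExp.neg ha

theorem gkmm_mem_pair {p : HolRing × LaurentSeries ℂ} :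
    p ∈ gkmmPair ↔ HasCuspExp 1 (p.1 : ℍ → ℂ) p.2 := Iff.rfl

/-- first projection -/
def gkmmFst : gkmmPair →+* HolRing :=
  (RingHom.fst HolRing (LaurentSeries ℂ)).comp gkmmPair.subtype

/-- second projection -/
def gkmmSnd : gkmmPair →+* LaurentSeries ℂ :=
  (RingHom.snd HolRing (LaurentSeries ℂ)).comp gkmmPair.subtype

theorem gkmmFst_injective : Function.Injective gkmmFst := by
  rw [injective_iff_map_eq_zero]
  rintro ⟨⟨f, S⟩, hp⟩ hf
  have hf' : f = 0 := hf
  have hp' : HasCuspExp 1 (f : ℍ → ℂ) S := hp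
  rw [hf', Subring.coe_zero] at hp'
  have hS : S = 0 := cuspExp_eq_zero_of_zero hp'
  apply Subtype.ext
  show (f, S) = 0
  rw [hf', hS]
  rfl

/-- constants -/
def gkmmPairC : ℂ →+* gkmmPair :=
  (RingHom.prod HolRing.C (HahnSeries.C : ℂ →+* LaurentSeries ℂ)).codRestrict gkmmPair
    (fun c => HasCuspExp.const (h := 1) c)

theorem gkmm_eval_transport (p : gkmmPair) (J : gkmmPair) (P : Polynomial (Polynomial ℂ))
    (h : Polynomial.eval₂ ((Polynomial.aeval (R := ℂ) (gkmmFst J)).toRingHom) (gkmmFst p) P = 0) :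
    Polynomial.eval₂ ((Polynomial.aeval (R := ℂ) (gkmmSnd J)).toRingHom) (gkmmSnd p) P = 0 := by
  set ψ : Polynomial ℂ →+* gkmmPair := Polynomial.eval₂RingHom gkmmPairC J with hψ
  have h1 : gkmmFst.comp ψ = (Polynomial.aeval (R := ℂ) (gkmmFst J)).toRingHom := by
    apply Polynomial.ringHom_ext
    · intro c
      simp only [hψ, RingHom.coe_comp, Function.comp_apply, Polynomial.coe_eval₂RingHom,
        Polynomial.eval₂_C, AlgHom.toRingHom_eq_coe, RingHom.coe_coe, Polynomial.aeval_C]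
      rfl
    · simp only [hψ, RingHom.coe_comp, Function.comp_apply, Polynomial.coe_eval₂RingHom,
        Polynomial.eval₂_X, AlgHom.toRingHom_eq_coe, RingHom.coe_coe, Polynomial.aeval_X]
  have h2 : gkmmSnd.comp ψ = (Polynomial.aeval (R := ℂ) (gkmmSnd J)).toRingHom := by
    apply Polynomial.ringHom_ext
    · intro c
      simp only [hψ, RingHom.coe_comp, Function.comp_apply, Polynomial.coe_eval₂RingHom,
        Polynomial.eval₂_C, AlgHom.toRingHom_eq_coe, RingHom.coe_coe, Polynomial.aeval_C]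
      show HahnSeries.C c = algebraMap ℂ (LaurentSeries ℂ) c
      rw [HahnSeries.C_apply, ← algebraMap_laurentSeries_eq_single]
    · simp only [hψ, RingHom.coe_comp, Function.comp_apply, Polynomial.coe_eval₂RingHom,
        Polynomial.eval₂_X, AlgHom.toRingHom_eq_coe, RingHom.coe_coe, Polynomial.aeval_X]
  have h3 : gkmmFst (Polynomial.eval₂ ψ p P) = 0 := by
    rw [Polynomial.hom_eval₂, h1]
    exact h
  have h4 : Polynomial.eval₂ ψ p P = 0 := gkmmFst_injective (by rw [h3, map_zero])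
  have h5 := congrArg gkmmSnd h4
  rw [Polynomial.hom_eval₂, h2, map_zero] at h5
  exact h5


variable (N : ℕ) [NeZero N]

/-! ### the ring of invariant functions which are meromorphic at the cusps -/

theorem gkmm_cusp_add {f g : HolRing} (hf : GkmCusp f) (hg : GkmCusp g) : GkmCusp (f + g) := by
  intro γ
  obtain ⟨h, hh, S, hS⟩ := hf γ
  obtain ⟨h', hh', T, hT⟩ := hg γ
  have h1 := hS.qExpand h'
  have h2 := hT.qExpand h
  rw [mul_comm h' h] at h2
  refine ⟨h * h', inferInstance, qExpand ℂ h' S + qExpand ℂ h T, ?_⟩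
  rw [smul_add]
  exact h1.add h2

theorem gkmm_cusp_mul {f g : HolRing} (hf : GkmCusp f) (hg : GkmCusp g) : GkmCusp (f * g) := by
  intro γ
  obtain ⟨h, hh, S, hS⟩ := hf γ
  obtain ⟨h', hh', T, hT⟩ := hg γ
  have h1 := hS.qExpand h'
  have h2 := hT.qExpand h
  rw [mul_comm h' h] at h2
  refine ⟨h * h', inferInstance, qExpand ℂ h' S * qExpand ℂ h T, ?_⟩
  rw [smul_mul']
  exact h1.mul h2

theorem gkmm_cusp_C (c : ℂ) : GkmCusp (HolRing.C c) := by
  intro γ
  refine ⟨1, inferInstance, HahnSeries.C c, ?_⟩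
  have : ((γ • HolRing.C c : HolRing) : ℍ → ℂ) = fun _ => c := rfl
  rw [this]
  exact HasCuspExp.const c

theorem gkmm_cusp_neg {f : HolRing} (hf : GkmCusp f) : GkmCusp (-f) := by
  intro γ
  obtain ⟨h, hh, S, hS⟩ := hf γ
  refine ⟨h, hh, -S, ?_⟩
  rw [smul_neg]
  exact hS.neg

/-- the subring of `Γ₀(N)`-invariant holomorphic functions which are meromorphic at all cusps -/
def gkmmInv : Subring HolRing where
  carrier := {f | (∀ γ : SL(2, ℤ), γ ∈ Gamma0 N → γ • f = f) ∧ GkmCusp f}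
  mul_mem' := by
    rintro f g ⟨hf, hf'⟩ ⟨hg, hg'⟩
    refine ⟨fun γ hγ => ?_, gkmm_cusp_mul hf' hg'⟩
    rw [smul_mul', hf γ hγ, hg γ hγ]
  one_mem' := by
    refine ⟨fun γ _ => smul_one γ, ?_⟩
    have := gkmm_cusp_C 1
    rwa [map_one] at this
  add_mem' := by
    rintro f g ⟨hf, hf'⟩ ⟨hg, hg'⟩
    refine ⟨fun γ hγ => ?_, gkmm_cusp_add hf' hg'⟩
    rw [smul_add, hf γ hγ, hg γ hγ]
  zero_mem' := by
    refine ⟨fun γ _ => smul_zero γ, ?_⟩
    have := gkmm_cusp_C 0
    rwa [map_zero] at this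
  neg_mem' := by
    rintro f ⟨hf, hf'⟩
    refine ⟨fun γ hγ => ?_, gkmm_cusp_neg hf'⟩
    rw [smul_neg, hf γ hγ]

theorem gkmm_mem_inv {f : HolRing} :
    f ∈ gkmmInv N ↔ (∀ γ : SL(2, ℤ), γ ∈ Gamma0 N → γ • f = f) ∧ GkmCusp f := Iff.rfl

theorem gkmm_mult_one_iff (f : HolRing) :
    GkmMult N 1 f ↔ ∀ γ : SL(2, ℤ), γ ∈ Gamma0 N → γ • f = f := by
  constructor
  · intro h γ hγ
    have := h ⟨γ⁻¹, inv_mem hγ⟩
    simpa using this
  · intro h γ
    have := h (γ : SL(2, ℤ))⁻¹ (inv_mem γ.2)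
    simpa using this

theorem gkmm_C_mem (c : ℂ) : HolRing.C c ∈ gkmmInv N :=
  ⟨fun _ _ => rfl, gkmm_cusp_C c⟩

theorem gkmm_toHol_mem (x : gfc_RBar N) : gfc_toHol N x ∈ gkmmInv N :=
  ⟨fun γ hγ => gfc_smul_toHol_of_mem_Gamma0 N γ hγ x,
    fun g => ⟨N, inferInstance, _, gfc_hasCuspExp_cuspHom N g x⟩⟩

/-- an element of `gkmmInv N` has an expansion in `exp(2πiτ)` -/
theorem gkmm_exists_exp {f : HolRing} (hf : f ∈ gkmmInv N) :
    ∃ S : LaurentSeries ℂ, HasCuspExp 1 (f : ℍ → ℂ) S := by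
  obtain ⟨h, hh, S, hS⟩ := hf.2 1
  rw [one_smul] at hS
  have hT : ModularGroup.T ∈ Gamma0 N := by
    rw [Gamma0_mem]
    simp [ModularGroup.T]
  have hper : ∀ τ : ℍ, (f : ℍ → ℂ) (ModularGroup.T • τ) = (f : ℍ → ℂ) τ := by
    intro τ
    have h1 := hf.1 ModularGroup.T⁻¹ (inv_mem hT)
    have h2 := HolRing.inv_smul_apply ModularGroup.T f τ
    rw [h1] at h2
    exact h2.symm
  obtain ⟨S₁, hS₁, -⟩ := hS.exists_of_periodic hper
  exact ⟨S₁, hS₁⟩


theorem gkmm_poly_of_eval (L : IntermediateField (gfcField N) (LaurentSeries ℂ)) (y : L)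
    (P : Polynomial (Polynomial ℂ))
    (hP : Polynomial.eval₂ ((Polynomial.aeval (R := ℂ)
      ((gfc_jBar N : gfcField N) : LaurentSeries ℂ)).toRingHom) ((y : L) : LaurentSeries ℂ) P = 0) :
    Polynomial.aeval y (P.map (gfc_degToE N)) = 0 := by
  apply (algebraMap L (LaurentSeries ℂ)).injective
  rw [map_zero, Polynomial.aeval_def, Polynomial.eval₂_map, Polynomial.hom_eval₂]
  have key : (algebraMap L (LaurentSeries ℂ)).comp
      ((algebraMap ℂ⟮gfc_jBar N⟯ L).comp (gfc_degToE N)) =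
      (Polynomial.aeval (R := ℂ) ((gfc_jBar N : gfcField N) : LaurentSeries ℂ)).toRingHom := by
    apply Polynomial.ringHom_ext
    · intro c
      simp only [gfc_degToE, RingHom.coe_comp, AlgHom.toRingHom_eq_coe, RingHom.coe_coe,
        Function.comp_apply, Polynomial.aeval_C]
      rfl
    · simp only [gfc_degToE, RingHom.coe_comp, AlgHom.toRingHom_eq_coe, RingHom.coe_coe,
        Function.comp_apply, Polynomial.aeval_X]
      rfl
  rw [key]
  exact hP


set_option synthInstance.maxHeartbeats 400000 in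
set_option maxHeartbeats 1600000 in
open Polynomial in
/-- the counting argument: if a `ℂ`-subalgebra `A` of `L` separates the `ℂ(j)`-embeddings of `L`
and all its elements have degree `≤ μ` over `ℂ(j)`, then `[L : ℂ(j)] ≤ μ`. -/
theorem gkmm_finrank_le (L : IntermediateField (gfcField N) (LaurentSeries ℂ))
    [FiniteDimensional ℂ⟮gfc_jBar N⟯ L] (A : Subalgebra ℂ L) (μ : ℕ)
    (hext : ∀ σ σ' : L →ₐ[ℂ⟮gfc_jBar N⟯] AlgebraicClosure L,
      (∀ y : A, σ (y : L) = σ' (y : L)) → σ = σ')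
    (hpoly : ∀ y : A, ∃ p : Polynomial ℂ⟮gfc_jBar N⟯, p.Monic ∧ p.natDegree = μ ∧
      Polynomial.aeval (y : L) p = 0) :
    Module.finrank ℂ⟮gfc_jBar N⟯ L ≤ μ := by
  classical
  let Ω := AlgebraicClosure L
  rw [← AlgHom.card ℂ⟮gfc_jBar N⟯ L Ω]
  let W : {p : (L →ₐ[ℂ⟮gfc_jBar N⟯] Ω) × (L →ₐ[ℂ⟮gfc_jBar N⟯] Ω) // p.1 ≠ p.2} →
      Subspace ℂ A :=
    fun p => LinearMap.ker
      ((((p.1.1.restrictScalars ℂ).comp A.val).toLinearMap) -
        (((p.1.2.restrictScalars ℂ).comp A.val).toLinearMap))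
  have hW : ∀ p, W p ≠ ⊤ := by
    intro p htop
    apply p.2
    apply hext
    intro r
    have hr : r ∈ W p := by rw [htop]; exact Submodule.mem_top
    have := LinearMap.mem_ker.mp hr
    simp only [LinearMap.sub_apply, AlgHom.toLinearMap_apply, AlgHom.comp_apply,
      AlgHom.restrictScalars_apply, sub_eq_zero] at this
    exact this
  have hcov : ⋃ p, (W p : Set A) ≠ Set.univ := by
    intro hcov
    obtain ⟨p, hp⟩ := Subspace.exists_eq_top_of_iUnion_eq_univ hcov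
    exact hW p hp
  obtain ⟨r, hr⟩ : ∃ r : A, r ∉ ⋃ p, (W p : Set A) := by
    by_contra hcon
    push Not at hcon
    exact hcov (Set.eq_univ_of_forall hcon)
  obtain ⟨p, hmonic, hdeg, hp⟩ := hpoly r
  have hinj : Function.Injective
      (fun σ : L →ₐ[ℂ⟮gfc_jBar N⟯] Ω => σ (r : L)) := by
    intro σ σ' hσ
    by_contra hne
    apply hr
    rw [Set.mem_iUnion]
    refine ⟨⟨(σ, σ'), hne⟩, ?_⟩
    show r ∈ W ⟨(σ, σ'), hne⟩
    simp only [W, LinearMap.mem_ker, LinearMap.sub_apply, AlgHom.toLinearMap_apply,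
      AlgHom.comp_apply, AlgHom.restrictScalars_apply, sub_eq_zero]
    exact hσ
  have hroot : ∀ σ : L →ₐ[ℂ⟮gfc_jBar N⟯] Ω,
      σ (r : L) ∈ (p.map (algebraMap ℂ⟮gfc_jBar N⟯ Ω)).roots.toFinset := by
    intro σ
    rw [Multiset.mem_toFinset, Polynomial.mem_roots (Polynomial.map_ne_zero hmonic.ne_zero),
      Polynomial.IsRoot, Polynomial.eval_map, ← Polynomial.aeval_def, Polynomial.aeval_algHom_apply,
      hp, map_zero]
  calc Fintype.card (L →ₐ[ℂ⟮gfc_jBar N⟯] Ω)
      ≤ (p.map (algebraMap ℂ⟮gfc_jBar N⟯ Ω)).roots.toFinset.card := by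
        rw [← Finset.card_univ]
        exact Finset.card_le_card_of_injOn _ (fun σ _ => hroot σ) (fun σ _ σ' _ h => hinj h)
    _ ≤ Multiset.card (p.map (algebraMap ℂ⟮gfc_jBar N⟯ Ω)).roots := Multiset.toFinset_card_le _
    _ ≤ (p.map (algebraMap ℂ⟮gfc_jBar N⟯ Ω)).natDegree := Polynomial.card_roots' _
    _ = μ := by
        rw [hmonic.natDegree_map, hdeg]


/-- the ORBIT black box, as a hypothesis -/
def GkmmOrbit : Prop :=
  ∀ G : HolRing, GkmMult N 1 G → GkmCusp G →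
    ∃ P : Polynomial (Polynomial ℂ), P.Monic ∧
      P.natDegree = Nat.card (SL(2, ℤ) ⧸ Gamma0 N) ∧
      Polynomial.eval₂ ((Polynomial.aeval (R := ℂ) jHol).toRingHom) G P = 0

theorem gkmm_hasCuspExp_jHol :
    HasCuspExp 1 (jHol : ℍ → ℂ) ((gfc_jBar N : gfcField N) : LaurentSeries ℂ) := by
  have h := gfc_hasCuspExp_toHol N ⟨gfc_jBar N, gfc_jBar_mem_RBar N⟩
  rw [gfc_toHol_jBar] at h
  have e : coeffMap gfcIota ((gfc_jBar N : gfcField N) : LaurentSeries ℂ) =
      ((gfc_jBar N : gfcField N) : LaurentSeries ℂ) := coeffMap_id _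
  rw [← e]
  exact h

theorem gkmm_hasCuspExp_toHol (x : gfc_RBar N) :
    HasCuspExp 1 (gfc_toHol N x : ℍ → ℂ) (((x : gfcField N)) : LaurentSeries ℂ) := by
  have h := gfc_hasCuspExp_toHol N x
  have e : coeffMap gfcIota (((x : gfcField N)) : LaurentSeries ℂ) =
      (((x : gfcField N)) : LaurentSeries ℂ) := coeffMap_id _
  rw [← e]
  exact h

/-- every invariant function, meromorphic at the cusps, with expansion `y` is a root of a monic
polynomial of degree `μ` over `ℂ[j]` -/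
theorem gkmm_exists_monic_exp (horb : GkmmOrbit N) {f : HolRing} (hf : f ∈ gkmmInv N)
    {y : LaurentSeries ℂ} (hy : HasCuspExp 1 (f : ℍ → ℂ) y) :
    ∃ P : Polynomial (Polynomial ℂ), P.Monic ∧
      P.natDegree = Nat.card (SL(2, ℤ) ⧸ Gamma0 N) ∧
      Polynomial.eval₂ ((Polynomial.aeval (R := ℂ)
        ((gfc_jBar N : gfcField N) : LaurentSeries ℂ)).toRingHom) y P = 0 := by
  obtain ⟨P, hmonic, hdeg, hP⟩ := horb f ((gkmm_mult_one_iff N f).2 hf.1) hf.2
  refine ⟨P, hmonic, hdeg, ?_⟩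
  exact gkmm_eval_transport ⟨(f, y), hy⟩ ⟨(jHol, _), gkmm_hasCuspExp_jHol N⟩ P hP

set_option synthInstance.maxHeartbeats 400000 in
set_option maxHeartbeats 1600000 in
theorem gkmm_mem_of_cusp_of_orbit (horb : GkmmOrbit N) (G : HolRing) (hinv : GkmMult N 1 G)
    (hc : GkmCusp G) :
    ∃ u : gfcField N, HasCuspExp 1 (G : ℍ → ℂ) ((u : gfcField N) : LaurentSeries ℂ) := by
  classical
  have hGI : G ∈ gkmmInv N := ⟨(gkmm_mult_one_iff N G).1 hinv, hc⟩
  obtain ⟨S, hS⟩ := gkmm_exists_exp N hGI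
  suffices hmem : S ∈ (⊥ : IntermediateField (gfcField N) (LaurentSeries ℂ)) by
    obtain ⟨u, hu⟩ := IntermediateField.mem_bot.1 hmem
    refine ⟨u, ?_⟩
    have : ((u : gfcField N) : LaurentSeries ℂ) = S := hu
    rw [this]
    exact hS
  rw [← IntermediateField.finrank_adjoin_simple_eq_one_iff]
  -- notation
  obtain ⟨L, hL⟩ : ∃ L : IntermediateField (gfcField N) (LaurentSeries ℂ),
      L = (gfcField N)⟮S⟯ := ⟨_, rfl⟩
  rw [← hL]
  have hSL : S ∈ L := hL ▸ IntermediateField.mem_adjoin_simple_self (gfcField N) S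
  -- the subalgebra `A = R[S]` of `L`
  let ιR : gfc_RBar N → L := fun x => algebraMap (gfcField N) L (x : gfcField N)
  let A : Subalgebra ℂ L := Algebra.adjoin ℂ (Set.range ιR ∪ {⟨S, hSL⟩})
  have hA : ∀ y : L, y ∈ A → ∃ f : HolRing, f ∈ gkmmInv N ∧
      HasCuspExp 1 (f : ℍ → ℂ) ((y : L) : LaurentSeries ℂ) := by
    intro y hy
    induction hy using Algebra.adjoin_induction with
    | mem y hy =>
      rcases hy with ⟨x, rfl⟩ | hy
      · exact ⟨gfc_toHol N x, gkmm_toHol_mem N x, gkmm_hasCuspExp_toHol N x⟩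
      · rw [Set.mem_singleton_iff] at hy
        rw [hy]
        exact ⟨G, hGI, hS⟩
    | algebraMap c =>
      refine ⟨HolRing.C c, gkmm_C_mem N c, ?_⟩
      have e : ((algebraMap ℂ L c : L) : LaurentSeries ℂ) = HahnSeries.C c := by
        rw [HahnSeries.C_apply, ← algebraMap_laurentSeries_eq_single]
        rfl
      rw [e]
      exact HasCuspExp.const c
    | add y z _ _ ihy ihz =>
      obtain ⟨f, hf, hfy⟩ := ihy
      obtain ⟨g, hg, hgz⟩ := ihz
      exact ⟨f + g, (gkmmInv N).add_mem hf hg, hfy.add hgz⟩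
    | mul y z _ _ ihy ihz =>
      obtain ⟨f, hf, hfy⟩ := ihy
      obtain ⟨g, hg, hgz⟩ := ihz
      exact ⟨f * g, (gkmmInv N).mul_mem hf hg, hfy.mul hgz⟩
  have hpoly : ∀ y : A, ∃ p : Polynomial ℂ⟮gfc_jBar N⟯, p.Monic ∧
      p.natDegree = Nat.card (SL(2, ℤ) ⧸ Gamma0 N) ∧ Polynomial.aeval (y : L) p = 0 := by
    intro y
    obtain ⟨f, hf, hfy⟩ := hA y y.2
    obtain ⟨P, hmonic, hdeg, hP⟩ := gkmm_exists_monic_exp N horb hf hfy
    exact ⟨P.map (gfc_degToE N), hmonic.map _, by rw [hmonic.natDegree_map, hdeg],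
      gkmm_poly_of_eval N L y P hP⟩
  -- finiteness
  have hfdF : FiniteDimensional ℂ⟮gfc_jBar N⟯ (gfcField N) := gfc_finiteDimensional_jBar N
  have hintS : IsIntegral (gfcField N) S := by
    obtain ⟨p, hmonic, -, hp⟩ := hpoly ⟨⟨S, hSL⟩, Algebra.subset_adjoin (Or.inr rfl)⟩
    have h1 : IsIntegral ℂ⟮gfc_jBar N⟯ (⟨S, hSL⟩ : L) := ⟨p, hmonic, hp⟩
    have h2 : IsIntegral (gfcField N) (⟨S, hSL⟩ : L) := h1.tower_top
    exact (isIntegral_algebraMap_iff (algebraMap L (LaurentSeries ℂ)).injective).2 h2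
  have hfdL : FiniteDimensional (gfcField N) L := by
    rw [hL]
    exact IntermediateField.adjoin.finiteDimensional hintS
  have hfd : FiniteDimensional ℂ⟮gfc_jBar N⟯ L :=
    FiniteDimensional.trans ℂ⟮gfc_jBar N⟯ (gfcField N) L
  -- separation
  have hext : ∀ σ σ' : L →ₐ[ℂ⟮gfc_jBar N⟯] AlgebraicClosure L,
      (∀ y : A, σ (y : L) = σ' (y : L)) → σ = σ' := by
    intro σ σ' h
    have := gfc_isFractionRing_RBar N
    have hF : ∀ x : gfcField N, σ (algebraMap (gfcField N) L x) =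
        σ' (algebraMap (gfcField N) L x) := by
      have hring : (σ : L →+* AlgebraicClosure L).comp (algebraMap (gfcField N) L) =
          (σ' : L →+* AlgebraicClosure L).comp (algebraMap (gfcField N) L) := by
        apply IsLocalization.ringHom_ext (nonZeroDivisors (gfc_RBar N))
        ext r
        exact h ⟨ιR r, Algebra.subset_adjoin (Or.inl ⟨r, rfl⟩)⟩
      intro x
      exact RingHom.congr_fun hring x
    have hSS : σ ⟨S, hSL⟩ = σ' ⟨S, hSL⟩ :=
      h ⟨⟨S, hSL⟩, Algebra.subset_adjoin (Or.inr rfl)⟩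
    have key : ∀ (x : LaurentSeries ℂ) (hx : x ∈ IntermediateField.adjoin (gfcField N) {S}),
        σ ⟨x, hL ▸ hx⟩ = σ' ⟨x, hL ▸ hx⟩ := by
      intro x hx
      induction hx using IntermediateField.adjoin_induction with
      | mem x hx =>
        rw [Set.mem_singleton_iff] at hx
        subst hx
        exact hSS
      | algebraMap x => exact hF x
      | add x y hx hy ihx ihy =>
        have e : (⟨x + y, hL ▸ add_mem hx hy⟩ : L) = ⟨x, hL ▸ hx⟩ + ⟨y, hL ▸ hy⟩ := rfl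
        rw [e, map_add, map_add, ihx, ihy]
      | inv x hx ihx =>
        have e : (⟨x⁻¹, hL ▸ inv_mem hx⟩ : L) = (⟨x, hL ▸ hx⟩ : L)⁻¹ := rfl
        rw [e, map_inv₀, map_inv₀, ihx]
      | mul x y hx hy ihx ihy =>
        have e : (⟨x * y, hL ▸ mul_mem hx hy⟩ : L) = ⟨x, hL ▸ hx⟩ * ⟨y, hL ▸ hy⟩ := rfl
        rw [e, map_mul, map_mul, ihx, ihy]
    ext ⟨x, hx⟩
    exact key x (hL ▸ hx)
  have hle := gkmm_finrank_le N L A _ hext hpoly
  have htower := Module.finrank_mul_finrank ℂ⟮gfc_jBar N⟯ (gfcField N) L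
  rw [gfc_finrank_jBar] at htower
  have hpos : 0 < Module.finrank (gfcField N) L := Module.finrank_pos
  have hμ : 0 < Nat.card (SL(2, ℤ) ⧸ Gamma0 N) := by
    rw [← gfc_finrank_jBar N]
    exact Module.finrank_pos
  nlinarith


/-- (MEM) a `Γ₀(N)`-invariant holomorphic function on `ℍ` which is meromorphic at the cusps belongs
to `F_ℂ` (degree count: `F_ℂ(G) / ℂ(j)` has degree `≤ [SL₂(ℤ) : Γ₀(N)] = [F_ℂ : ℂ(j)]`). -/
theorem gkm_mem_of_cusp {N : ℕ} [NeZero N] (G : HolRing) (hinv : GkmMult N 1 G) (hc : GkmCusp G) :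
    ∃ u : gfcField N, HasCuspExp 1 (G : ℍ → ℂ) ((u : gfcField N) : LaurentSeries ℂ) :=
  gkmm_mem_of_cusp_of_orbit N (fun G' h1 h2 => gkm_exists_monic G' h1 h2) G hinv hc

end Fermat.Agent.G
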