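/-
Program G / package Kum, row KUM-ORD (helper28): orders at the points of `ℍ`.

`gkm_order_dvd` : if `x ≠ 0` in `F_ℂ = gfcField N` is (the expansion of) a holomorphic function `G`
on `ℍ` and `n ∣ ord_P x` for every place `P` of `F_ℂ`, then `n` divides the analytic order of `G` at
every point `τ` of `ℍ`.

Route: `ε := gfc_pointEmb N τ 1 : F_ℂ →+* ℂ((t))` (Taylor expansion at `τ`); `ε x` is the Taylor
series of `G`, so `(ε x).order` is the analytic order of `G` at `τ`; the pulled-back valuation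
defines a place `κ` of `F_ℂ` (S24 `placeOfValuation`) with `(ε f).order = m * κ.ord f`.
-/
import Mathlib
import Fermat.Agent.G.Kum.Defs
import Fermat.Agent.S24.PlaceOfValuation
import Fermat.Agent.S24.EmbCount
import Fermat.Agent.S24.JDeriv

set_option autoImplicit false
set_option linter.unusedSectionVars false

noncomputable section

namespace Fermat.Agent.G

open UpperHalfPlane ModularCurve AlgebraicCurve Fermat.Agent.S24 WithZero
open scoped MatrixGroups Manifold ModularForm Real

variable {N : ℕ} [NeZero N] {n : ℕ}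

/-- an element of `F_ℂ` which is the holomorphic function `G` has the Taylor series of `G` as its
expansion at `τ`. -/
theorem gkmo_pointEmb_eq {x : gfcField N} {G : HolRing}
    (hG : HasCuspExp 1 (G : ℍ → ℂ) ((x : gfcField N) : LaurentSeries ℂ)) (τ : ℍ) :
    gfc_pointEmb N τ 1 x = HahnSeries.ofPowerSeries ℤ ℂ (taylorDisc τ G) := by
  have := gfc_isFractionRing_RBar N
  obtain ⟨a, s, hs, rfl⟩ := IsFractionRing.div_surjective (A := gfc_RBar N) x
  have hs0 : s ≠ 0 := nonZeroDivisors.ne_zero hs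
  have hsF : (algebraMap (gfc_RBar N) (gfcField N) s) ≠ 0 := by
    intro h
    exact hs0 (IsFractionRing.injective (gfc_RBar N) (gfcField N) (by rw [h, map_zero]))
  have ha := gfc_hasCuspExp_toHol N a
  have hsE := gfc_hasCuspExp_toHol N s
  rw [gfcIota, coeffMap_id] at ha hsE
  have hmul := hsE.mul hG
  have hcoe : ((s : gfcField N) : LaurentSeries ℂ) *
      ((algebraMap (gfc_RBar N) (gfcField N) a / algebraMap (gfc_RBar N) (gfcField N) s :
        gfcField N) : LaurentSeries ℂ) = ((a : gfcField N) : LaurentSeries ℂ) := by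
    have : (algebraMap (gfc_RBar N) (gfcField N) s) *
        (algebraMap (gfc_RBar N) (gfcField N) a / algebraMap (gfc_RBar N) (gfcField N) s) =
        algebraMap (gfc_RBar N) (gfcField N) a := mul_div_cancel₀ _ hsF
    exact congrArg (fun y : gfcField N => (y : LaurentSeries ℂ)) this
  rw [hcoe] at hmul
  have heq : gfc_toHol N s * G = gfc_toHol N a := Subtype.ext (hmul.eq_of_eq ha)
  have hT := congrArg (taylorDisc τ) heq
  rw [map_mul] at hT
  have hTs : HahnSeries.ofPowerSeries ℤ ℂ (taylorDisc τ (gfc_toHol N s)) ≠ 0 := by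
    intro h
    have h1 : taylorDisc τ (gfc_toHol N s) = 0 :=
      HahnSeries.ofPowerSeries_injective (by rw [h, map_zero])
    have h2 : gfc_toHol N s = 0 := taylorDisc_injective τ (by rw [h1, map_zero])
    exact hs0 (gfc_toHol_injective N (by rw [h2, map_zero]))
  have e1 : gfc_pointEmb N τ 1 (algebraMap (gfc_RBar N) (gfcField N) a) =
      HahnSeries.ofPowerSeries ℤ ℂ (taylorDisc τ (gfc_toHol N a)) := by
    have := gfc_pointEmb_coe N τ 1 a
    rwa [one_smul] at this
  have e2 : gfc_pointEmb N τ 1 (algebraMap (gfc_RBar N) (gfcField N) s) =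
      HahnSeries.ofPowerSeries ℤ ℂ (taylorDisc τ (gfc_toHol N s)) := by
    have := gfc_pointEmb_coe N τ 1 s
    rwa [one_smul] at this
  rw [map_div₀, e1, e2, ← hT, map_mul, mul_div_cancel_left₀ _ hTs]

/-- the order of the Taylor series at `τ`, as an integer -/
theorem gkmo_order_ofPowerSeries (p : PowerSeries ℂ) (hp : p ≠ 0) :
    ((HahnSeries.ofPowerSeries ℤ ℂ p).order : ℤ) = (p.order.toNat : ℤ) := by
  have h1 : p.order = (p.order.toNat : ℕ∞) := by
    rw [ENat.natCast_toNat]
    exact (PowerSeries.order_finite_iff_ne_zero.mpr hp).ne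
  exact gfc_order_ofPowerSeries_of_order_eq p _ h1

/-- the place of `F_ℂ` below the point `τ`: `(ε f).order = m * κ.ord f` with `m ≥ 1`. -/
theorem gkmo_exists_place (N : ℕ) [NeZero N] (τ : ℍ) :
    ∃ (κ : Place ℂ (gfcField N)) (m : ℤ), 0 < m ∧
      ∀ f : gfcField N, f ≠ 0 → (gfc_pointEmb N τ 1 f).order = m * κ.ord f := by
  set ε := gfc_pointEmb N τ 1 with hε
  have hεne : ∀ {f : gfcField N}, f ≠ 0 → ε f ≠ 0 := fun hf =>
    (map_ne_zero_iff ε ε.injective).2 hf
  let w : Valuation (gfcField N) ℤᵐ⁰ :=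
    (Valued.v : Valuation (LaurentSeries ℂ) ℤᵐ⁰).comap ε
  have hw : ∀ f, f ≠ 0 → w f = exp (-(ε f).order) := fun f hf =>
    embCount_valuation_eq_exp_neg_order (hεne hf)
  have hk : ∀ a : ℂ, w (algebraMap ℂ (gfcField N) a) ≤ 1 := by
    intro a
    rcases eq_or_ne a 0 with rfl | ha
    · simp
    · have ha' : algebraMap ℂ (gfcField N) a ≠ 0 := by simpa using ha
      rw [hw _ ha', hε, gfc_pointEmb_algebraMap, gfcIota_apply, HahnSeries.order_C, neg_zero, exp_zero]
  -- `j - j(τ)` has positive order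
  obtain ⟨e, he⟩ : ∃ e : ℕ,
      analyticOrderAt (fun z : ℂ => jFun (ofComplex z) - jFun τ) (τ : ℂ) = e := by
    rw [analyticOrderAt_jFun_sub]
    split_ifs
    · exact ⟨3, rfl⟩
    · exact ⟨2, rfl⟩
    · exact ⟨1, rfl⟩
  have hepos : 0 < e := gfc_pos_of_analyticOrderAt_jFun_sub τ e he
  have hord := gfc_order_pointEmb_jBar_sub N τ 1 (jFun τ) rfl e he
  have ht0 : gfc_jBar N - algebraMap ℂ (gfcField N) (jFun τ) ≠ 0 := by
    intro h
    rw [h, map_zero, HahnSeries.order_zero] at hord
    omega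
  have hnt : ∃ x : gfcField N, x ≠ 0 ∧ w x ≠ 1 := by
    refine ⟨_, ht0, ?_⟩
    rw [hw _ ht0, hε, hord, ← exp_zero, Ne, exp_inj]
    omega
  obtain ⟨m, hm0, hm⟩ := exists_ord_placeOfValuation (k := ℂ) w hk hnt
  refine ⟨placeOfValuation (k := ℂ) w hk hnt, m, hm0, fun f hf => ?_⟩
  rw [← hm f hf, hw f hf, log_exp, neg_neg]

/-- **KUM-ORD**: the analytic order at `τ` is a multiple of the order at the place of `F_ℂ` below
`τ` (`gfc_pointEmb N τ 1` + S24 `placeOfValuation`). -/
theorem gkm_order_dvd {x : gfcField N} (hx : x ≠ 0) {G : HolRing}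
    (hG : HasCuspExp 1 (G : ℍ → ℂ) ((x : gfcField N) : LaurentSeries ℂ))
    (hdiv : GdDiv ℂ (gfcField N) n x) (τ : ℍ) :
    ∃ m : ℕ, analyticOrderAt ((G : ℍ → ℂ) ∘ ofComplex) (τ : ℂ) = ((n * m : ℕ) : ℕ∞) := by
  obtain ⟨κ, m, hm0, hm⟩ := gkmo_exists_place N τ
  have h1 := hm x hx
  rw [gkmo_pointEmb_eq hG τ] at h1
  have hT0 : taylorDisc τ G ≠ 0 := by
    intro h
    have h2 := gkmo_pointEmb_eq hG τ
    rw [h, map_zero] at h2
    exact hx ((map_eq_zero_iff _ (gfc_pointEmb N τ 1).injective).1 h2)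
  rw [gkmo_order_ofPowerSeries _ hT0] at h1
  have hfin : (taylorDisc τ G).order = ((taylorDisc τ G).order.toNat : ℕ∞) := by
    rw [ENat.natCast_toNat]
    exact (PowerSeries.order_finite_iff_ne_zero.mpr hT0).ne
  have hord : analyticOrderAt ((G : ℍ → ℂ) ∘ ofComplex) (τ : ℂ) =
      ((taylorDisc τ G).order.toNat : ℕ∞) := by
    rw [← hfin, order_taylorDisc]
    rfl
  obtain ⟨c, hc⟩ := hdiv κ
  rw [hc] at h1
  rcases Nat.eq_zero_or_pos n with rfl | hn
  · refine ⟨0, ?_⟩
    rw [hord]
    have : ((taylorDisc τ G).order.toNat : ℤ) = 0 := by rw [h1]; push_cast; ring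
    have h0 : (taylorDisc τ G).order.toNat = 0 := by exact_mod_cast this
    rw [h0]
  · -- `order = n * (m * c)` with `m * c ≥ 0`
    have hmc : 0 ≤ m * c := by
      by_contra hneg
      push Not at hneg
      have : ((taylorDisc τ G).order.toNat : ℤ) < 0 := by
        rw [h1]
        have hn' : (0 : ℤ) < n := by exact_mod_cast hn
        nlinarith
      omega
    refine ⟨(m * c).toNat, ?_⟩
    rw [hord]
    have : ((taylorDisc τ G).order.toNat : ℤ) = ((n * (m * c).toNat : ℕ) : ℤ) := by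
      rw [h1]; push_cast; rw [Int.toNat_of_nonneg hmc]; ring
    have h0 : (taylorDisc τ G).order.toNat = n * (m * c).toNat := by exact_mod_cast this
    rw [h0]

end Fermat.Agent.G
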