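/-
Program G / package Kum (helper22): SPEC = the hub importing all the rows of the package (every row is now
proved in its own file; nothing is stubbed here any more).

PLAN.  For `x ∈ F_ℂ = gfcField N` and a character `χ : Γ₀(N) →* ℂˣ`:
`GkmRel N n χ x`  :⇔  some `x b^n` is holomorphic on `ℍ` and has a holomorphic `n`-th root `H` with
`H(γτ) = χ(γ) H(τ)`.  Then
* (ROOT)  `x ∈ W_n(F_ℂ)`            ⟹ `∃ χ, GkmRel N n χ x`
* (UNIQ)  `GkmRel χ x`, `GkmRel χ y` ⟹ `y ∈ x F^{×n}`          [membership]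
* (EIS)   `χ` PE, `χ^n = 1`          ⟹ `∃ x ≠ 0, GkmRoot N n χ x` [Eisenstein series]
* (DIV)   `GkmRoot χ x`, `χ` PE      ⟹ `x ∈ W_n(F_ℂ)`           [ramification = stabilisers]
* (HECKE) `GkmRel χ x`, `y` = Hecke norm of `x` ⟹ `GkmRel (χ ∘ T_ℓ) y`
* (FIN)   `W_n(F_ℂ) / F_ℂ^{×n}` is finite.
-/
import Fermat.Agent.G.Kum.Defs
import Fermat.Agent.G.Kum.Alg
import Fermat.Agent.G.Kum.RootHol
import Fermat.Agent.G.Kum.Ord
import Fermat.Agent.G.Kum.RamAbs
import Fermat.Agent.G.Kum.HeckeMult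
import Fermat.Agent.G.Kum.Char
import Fermat.Agent.G.Kum.Orbit
import Fermat.Agent.G.Kum.HeckeExp
import Fermat.Agent.G.Kum.HeckeCusp
import Fermat.Agent.G.Kum.PerExpBase
import Fermat.Agent.G.Kum.PerExp
import Fermat.Agent.G.Kum.Mem
import Fermat.Agent.G.Kum.DivPoint
import Fermat.Agent.G.Kum.DivCusp
import Fermat.Agent.G.Kum.EisHol

set_option autoImplicit false

noncomputable section

namespace Fermat.Agent.G

open UpperHalfPlane ModularCurve AlgebraicCurve CongruenceSubgroup Fermat.Agent.S24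
  Fermat.Agent.S16LB IntermediateField
open P2MW.S_ModularForm_heckeT_slash_eq_self_of_mem_Gamma0.ModularForm.HeckeSlashInvariance
open scoped MatrixGroups Manifold ModularForm Real

variable {N : ℕ} [NeZero N] {n : ℕ}

/-! ## Rows KUM-HMULT + KUM-HEXP + KUM-HCUSP : the analytic Hecke operator
(files `Kum/HeckeMult.lean`, `Kum/HeckeExp.lean`, `Kum/HeckeCusp.lean`) -/

section Hecke

variable {ℓ : ℕ} [Fact ℓ.Prime]

/-- (CHAR, helper1 `Kum/Char.lean`) the `n`-torsion characters of the finitely generated group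
`Γ₀(N)` form a finite set. -/
theorem gkm_finite_chars (N : ℕ) [NeZero N] {n : ℕ} (hn : 0 < n) :
    {χ : Gamma0 N →* ℂˣ | ∀ γ : Gamma0 N, χ γ ^ n = 1}.Finite := by
  haveI : NeZero n := ⟨hn.ne'⟩
  exact gkc_finite_chars n N

end Hecke

end Fermat.Agent.G
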