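/-
Program G / package Kum (helper22): WIRING of the top statements (ROOT, UNIQ, EIS, DIV, HECKE, FIN)
from the rows.
-/
import Fermat.Agent.G.Kum.Spec

set_option autoImplicit false

noncomputable section

namespace Fermat.Agent.G

open UpperHalfPlane ModularCurve AlgebraicCurve CongruenceSubgroup Fermat.Agent.S24
  Fermat.Agent.S16LB IntermediateField
open P2MW.S_ModularForm_heckeT_slash_eq_self_of_mem_Gamma0.ModularForm.HeckeSlashInvariance
open scoped MatrixGroups Manifold ModularForm Real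

variable {N : ℕ} [NeZero N] {n : ℕ}

/-! ### small helpers -/

theorem gkmw_coeffMap_gfcIota (S : LaurentSeries ℂ) : coeffMap gfcIota S = S := coeffMap_id S

theorem gkmw_hol_toHol (a : gfc_RBar N) :
    HasCuspExp 1 (gfc_toHol N a : ℍ → ℂ) (((a : gfcField N)) : LaurentSeries ℂ) := by
  have h := gfc_hasCuspExp_toHol N a
  rwa [gkmw_coeffMap_gfcIota] at h

theorem gkmw_hasCuspExp_pow {h : ℕ} [NeZero h] {f : ℍ → ℂ} {S : LaurentSeries ℂ}
    (hf : HasCuspExp h f S) (m : ℕ) : HasCuspExp h (f ^ m) (S ^ m) := by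
  induction m with
  | zero =>
    rw [pow_zero, pow_zero]
    have := HasCuspExp.const (h := h) (1 : ℂ)
    rw [map_one] at this
    exact this
  | succ k ih =>
    rw [pow_succ, pow_succ]
    exact ih.mul hf

theorem gkmw_hol_pow {x : gfcField N} {G : HolRing}
    (hG : HasCuspExp 1 (G : ℍ → ℂ) ((x : gfcField N) : LaurentSeries ℂ)) (m : ℕ) :
    HasCuspExp 1 ((G ^ m : HolRing) : ℍ → ℂ) (((x ^ m : gfcField N)) : LaurentSeries ℂ) := by
  have := gkmw_hasCuspExp_pow hG m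
  simpa using this

theorem gkmw_hol_mul {x y : gfcField N} {G G' : HolRing}
    (hG : HasCuspExp 1 (G : ℍ → ℂ) ((x : gfcField N) : LaurentSeries ℂ))
    (hG' : HasCuspExp 1 (G' : ℍ → ℂ) ((y : gfcField N) : LaurentSeries ℂ)) :
    HasCuspExp 1 ((G * G' : HolRing) : ℍ → ℂ) (((x * y : gfcField N)) : LaurentSeries ℂ) := by
  have := hG.mul hG'
  simpa using this

theorem gkmw_hol_unique {x y : gfcField N} {G : HolRing}
    (hx : HasCuspExp 1 (G : ℍ → ℂ) ((x : gfcField N) : LaurentSeries ℂ))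
    (hy : HasCuspExp 1 (G : ℍ → ℂ) ((y : gfcField N) : LaurentSeries ℂ)) : x = y :=
  Subtype.ext (hx.unique hy)

theorem gkmw_hol_zero : HasCuspExp 1 ((0 : HolRing) : ℍ → ℂ)
    (((0 : gfcField N)) : LaurentSeries ℂ) := by
  have := HasCuspExp.const (h := 1) (0 : ℂ)
  rw [map_zero] at this
  exact this

theorem gkmw_hol_eq_zero_iff {x : gfcField N} {G : HolRing}
    (hG : HasCuspExp 1 (G : ℍ → ℂ) ((x : gfcField N) : LaurentSeries ℂ)) : G = 0 ↔ x = 0 := by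
  constructor
  · rintro rfl
    exact gkmw_hol_unique hG gkmw_hol_zero
  · rintro rfl
    exact Subtype.ext (hG.eq_of_eq gkmw_hol_zero)

/-! ### (ROOT) -/

theorem gkm_exists_rel (hn : 0 < n) {x : gfcField N} (hx : x ≠ 0)
    (hdiv : GdDiv ℂ (gfcField N) n x) : ∃ χ : Gamma0 N →* ℂˣ, GkmRel N n χ x := by
  obtain ⟨b, G, hb, hG⟩ := gkm_exists_hol hn x
  have hxb : x * b ^ n ≠ 0 := mul_ne_zero hx (pow_ne_zero n hb)
  have hdiv' : GdDiv ℂ (gfcField N) n (x * b ^ n) := by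
    intro P
    rw [P.ord_mul hx (pow_ne_zero n hb), ← zpow_natCast, P.ord_zpow]
    exact dvd_add (hdiv P) (Dvd.intro _ rfl)
  have hord := gkm_order_dvd hxb hG hdiv'
  have hG0 : G ≠ 0 := fun h => hxb ((gkmw_hol_eq_zero_iff hG).1 h)
  obtain ⟨H, hH⟩ := gkm_exists_holRoot hn G hG0 hord
  have hinv : GkmMult N 1 (H ^ n) := by rw [hH]; exact gkm_hol_invariant hG
  have hH0 : H ≠ 0 := by
    rintro rfl
    rw [zero_pow hn.ne'] at hH
    exact hG0 hH.symm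
  obtain ⟨χ, hχ⟩ := gkm_exists_mult hn H hH0 hinv
  exact ⟨χ, b, hb, H, by rw [hH]; exact hG, hχ⟩

/-! ### (UNIQ) -/

theorem gkm_rel_unique (hn : 0 < n) {χ : Gamma0 N →* ℂˣ} {x y : gfcField N} (hx : x ≠ 0)
    (hy : y ≠ 0) (h₁ : GkmRel N n χ x) (h₂ : GkmRel N n χ y) : GdRel n x y := by
  have hχn : ∀ γ : Gamma0 N, χ γ ^ n = 1 := gkm_rel_char_pow hn hx h₁
  obtain ⟨b, hb, H₁, hH₁, hm₁⟩ := h₁
  obtain ⟨c, hc, H₂, hH₂, hm₂⟩ := h₂
  have hχ1 : χ * χ ^ (n - 1) = 1 := by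
    ext γ
    rw [MonoidHom.mul_apply, MonoidHom.pow_apply, ← pow_succ', Nat.sub_add_cancel hn, hχn]
    rfl
  have hmG : GkmMult N 1 (H₂ * H₁ ^ (n - 1)) := by
    have := gkm_mult_mul hm₂ (gkm_mult_pow hm₁ (n - 1))
    rwa [hχ1] at this
  have hpow : (H₂ * H₁ ^ (n - 1)) ^ n = H₂ ^ n * (H₁ ^ n) ^ (n - 1) := by
    rw [mul_pow, ← pow_mul, ← pow_mul, mul_comm (n - 1) n]
  have hGn : HasCuspExp 1 (((H₂ * H₁ ^ (n - 1)) ^ n : HolRing) : ℍ → ℂ)
      (((y * c ^ n * (x * b ^ n) ^ (n - 1) : gfcField N)) : LaurentSeries ℂ) := by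
    rw [hpow]
    exact gkmw_hol_mul hH₂ (gkmw_hol_pow hH₁ (n - 1))
  have hcG : GkmCusp (H₂ * H₁ ^ (n - 1)) :=
    gkm_cusp_of_root hn (χ := 1) (fun _ => one_pow _) hmG (gkm_hol_cusp hGn)
  obtain ⟨v, hv⟩ := gkm_mem_of_cusp (H₂ * H₁ ^ (n - 1)) hmG hcG
  have hvn : v ^ n = y * c ^ n * (x * b ^ n) ^ (n - 1) := gkmw_hol_unique (gkmw_hol_pow hv n) hGn
  have hv0 : v ≠ 0 := by
    rintro rfl
    rw [zero_pow hn.ne'] at hvn
    exact mul_ne_zero (mul_ne_zero hy (pow_ne_zero n hc))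
      (pow_ne_zero _ (mul_ne_zero hx (pow_ne_zero n hb))) hvn.symm
  have hden : c * (x * b ^ (n - 1)) ≠ 0 :=
    mul_ne_zero hc (mul_ne_zero hx (pow_ne_zero _ hb))
  refine ⟨v / (c * (x * b ^ (n - 1))), div_ne_zero hv0 hden, ?_⟩
  rw [div_pow, hvn]
  have hxn : x ^ n = x * x ^ (n - 1) := by rw [← pow_succ', Nat.sub_add_cancel hn]
  have hbn : (b ^ n) ^ (n - 1) = (b ^ (n - 1)) ^ n := by
    rw [← pow_mul, ← pow_mul, mul_comm]
  rw [mul_pow, mul_pow, mul_pow, hxn, hbn]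
  field_simp

/-! ### (EIS) -/

theorem gkm_exists_of_char (hn : 0 < n) (χ : Gamma0 N →* ℂˣ) (hχ : GkmPE N χ)
    (hχn : ∀ γ : Gamma0 N, χ γ ^ n = 1) : ∃ x : gfcField N, x ≠ 0 ∧ GkmRoot N n χ x := by
  have hu : ∀ γ : Gamma0 N, ‖((χ γ : ℂˣ) : ℂ)‖ = 1 := by
    intro γ
    have h1 : ((χ γ : ℂˣ) : ℂ) ^ n = 1 := by
      have := congrArg (fun u : ℂˣ => (u : ℂ)) (hχn γ)
      simpa using this
    have h2 : ‖((χ γ : ℂˣ) : ℂ)‖ ^ n = 1 := by rw [← norm_pow, h1, norm_one]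
    exact (pow_eq_one_iff_of_nonneg (norm_nonneg _) hn.ne').1 h2
  obtain ⟨H, hH0, hm, hc⟩ := gkm_eis_hol χ hχ hu
  have hχ1 : χ ^ n = 1 := by
    ext γ
    rw [MonoidHom.pow_apply, hχn]
    rfl
  have hmn : GkmMult N 1 (H ^ n) := by
    have := gkm_mult_pow hm n
    rwa [hχ1] at this
  obtain ⟨u, hu'⟩ := gkm_mem_of_cusp (H ^ n) hmn (gkm_cusp_pow hc n)
  refine ⟨u, ?_, H, hu', hm⟩
  intro h0
  exact hH0 (pow_eq_zero_iff hn.ne' |>.1 ((gkmw_hol_eq_zero_iff hu').2 h0))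

/-! ### (DIV) -/

theorem gkm_div_of_root (hn : 0 < n) {χ : Gamma0 N →* ℂˣ} (hχ : GkmPE N χ) {x : gfcField N}
    (hx : x ≠ 0) (h : GkmRoot N n χ x) : GdDiv ℂ (gfcField N) n x := by
  intro P
  by_cases hP : 0 ≤ P.ord (gfc_jBar N)
  · exact gkm_div_point hn hχ hx h P hP
  · exact gkm_div_cusp hn hχ hx h P (not_le.1 hP)

/-! ### (FIN) -/

theorem gkm_fin (hn : 0 < n) :
    ∃ S : Finset (gfcField N), ∀ x' : gfcField N, x' ≠ 0 →
      GdDiv ℂ (gfcField N) n x' → ∃ s ∈ S, GdRel n s x' := by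
  classical
  have hfin := gkm_finite_chars N hn
  let P : (Gamma0 N →* ℂˣ) → Prop := fun χ => ∃ x : gfcField N, x ≠ 0 ∧ GkmRel N n χ x
  let rep : (Gamma0 N →* ℂˣ) → gfcField N := fun χ => if h : P χ then h.choose else 1
  refine ⟨hfin.toFinset.image rep, fun x' hx' hdiv => ?_⟩
  obtain ⟨χ, hχ⟩ := gkm_exists_rel hn hx' hdiv
  have hP : P χ := ⟨x', hx', hχ⟩
  have hrep : rep χ = hP.choose := dif_pos hP
  refine ⟨rep χ, Finset.mem_image.2 ⟨χ, ?_, rfl⟩, ?_⟩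
  · rw [Set.Finite.mem_toFinset]
    exact gkm_rel_char_pow hn hx' hχ
  · rw [hrep]
    exact gkm_rel_unique hn hP.choose_spec.1 hx' hP.choose_spec.2 hχ

/-! ### (HECKE) -/

section Hecke

variable {ℓ : ℕ} [Fact ℓ.Prime]

theorem gkmHeckeHol_pow (G : HolRing) (m : ℕ) :
    gkmHeckeHol ℓ (G ^ m) = (gkmHeckeHol ℓ G) ^ m := by
  simp only [gkmHeckeHol, map_pow, Finset.prod_pow]

theorem gkmTr_one (hℓN : ¬ ℓ ∣ N) : gkmTr N ℓ hℓN (1 : Gamma0 N →* ℂˣ) = 1 := by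
  ext γ
  simp [gkmTr_apply]

/-- the Hecke norm series is multiplicative -/
theorem gkmw_isHeckeNorm_mul_pow [NeZero ℓ] {ζ : ℂˣ} {x y r r' : LaurentSeries ℂ}
    (hxy : GcjIsHeckeNorm ℓ ζ x y) (hr : GcjIsHeckeNorm ℓ ζ r r') (m : ℕ) :
    GcjIsHeckeNorm ℓ ζ (x * r ^ m) (y * r' ^ m) := by
  unfold GcjIsHeckeNorm at *
  simp only [map_mul, map_pow, Finset.prod_mul_distrib, Finset.prod_pow, hxy, hr]
  ring

end Hecke

theorem gkm_rel_hecke (hn : 0 < n) {ℓ : ℕ} [Fact ℓ.Prime] (hℓN : ¬ ℓ ∣ N) (ζ : ℂˣ)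
    (hζ : IsPrimitiveRoot ζ ℓ) {χ : Gamma0 N →* ℂˣ} {x y : gfcField N} (hx : x ≠ 0)
    (hxy : haveI : NeZero ℓ := ⟨(Fact.out : ℓ.Prime).ne_zero⟩;
      GcjIsHeckeNorm ℓ ζ ((x : gfcField N) : LaurentSeries ℂ) ((y : gfcField N) : LaurentSeries ℂ))
    (h : GkmRel N n χ x) : GkmRel N n (gkmTr N ℓ hℓN χ) y := by
  haveI : NeZero ℓ := ⟨(Fact.out : ℓ.Prime).ne_zero⟩
  obtain ⟨b, hb, H, hH, hm⟩ := h
  -- write `b = r / s` with `r, s ∈ gfc_RBar N`
  haveI := gfc_isFractionRing_RBar N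
  obtain ⟨r, s, hs, hrs⟩ := IsFractionRing.div_surjective (A := gfc_RBar N) b
  have hs0 : (s : gfcField N) ≠ 0 := by
    have := nonZeroDivisors.ne_zero hs
    exact fun h0 => this (Subtype.ext h0)
  have hr0 : (r : gfcField N) ≠ 0 := by
    intro h0
    apply hb
    rw [← hrs]
    show (r : gfcField N) / (s : gfcField N) = 0
    rw [h0, zero_div]
  have hbrs : b * (s : gfcField N) = (r : gfcField N) := by
    rw [← hrs]
    show (r : gfcField N) / (s : gfcField N) * (s : gfcField N) = (r : gfcField N)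
    exact div_mul_cancel₀ _ hs0
  -- the new root `H * toHol s` of `x r^n`
  have hH' : HasCuspExp 1 (((H * gfc_toHol N s) ^ n : HolRing) : ℍ → ℂ)
      (((x * (r : gfcField N) ^ n : gfcField N)) : LaurentSeries ℂ) := by
    have h1 := gkmw_hol_mul hH (gkmw_hol_pow (gkmw_hol_toHol s) n)
    rw [← mul_pow] at h1
    have h2 : x * b ^ n * (s : gfcField N) ^ n = x * (r : gfcField N) ^ n := by
      rw [mul_assoc, ← mul_pow, hbrs]
    rwa [h2] at h1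
  have hm' : GkmMult N χ (H * gfc_toHol N s) := by
    have h1 := gkm_mult_mul hm (gkm_hol_invariant (gkmw_hol_toHol s))
    have h2 : χ * (1 : Gamma0 N →* ℂˣ) = χ := by
      ext γ
      simp
    rw [h2] at h1
    exact h1
  -- the Hecke norm of `r`
  have hB := gkmw_hol_toHol r
  have hTBinv : GkmMult N 1 (gkmHeckeHol ℓ (gfc_toHol N r)) := by
    have := gkm_heckeHol_mult hℓN (gkm_hol_invariant hB)
    rwa [gkmTr_one] at this
  have hTBcusp : GkmCusp (gkmHeckeHol ℓ (gfc_toHol N r)) :=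
    gkm_heckeHol_cusp (gkm_cusp_toHol r)
  obtain ⟨r', hr'⟩ := gkm_mem_of_cusp _ hTBinv hTBcusp
  have hnorm_r : GcjIsHeckeNorm ℓ ζ (((r : gfcField N)) : LaurentSeries ℂ)
      ((r' : gfcField N) : LaurentSeries ℂ) := by
    have h1 := gkm_heckeHol_cuspExp_aux hB ζ hζ
    have h2 := hr'.qExpand ℓ
    rw [one_mul] at h2
    exact h2.unique h1
  have hr'0 : r' ≠ 0 := by
    intro h0
    have h1 : qExpand ℂ ℓ ((r' : gfcField N) : LaurentSeries ℂ) = 0 := by rw [h0]; simp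
    rw [hnorm_r] at h1
    rcases mul_eq_zero.1 h1 with h2 | h2
    · exact hr0 (Subtype.ext ((map_eq_zero_iff _ (qExpand ℂ (ℓ * ℓ)).injective).1 h2))
    · obtain ⟨i, -, hi⟩ := Finset.prod_eq_zero_iff.1 h2
      exact hr0 (Subtype.ext ((map_eq_zero_iff _ (gcjTwist (ζ ^ i)).injective).1 hi))
  -- the Hecke norm of `x r^n`
  have hnorm : GcjIsHeckeNorm ℓ ζ (((x * (r : gfcField N) ^ n : gfcField N)) : LaurentSeries ℂ)
      (((y * r' ^ n : gfcField N)) : LaurentSeries ℂ) := by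
    have := gkmw_isHeckeNorm_mul_pow hxy hnorm_r n
    simpa using this
  refine ⟨r', hr'0, gkmHeckeHol ℓ (H * gfc_toHol N s), ?_, gkm_heckeHol_mult hℓN hm'⟩
  rw [← gkmHeckeHol_pow]
  exact gkm_heckeHol_cuspExp hH' ζ hζ hnorm

end Fermat.Agent.G
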