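import Mathlib
import Fermat.Agent.G.Kum.Main
import Fermat.Agent.G.Kum.Char
import Fermat.Agent.G.Desc.ThetaAsm
import Fermat.Agent.G.Conj.Series

/-!
# Program G : THE THETA JOIN (helper29)

`gkt_theta` : for every `n > 0` an injective Hecke equivariant homomorphism
`Θ : Hom_pe(Γ₀(N), ℤ/n) →+ J₀(N)(ℚ̄)[n]` (`T_ℓ`, `ℓ ∤ N n`), from

* G/Kum (helper22, `Kum/Spec.lean` main statements EIS, DIV, UNIQ, HECKE, FIN + the ALG lemmas),
* G/Kum/Char.lean (helper1: additive `ℤ/n`-characters ↔ multiplicative characters, transfer),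
* G/Desc/ThetaAsm.lean (helper13: descent to `ℚ̄`, `Pic0`, Hecke on classes = G/FF),
* G/Conj (NS) `gcj_norm_series` (helper15: the `q`-expansion of `N_α (β f)`).

`gasm_theta'` : the statement `gasm_theta` of `G/Asm/Spec.lean` (`n = p`).
-/

set_option autoImplicit false
set_option linter.unusedSectionVars false
set_option linter.unusedVariables false
set_option linter.style.haveILetI false

noncomputable section

namespace Fermat.Agent.G

open CongruenceSubgroup ModularCurve AlgebraicCurve HahnSeries Fermat.Agent.S24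
  Fermat.Agent.S16LB

/-! ### (NS) over `ℂ` in the shape consumed by G/Kum -/

theorem gkt_twist_eq_rot {R : Type*} [CommRing R] (c : Rˣ) (f : LaurentSeries R) :
    gcjTwist c f = gcjfRot c f := by
  ext m
  rw [gcjTwist_coeff, gcjfRot_coeff]

/-- the Hecke norm identity over `ℂ`: the expansion of `N_α (β f)` is the Hecke norm of the
expansion of `f`. -/
theorem gkt_isHeckeNorm (N : ℕ) [NeZero N] {ℓ : ℕ} [Fact ℓ.Prime] (hℓN : ¬ ℓ ∣ N) :
    haveI : NeZero ℓ := ⟨(Fact.out : ℓ.Prime).ne_zero⟩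
    ∃ ζ : ℂˣ, IsPrimitiveRoot ζ ℓ ∧ ∀ f : modularFunctionFieldBar N,
      GcjIsHeckeNorm ℓ ζ ((gdqIota N f : gdqFC N) : LaurentSeries ℂ)
        ((gdqIota N (gHeckeFun N ℓ f) : gdqFC N) : LaurentSeries ℂ) := by
  haveI : NeZero ℓ := ⟨(Fact.out : ℓ.Prime).ne_zero⟩
  obtain ⟨ζ₀, hζ₀, h⟩ := gcj_norm_series N hℓN
  refine ⟨Units.map (iotaBar : QBar →* ℂ) ζ₀, ?_, fun f => ?_⟩
  · exact hζ₀.map_of_injective (f := Units.map (iotaBar : QBar →* ℂ))
      (Units.map_injective iotaBar.injective)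
  · unfold GcjIsHeckeNorm
    rw [coe_gdqIota, coe_gdqIota, ← coeffMap_qExpand, ← coeffMap_qExpand, h f, map_mul]
    congr 1
    unfold gcjfProd
    rw [map_prod]
    refine Finset.prod_congr rfl fun i _ => ?_
    rw [gcjfRot_coeffMap, gkt_twist_eq_rot, map_pow]

/-! ### the Kummer family `X χ` -/

section Family

variable (N : ℕ) [NeZero N] (n : ℕ) [NeZero n]

theorem gkt_char_PE (χ : gasmPEHoms N (ZMod n)) :
    GkmPE N (gkcChar n (χ : s16lbAb N →+ ZMod n)) := by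
  intro γ hγ
  exact (gkcChar_isPE_iff n (χ : s16lbAb N →+ ZMod n)).mpr (fun δ hδ => χ.2 δ hδ) γ hγ

theorem gkt_exists (χ : gasmPEHoms N (ZMod n)) :
    ∃ x : gfcField N, x ≠ 0 ∧ GkmRoot N n (gkcChar n (χ : s16lbAb N →+ ZMod n)) x :=
  gkm_exists_of_char (NeZero.pos n) _ (gkt_char_PE N n χ)
    (fun γ => gkcChar_pow n (χ : s16lbAb N →+ ZMod n) γ)

/-- the Kummer family: `X χ` has a holomorphic `n`-th root with multiplier `χ`. -/
def gktX (χ : gasmPEHoms N (ZMod n)) : gdqFC N := (gkt_exists N n χ).choose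

theorem gktX_ne_zero (χ : gasmPEHoms N (ZMod n)) : gktX N n χ ≠ 0 :=
  (gkt_exists N n χ).choose_spec.1

theorem gktX_root (χ : gasmPEHoms N (ZMod n)) :
    GkmRoot N n (gkcChar n (χ : s16lbAb N →+ ZMod n)) (gktX N n χ) :=
  (gkt_exists N n χ).choose_spec.2

theorem gkt_rel_of_root {χ : Gamma0 N →* ℂˣ} {x : gfcField N} (h : GkmRoot N n χ x) :
    GkmRel N n χ x :=
  ⟨1, one_ne_zero, by rwa [one_pow, mul_one]⟩

theorem gktX_rel (χ : gasmPEHoms N (ZMod n)) :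
    GkmRel N n (gkcChar n (χ : s16lbAb N →+ ZMod n)) (gktX N n χ) :=
  gkt_rel_of_root N n (gktX_root N n χ)

theorem gkt_gdRel_symm {F : Type*} [Field F] {m : ℕ} {x y : F} (h : GdRel m x y) :
    GdRel m y x := by
  obtain ⟨g, hg, rfl⟩ := h
  refine ⟨g⁻¹, inv_ne_zero hg, ?_⟩
  rw [mul_assoc, ← mul_pow, mul_inv_cancel₀ hg, one_pow, mul_one]

end Family

/-! ### the theorem -/

/-- **THETA**, general `n`. -/
theorem gkt_theta (N : ℕ) [NeZero N] (n : ℕ) (hn : 0 < n) :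
    ∃ Θ : gasmPEHoms N (ZMod n) →+ JZero N, Function.Injective Θ ∧
      (∀ χ, Θ χ ∈ Pic0.torsion QBar (modularFunctionFieldBar N) n) ∧
      ∀ (ℓ : ℕ) [Fact ℓ.Prime] (hℓN : ¬ ℓ ∣ N) (_ : ¬ ℓ ∣ n)
        (χ χ' : gasmPEHoms N (ZMod n)),
        (χ' : s16lbAb N →+ ZMod n) = (χ : s16lbAb N →+ ZMod n).comp (gasmTr N ℓ hℓN) →
          Θ χ' = heckeOperatorBar N ⟨ℓ, Fact.out⟩ (Θ χ) := by
  haveI : NeZero n := ⟨hn.ne'⟩
  refine gdq_theta_asm N n hn (gktX N n) (gktX_ne_zero N n) ?_ ?_ ?_ ?_ ?_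
  · -- hXdiv
    intro χ
    exact gkm_div_of_root hn (gkt_char_PE N n χ) (gktX_ne_zero N n χ) (gktX_root N n χ)
  · -- hXadd
    intro χ χ'
    have h1 := gkm_rel_mul (gktX_rel N n χ) (gktX_rel N n χ')
    have h2 := gktX_rel N n (χ + χ')
    have e : gkcChar n ((χ + χ' : gasmPEHoms N (ZMod n)) : s16lbAb N →+ ZMod n) =
        gkcChar n (χ : s16lbAb N →+ ZMod n) * gkcChar n (χ' : s16lbAb N →+ ZMod n) := by
      rw [AddSubgroup.coe_add, gkcChar_add]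
    rw [e] at h2
    exact gkm_rel_unique hn (mul_ne_zero (gktX_ne_zero N n χ) (gktX_ne_zero N n χ'))
      (gktX_ne_zero N n (χ + χ')) h1 h2
  · -- hXinj
    intro χ hrel
    obtain ⟨g, hg, hX⟩ := hrel
    rw [one_mul] at hX
    have h1 : GkmRel N n 1 (gktX N n χ) := by
      rw [hX]
      exact gkm_rel_pow_self hn hg
    have h2 := gkm_rel_char_unique hn (gktX_ne_zero N n χ) (gktX_rel N n χ) h1
    have h3 := (gkcChar_eq_one_iff n (χ : s16lbAb N →+ ZMod n)).mp h2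
    exact Subtype.ext h3
  · -- hfin
    exact gkm_fin hn
  · -- hHecke
    intro ℓ _ hℓN hℓn χ χ' hχ f hf hrel
    haveI : NeZero ℓ := ⟨(Fact.out : ℓ.Prime).ne_zero⟩
    obtain ⟨ζ, hζ, hnorm⟩ := gkt_isHeckeNorm N hℓN
    have hf' : gdqIota N f ≠ 0 := by
      obtain ⟨g, hg, hX⟩ := hrel
      intro h0
      rw [h0, zero_mul] at hX
      exact gktX_ne_zero N n χ hX
    have h1 : GkmRel N n (gkcChar n (χ : s16lbAb N →+ ZMod n)) (gdqIota N f) :=
      gkm_rel_of_gdRel (gktX_rel N n χ) (gkt_gdRel_symm hrel)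
    have h2 := gkm_rel_hecke hn hℓN ζ hζ hf' (hnorm f) h1
    have e : gkmTr N ℓ hℓN (gkcChar n (χ : s16lbAb N →+ ZMod n)) =
        gkcChar n (χ' : s16lbAb N →+ ZMod n) := by
      refine MonoidHom.ext fun γ => ?_
      rw [gkmTr_apply, gkc_prod_coc, hχ]
      rfl
    rw [e] at h2
    -- the Hecke norm of a nonzero function is nonzero
    have hH0 : gdqIota N (gHeckeFun N ℓ f) ≠ 0 := by
      intro h0
      have h1 : gHeckeFun N ℓ f = 0 := (map_eq_zero_iff _ (gdqIota N).injective).mp h0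
      rw [gHeckeFun_apply] at h1
      exact gff_norm_ne_zero (heckeAlphaBar (AlgebraicClosure ℚ) N ℓ) (gff_alpha_finite N ℓ) _
        ((map_ne_zero (heckeBetaBar (AlgebraicClosure ℚ) N ℓ)).mpr hf) h1
    exact gkm_rel_unique hn hH0 (gktX_ne_zero N n χ') h2 (gktX_rel N n χ')

/-- `gasm_theta` of `G/Asm/Spec.lean`, VERBATIM (`n = p`). -/
theorem gkt_gasm_theta (N : ℕ) [NeZero N] (p : ℕ) [Fact p.Prime] :
    ∃ Θ : gasmPEHoms N (ZMod p) →+ JZero N, Function.Injective Θ ∧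
      ∀ (ℓ : ℕ) [Fact ℓ.Prime] (hℓN : ¬ ℓ ∣ N) (_ : ℓ ≠ p) (χ χ' : gasmPEHoms N (ZMod p)),
        (χ' : s16lbAb N →+ ZMod p) = (χ : s16lbAb N →+ ZMod p).comp (gasmTr N ℓ hℓN) →
          Θ χ' = heckeOperatorBar N ⟨ℓ, Fact.out⟩ (Θ χ) := by
  obtain ⟨Θ, hinj, -, hT⟩ := gkt_theta N p (Fact.out : p.Prime).pos
  refine ⟨Θ, hinj, fun ℓ _ hℓN hℓp χ χ' hχ => hT ℓ hℓN ?_ χ χ' hχ⟩
  intro hdvd
  exact hℓp ((Nat.prime_dvd_prime_iff_eq (Fact.out : ℓ.Prime) (Fact.out : p.Prime)).mp hdvd)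

end Fermat.Agent.G
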