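/-
Program G / package Kum (helper22): THE COMPATIBLE FAMILY `Θ_n` (all `n > 0` at once), for S30/S31.

`GktfPt N n ψ P` : `P ∈ J₀(N)(ℚ̄)` is THE point attached to the finite-order character
`ψ : Γ₀(N) →* ℂˣ` at level `n`: `P = [(1/n) div f]` for some `f ∈ F_ℚ̄(N)` whose base change to `ℂ`
has, modulo `n`-th powers, a holomorphic `n`-th root with multiplier `ψ`.

* `gktf_pt_unique` : the point does not depend on the level `n` (same `ψ`, levels `n`, `n'`).
* `gktf_pt_hecke`  : `T_ℓ` of the point of `ψ` is the point of the transfer `ψ ∘ T_ℓ` (`ℓ ∤ N`).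
* `gktf_theta`     : `Θ_n : Hom_pe(Γ₀(N), ℤ/n) →+ J₀(N)(ℚ̄)[n]` injective with
                     `GktfPt N n (gkcChar n χ) (Θ_n χ)`.
* `gktf_family`    : all `Θ_n` at once: injective, `n`-torsion valued, Hecke equivariant (`ℓ ∤ N`, no
                     condition `ℓ ∤ n` needed) and COMPATIBLE:
                     `gkcChar n χ = gkcChar n' χ' → Θ_n χ = Θ_n' χ'`.
-/
import Fermat.Agent.G.Kum.Theta

set_option autoImplicit false
set_option linter.unusedSectionVars false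
set_option linter.unusedVariables false
set_option linter.style.haveILetI false

noncomputable section

namespace Fermat.Agent.G

open CongruenceSubgroup ModularCurve AlgebraicCurve HahnSeries Fermat.Agent.S24
  Fermat.Agent.S16LB

variable {N : ℕ} [NeZero N]

/-- `P` is the point of `J₀(N)(ℚ̄)` attached to the character `ψ` at level `n`. -/
def GktfPt (N : ℕ) [NeZero N] (n : ℕ) (ψ : Gamma0 N →* ℂˣ) (P : JZero N) : Prop :=
  ∃ f : modularFunctionFieldBar N, f ≠ 0 ∧ GkmRel N n ψ (gdqIota N f) ∧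
    GdkRep (K := QBar) n f P

theorem gktf_rel_of_iota_rel (n : ℕ) (hn : 0 < n) {f f' : modularFunctionFieldBar N} (hf : f ≠ 0)
    (hf' : f' ≠ 0) (h : GdRel n (gdqIota N f) (gdqIota N f')) : GdRel n f f' := by
  letI : Algebra QBar ℂ := iotaBar.toAlgebra
  haveI : IsScalarTower ℚ QBar ℂ := IsScalarTower.of_algebraMap_eq fun r => by
    simp
  exact gd_rel_of_iota_rel (modularFunctionFieldFull N) n hn hf hf' h

theorem gktf_gdqIota_ne_zero {f : modularFunctionFieldBar N} (hf : f ≠ 0) : gdqIota N f ≠ 0 :=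
  (map_ne_zero_iff _ (gdqIota N).injective).mpr hf

/-- change of level in the Kummer model: `(1/(n d)) div (f^d) = (1/n) div f`. -/
theorem gktf_gdkRep_level {K F : Type*} [Field K] [Field F] [Algebra K F] {n : ℕ} (d : ℕ) {f : F}
    {x : Pic0 K F} (hx : GdkRep (K := K) n f x) : GdkRep (K := K) (n * d) (f ^ d) x := by
  obtain ⟨D, rfl, hD⟩ := hx
  refine ⟨D, rfl, fun P => ?_⟩
  rw [← zpow_natCast, P.ord_zpow, ← hD P]
  push_cast
  ring

/-- **the point attached to a character does not depend on the level.** -/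
theorem gktf_pt_unique {n n' : ℕ} (hn : 0 < n) (hn' : 0 < n') {ψ : Gamma0 N →* ℂˣ}
    {P P' : JZero N} (h : GktfPt N n ψ P) (h' : GktfPt N n' ψ P') : P = P' := by
  obtain ⟨f, hf, hrel, hrep⟩ := h
  obtain ⟨f', hf', hrel', hrep'⟩ := h'
  have hnn : 0 < n * n' := Nat.mul_pos hn hn'
  have h1 : GkmRel N (n * n') ψ (gdqIota N (f ^ n')) := by
    rw [map_pow]
    exact gkm_rel_pow_level n' hrel
  have h2 : GkmRel N (n * n') ψ (gdqIota N (f' ^ n)) := by
    rw [map_pow, mul_comm n n']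
    exact gkm_rel_pow_level n hrel'
  have hfp : f ^ n' ≠ 0 := pow_ne_zero _ hf
  have hfp' : f' ^ n ≠ 0 := pow_ne_zero _ hf'
  have h3 : GdRel (n * n') (gdqIota N (f ^ n')) (gdqIota N (f' ^ n)) :=
    gkm_rel_unique hnn (gktf_gdqIota_ne_zero hfp) (gktf_gdqIota_ne_zero hfp') h1 h2
  have h4 : GdRel (n * n') (f ^ n') (f' ^ n) := gktf_rel_of_iota_rel (n * n') hnn hfp hfp' h3
  have h5 : GdkRep (K := QBar) (n * n') (f ^ n') P := gktf_gdkRep_level n' hrep
  have h6 : GdkRep (K := QBar) (n * n') (f' ^ n) P' := by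
    have := gktf_gdkRep_level n hrep'
    rwa [mul_comm n' n] at this
  haveI : HasPrincipalDivisors QBar (modularFunctionFieldBar N) :=
    (gdq_isSepGen N).hasPrincipalDivisors
  exact gdkRep_unique hnn (gdkRep_of_rel hfp h4 h5) h6

/-- **Hecke equivariance of the point attached to a character** (`ℓ ∤ N`; no condition on
`gcd(ℓ, n)`). -/
theorem gktf_pt_hecke {n : ℕ} (hn : 0 < n) {ℓ : ℕ} [Fact ℓ.Prime] (hℓN : ¬ ℓ ∣ N)
    {ψ : Gamma0 N →* ℂˣ} {P : JZero N} (h : GktfPt N n ψ P) :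
    GktfPt N n (gkmTr N ℓ hℓN ψ) (heckeOperatorBar N ⟨ℓ, Fact.out⟩ P) := by
  haveI : NeZero ℓ := ⟨(Fact.out : ℓ.Prime).ne_zero⟩
  obtain ⟨f, hf, hrel, D, rfl, hD⟩ := h
  obtain ⟨ζ, hζ, hnorm⟩ := gkt_isHeckeNorm N hℓN
  obtain ⟨E, hE1, hE2, hE3⟩ := gff_hecke_class N ℓ Fact.out D n f hf hD
  refine ⟨gHeckeFun N ℓ f, hE2, ?_, E, hE1, hE3⟩
  exact gkm_rel_hecke hn hℓN ζ hζ (gktf_gdqIota_ne_zero hf) (hnorm f) hrel

/-- `Θ_n` with its characterisation. -/
theorem gktf_theta (N : ℕ) [NeZero N] (n : ℕ) [NeZero n] :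
    ∃ Θ : gasmPEHoms N (ZMod n) →+ JZero N, Function.Injective Θ ∧
      (∀ χ, Θ χ ∈ Pic0.torsion QBar (modularFunctionFieldBar N) n) ∧
      ∀ χ : gasmPEHoms N (ZMod n),
        GktfPt N n (gkcChar n (χ : s16lbAb N →+ ZMod n)) (Θ χ) := by
  have hn : 0 < n := NeZero.pos n
  obtain ⟨Θ, hinj, htor, hrep⟩ := gdq_theta N n hn (gkm_fin hn) (gktX N n) (gktX_ne_zero N n)
    (fun χ => gkm_div_of_root hn (gkt_char_PE N n χ) (gktX_ne_zero N n χ) (gktX_root N n χ))
    (by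
      intro χ χ'
      have h1 := gkm_rel_mul (gktX_rel N n χ) (gktX_rel N n χ')
      have h2 := gktX_rel N n (χ + χ')
      have e : gkcChar n ((χ + χ' : gasmPEHoms N (ZMod n)) : s16lbAb N →+ ZMod n) =
          gkcChar n (χ : s16lbAb N →+ ZMod n) * gkcChar n (χ' : s16lbAb N →+ ZMod n) := by
        rw [AddSubgroup.coe_add, gkcChar_add]
      rw [e] at h2
      exact gkm_rel_unique hn (mul_ne_zero (gktX_ne_zero N n χ) (gktX_ne_zero N n χ'))
        (gktX_ne_zero N n (χ + χ')) h1 h2)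
    (by
      intro χ hrel
      obtain ⟨g, hg, hX⟩ := hrel
      rw [one_mul] at hX
      have h1 : GkmRel N n 1 (gktX N n χ) := by
        rw [hX]
        exact gkm_rel_pow_self hn hg
      have h2 := gkm_rel_char_unique hn (gktX_ne_zero N n χ) (gktX_rel N n χ) h1
      have h3 := (gkcChar_eq_one_iff n (χ : s16lbAb N →+ ZMod n)).mp h2
      exact Subtype.ext h3)
  refine ⟨Θ, hinj, htor, fun χ => ?_⟩
  obtain ⟨f, hf, hrel, hrepf⟩ := hrep χ
  exact ⟨f, hf, gkm_rel_of_gdRel (gktX_rel N n χ) (gkt_gdRel_symm hrel), hrepf⟩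

/-- **THE COMPATIBLE FAMILY.** -/
theorem gktf_family (N : ℕ) [NeZero N] :
    ∃ Θ : ∀ (n : ℕ) [NeZero n], gasmPEHoms N (ZMod n) →+ JZero N,
      (∀ (n : ℕ) [NeZero n], Function.Injective (Θ n)) ∧
      (∀ (n : ℕ) [NeZero n] (χ : gasmPEHoms N (ZMod n)),
        Θ n χ ∈ Pic0.torsion QBar (modularFunctionFieldBar N) n) ∧
      (∀ (n : ℕ) [NeZero n] (χ : gasmPEHoms N (ZMod n)),
        GktfPt N n (gkcChar n (χ : s16lbAb N →+ ZMod n)) (Θ n χ)) ∧
      (∀ (n : ℕ) [NeZero n] (ℓ : ℕ) [Fact ℓ.Prime] (hℓN : ¬ ℓ ∣ N)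
        (χ χ' : gasmPEHoms N (ZMod n)),
        (χ' : s16lbAb N →+ ZMod n) = (χ : s16lbAb N →+ ZMod n).comp (gasmTr N ℓ hℓN) →
          Θ n χ' = heckeOperatorBar N ⟨ℓ, Fact.out⟩ (Θ n χ)) ∧
      (∀ (n n' : ℕ) [NeZero n] [NeZero n'] (χ : gasmPEHoms N (ZMod n))
        (χ' : gasmPEHoms N (ZMod n')),
        gkcChar n (χ : s16lbAb N →+ ZMod n) = gkcChar n' (χ' : s16lbAb N →+ ZMod n') →
          Θ n χ = Θ n' χ') := by
  choose Θ hinj htor hpt using fun (n : ℕ) (hn : NeZero n) => @gktf_theta N _ n hn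
  refine ⟨fun n hn => Θ n hn, fun n hn => hinj n hn, fun n hn => htor n hn,
    fun n hn => hpt n hn, ?_, ?_⟩
  · intro n hn ℓ _ hℓN χ χ' hχ
    have h1 := gktf_pt_hecke (NeZero.pos n) hℓN (hpt n hn χ)
    have e : gkmTr N ℓ hℓN (gkcChar n (χ : s16lbAb N →+ ZMod n)) =
        gkcChar n (χ' : s16lbAb N →+ ZMod n) := by
      refine MonoidHom.ext fun γ => ?_
      rw [gkmTr_apply, gkc_prod_coc, hχ]
      rfl
    rw [e] at h1
    exact gktf_pt_unique (NeZero.pos n) (NeZero.pos n) (hpt n hn χ') h1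
  · intro n n' hn hn' χ χ' hχ
    have h1 := hpt n hn χ
    rw [hχ] at h1
    exact gktf_pt_unique (NeZero.pos n) (NeZero.pos n') h1 (hpt n' hn' χ')

end Fermat.Agent.G
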