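/-
Program G / package Kum, row KUM-HMULT (helper18): the multiplier of the analytic Hecke norm
`∏ i, H ∘ α_i` is the transfer of the multiplier of `H` (helper prefix `gkmh_`).
-/
import Fermat.Agent.G.Kum.Defs

set_option autoImplicit false
set_option linter.unusedSectionVars false

noncomputable section

namespace Fermat.Agent.G

open UpperHalfPlane ModularCurve AlgebraicCurve CongruenceSubgroup Fermat.Agent.S24
  Fermat.Agent.S16LB IntermediateField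
open P2MW.S_ModularForm_heckeT_slash_eq_self_of_mem_Gamma0.ModularForm.HeckeSlashInvariance
open scoped MatrixGroups Manifold ModularForm Real

/-- pointwise form of `GkmMult`. -/
theorem gkmh_mult_apply {N : ℕ} {χ : Gamma0 N →* ℂˣ} {H : HolRing} (h : GkmMult N χ H)
    (γ : Gamma0 N) (τ : ℍ) :
    (H : ℍ → ℂ) ((Matrix.SpecialLinearGroup.mapGL ℝ (γ : SL(2, ℤ)) : GL (Fin 2) ℝ) • τ) =
      ((χ γ : ℂˣ) : ℂ) * (H : ℍ → ℂ) τ := by
  have h1 := congrArg (fun F : HolRing => (F : ℍ → ℂ) τ) (h γ)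
  simp only [HolRing.inv_smul_apply, Subring.coe_mul, Pi.mul_apply, HolRing.C_apply] at h1
  exact h1

/-- pointwise criterion for `GkmMult`. -/
theorem gkmh_mult_of_apply {N : ℕ} {χ : Gamma0 N →* ℂˣ} {H : HolRing}
    (h : ∀ (γ : Gamma0 N) (τ : ℍ),
      (H : ℍ → ℂ) ((Matrix.SpecialLinearGroup.mapGL ℝ (γ : SL(2, ℤ)) : GL (Fin 2) ℝ) • τ) =
        ((χ γ : ℂˣ) : ℂ) * (H : ℍ → ℂ) τ) : GkmMult N χ H := by
  intro γ
  ext τ
  simp only [HolRing.inv_smul_apply, Subring.coe_mul, Pi.mul_apply, HolRing.C_apply]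
  exact h γ τ

variable {N : ℕ} [NeZero N] {n : ℕ}

section Hecke

variable {ℓ : ℕ} [Fact ℓ.Prime]

/-- (HMULT) the multiplier of `∏ i, H ∘ α_i` is the transfer of the multiplier of `H`
(multiplicative twin of helper1's `S16lbHeckeData.periods`). -/
theorem gkm_heckeHol_mult (hℓN : ¬ ℓ ∣ N) {χ : Gamma0 N →* ℂˣ} {H : HolRing}
    (h : GkmMult N χ H) : GkmMult N (gkmTr N ℓ hℓN χ) (gkmHeckeHol ℓ H) := by
  refine gkmh_mult_of_apply fun γ τ => ?_
  set D := s16lbDataT N ℓ hℓN with hD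
  rw [gkmHeckeHol_apply, gkmHeckeHol_apply, gkmTr_apply]
  have h1 : ∀ i : OnePoint (ZMod ℓ),
      (H : ℍ → ℂ) ((heckeRep ℓ i : GL (Fin 2) ℝ) •
        ((Matrix.SpecialLinearGroup.mapGL ℝ (γ : SL(2, ℤ)) : GL (Fin 2) ℝ) • τ)) =
      ((χ (D.coc γ i) : ℂˣ) : ℂ) *
        (H : ℍ → ℂ) ((heckeRep ℓ (D.idx γ i) : GL (Fin 2) ℝ) • τ) := by
    intro i
    have hs : (heckeRep ℓ i : GL (Fin 2) ℝ) *
        (Matrix.SpecialLinearGroup.mapGL ℝ (γ : SL(2, ℤ)) : GL (Fin 2) ℝ) =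
        (Matrix.SpecialLinearGroup.mapGL ℝ ((D.coc γ i : Gamma0 N) : SL(2, ℤ)) : GL (Fin 2) ℝ) *
          heckeRep ℓ (D.idx γ i) := D.spec γ i
    rw [← mul_smul, hs, mul_smul]
    exact gkmh_mult_apply h (D.coc γ i) _
  rw [Finset.prod_congr rfl fun i _ => h1 i, Finset.prod_mul_distrib, Units.coe_prod]
  congr 1
  exact Equiv.prod_comp (D.perm γ)
    (fun i => (H : ℍ → ℂ) ((heckeRep ℓ i : GL (Fin 2) ℝ) • τ))

end Hecke

end Fermat.Agent.G
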